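import Fermat.Agent.RT.TWEig2M
import Fermat.Agent.RT.TWEig1M
import Fermat.Agent.RT.TWInertiaDef
import Fermat.Agent.RT.Wiring.HDatum

/-!
# The action of a deformation ring on the Taylor–Wiles module `M'` (SC-6)

`D : DeformationRingData 𝒪 ρbar 𝒟`, `d` the Hecke datum over `heckeLocal (N Q²)` with `𝒟 d.ρ`.
`exists_action`: `φ : D.R → heckeLocal`, `Φ : heckeLocal → End M'`, equivariant for the diamonds,
with the two local conditions `E1`, `E2` at the Taylor–Wiles primes.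
-/

set_option autoImplicit false
set_option linter.unusedSectionVars false

open Matrix Matrix.SpecialLinearGroup CongruenceSubgroup IsLocalRing Polynomial
open scoped MatrixGroups OnePoint

noncomputable section

namespace Fermat.Agent.DR.SC.Action

open Fermat.Agent.RT Fermat.Agent.RT.TWS Fermat.Agent.RT.TWS.TWP Fermat.Agent.CMP.S58Assembly
  Fermat.Agent.UDef Fermat.Agent.RT.SelUnram

local notation "Qbar" => AlgebraicClosure ℚ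
local notation "Γℚ" => (AlgebraicClosure ℚ ≃ₐ[ℚ] AlgebraicClosure ℚ)

/-! ### `heckeLocal` is generated by the `T_ℓ` -/

section Gen

variable {M : ℕ} [NeZero M] {S : Set ℕ} {𝒪 : Type} [CommRing 𝒪] [IsDomain 𝒪]
  [IsDiscreteValuationRing 𝒪] [IsAdicComplete (maximalIdeal 𝒪) 𝒪]
  {θ : CuspForm.heckeAlgebra M 2 S →+* ResidueField 𝒪}
  [Fact (CuspForm.HasIntegralStructure M 2)]

/-- A subalgebra of `heckeLocal` containing all `T_ℓ` is everything. -/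
theorem eq_top_of_T_mem (hMS : ∀ q : ℕ, q.Prime → q ∣ M → q ∈ S)
    (B : Subalgebra 𝒪 (CuspForm.heckeLocal M S 𝒪 θ))
    (h : ∀ (ℓ : ℕ) (hℓ : ℓ.Prime) (hℓN : ¬ ℓ ∣ M) (hℓS : ℓ ∉ S),
      CuspForm.heckeLocal.π M S 𝒪 θ (CuspForm.heckeAlgebra.T hℓ hℓN hℓS) ∈ B) : B = ⊤ := by
  rw [← top_le_iff, ← HeckeLocalFields.adjoin_range_π]
  refine Algebra.adjoin_le ?_
  rintro _ ⟨x, rfl⟩
  obtain ⟨a, rfl⟩ := MSHecke.evForms_surjective M S x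
  induction a using MvPolynomial.induction_on with
  | C r =>
    have e1 : MSHecke.evForms M S (MvPolynomial.C r) = algebraMap ℤ _ r :=
      AlgHom.commutes (MSHecke.evForms M S) r
    rw [e1, eq_intCast, map_intCast]
    exact intCast_mem B r
  | add a b ha hb => rw [map_add, map_add]; exact B.add_mem ha hb
  | mul_X a i ha =>
    rw [map_mul, map_mul, MSHecke.evForms_X]
    refine B.mul_mem ha ?_
    have h1 : ¬ (i.1 : ℕ) ∣ M := fun h' => i.2 (hMS _ i.1.2 h')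
    rw [MSHecke.genS_of_not_dvd M S i h1]
    exact h _ _ _ _

end Gen

/-! ### Unramifiedness after base change -/

/-- base change of an equivalence -/
theorem isUnramifiedAt_baseChange_iff {R T B : Type} [CommRing R] [IsLocalRing R] [CommRing T]
    [IsLocalRing T] [CommRing B] [IsLocalRing B] {ρ : GaloisRepAdic R} {ρ' : GaloisRepAdic T}
    (φ : R →+* T) (hφ : IsLocalHom φ) (he : (ρ.baseChangeAlong φ hφ).IsEquiv ρ')
    (f : T →+* B) (hf : IsLocalHom f) (hfφ : IsLocalHom (f.comp φ)) (q : ℕ) :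
    (ρ'.baseChangeAlong f hf).IsUnramifiedAt q ↔
      (ρ.baseChangeAlong (f.comp φ) hfφ).IsUnramifiedAt q := by
  obtain ⟨M, hM⟩ := exists_model ρ
  have h1 : IsModel ρ' (mapRep φ M) := (hM.baseChangeAlong φ hφ).of_isEquiv he
  have h2 : IsModel (ρ'.baseChangeAlong f hf) (mapRep f (mapRep φ M)) := h1.baseChangeAlong f hf
  have h3 : IsModel (ρ.baseChangeAlong (f.comp φ) hfφ) (mapRep (f.comp φ) M) :=
    hM.baseChangeAlong _ hfφ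
  have h4 : ∀ σ, mapRep f (mapRep φ M) σ = mapRep (f.comp φ) M σ := by
    intro σ
    rw [mapRep_apply, mapRep_apply, mapRep_apply, Matrix.map_map]
    rfl
  constructor
  · intro h P hP σ hσ
    have := (TWInertia.isModel_eq_one_iff h2 σ).mpr (h P hP σ hσ)
    rw [h4] at this
    exact (TWInertia.isModel_eq_one_iff h3 σ).mp this
  · intro h P hP σ hσ
    have := (TWInertia.isModel_eq_one_iff h3 σ).mpr (h P hP σ hσ)
    rw [← h4] at this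
    exact (TWInertia.isModel_eq_one_iff h2 σ).mp this

variable {p N r : ℕ} {W : TWP p N r} [hp : Fact p.Prime]
variable {𝒪 : Type} [CommRing 𝒪] [IsDomain 𝒪] [IsDiscreteValuationRing 𝒪]
  [IsAdicComplete (maximalIdeal 𝒪) 𝒪] [Finite (ResidueField 𝒪)] [CharZero 𝒪]
variable {ε : ℤ} {t α : ℕ → 𝒪} {S I : Set ℕ} {SQ : Finset ℕ}

/-- **SC-6**: the action of the deformation ring on `M'`. -/
theorem exists_action (h30 : Datum.S30Statement) (h35 : S35Prop) (h36 : S36Prop)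
    (hpO : (p : 𝒪) ∈ maximalIdeal 𝒪)
    (hG : W.Good S I) (hSQ : IsSQ W S (↑SQ : Set ℕ)) (hpS : p ∈ SQ) [NeZero (N * W.Q ^ 2)]
    [Fact (CuspForm.HasIntegralStructure (N * W.Q ^ 2) 2)]
    {θ : CuspForm.heckeAlgebra (N * W.Q ^ 2) 2 (↑SQ : Set ℕ) →+* ResidueField 𝒪}
    (hθ : ∀ (ℓ : ℕ) (hℓ : ℓ.Prime) (hℓN : ¬ ℓ ∣ N * W.Q ^ 2) (hℓS : ℓ ∉ (↑SQ : Set ℕ)),
      residue 𝒪 (t ℓ) = θ (CuspForm.heckeAlgebra.T hℓ hℓN hℓS))
    (hE : ∃ ℓ₀ : ℕ, ℓ₀.Prime ∧ ℓ₀ ∉ (↑SQ : Set ℕ) ∧ ((ℓ₀ : ℕ) : ZMod (N * W.Q ^ 2)) = 1 ∧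
      residue 𝒪 (t ℓ₀) ≠ 1 + (ℓ₀ : ResidueField 𝒪))
    {ρbar : ResidualGaloisRep (ResidueField 𝒪)}
    {𝒟 : ∀ ⦃A : Type⦄ [CommRing A] [IsLocalRing A] [Algebra 𝒪 A], GaloisRepAdic A → Prop}
    (DQ : GaloisRep.DeformationRingData 𝒪 ρbar 𝒟)
    (hfrob : ∀ (ℓ : ℕ) (hℓ : ℓ.Prime) (hℓN : ¬ ℓ ∣ N * W.Q ^ 2) (hℓS : ℓ ∉ (↑SQ : Set ℕ)),
      ∀ A : ValuationSubring Qbar, A.LiesOverPrime ℓ → ∀ σ : Γℚ, A.IsFrobeniusAt σ ℓ →
        LinearMap.charpoly (ρbar.ρ σ) =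
          X ^ 2 - C (θ (CuspForm.heckeAlgebra.T hℓ hℓN hℓS)) * X + C ((ℓ : ResidueField 𝒪)))
    (d : CuspForm.HeckeGaloisRepDatum (N * W.Q ^ 2) (↑SQ : Set ℕ) 𝒪 θ
      (CuspForm.heckeLocal (N * W.Q ^ 2) (↑SQ : Set ℕ) 𝒪 θ))
    (hd : d.π = CuspForm.heckeLocal.π (N * W.Q ^ 2) (↑SQ : Set ℕ) 𝒪 θ)
    (h𝒟 : 𝒟 d.ρ) :
    ∃ (φ : DQ.R →ₐ[𝒪] CuspForm.heckeLocal (N * W.Q ^ 2) (↑SQ : Set ℕ) 𝒪 θ)
      (Φ : CuspForm.heckeLocal (N * W.Q ^ 2) (↑SQ : Set ℕ) 𝒪 θ →ₐ[𝒪]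
        Module.End 𝒪 (W.M' ε S t I α)),
      Function.Surjective φ ∧
      (∀ (ℓ : ℕ) (hℓ : ℓ.Prime) (hℓN : ¬ ℓ ∣ N * W.Q ^ 2) (hℓS : ℓ ∉ (↑SQ : Set ℕ)),
        ∀ A : ValuationSubring Qbar, A.LiesOverPrime ℓ → ∀ σ : Γℚ, A.IsFrobeniusAt σ ℓ →
          φ (DQ.ρ.trace σ) = CuspForm.heckeLocal.π (N * W.Q ^ 2) (↑SQ : Set ℕ) 𝒪 θ
            (CuspForm.heckeAlgebra.T hℓ hℓN hℓS)) ∧
      (∀ (ℓ : ℕ) (hℓ : ℓ.Prime) (hℓN : ¬ ℓ ∣ N * W.Q ^ 2) (hℓS : ℓ ∉ (↑SQ : Set ℕ)),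
        Φ (CuspForm.heckeLocal.π (N * W.Q ^ 2) (↑SQ : Set ℕ) 𝒪 θ
          (CuspForm.heckeAlgebra.T hℓ hℓN hℓS)) =
            hopM' hG ε t α (isHop_TH hℓ (not_dvd_of_IsSQ hG hSQ hℓ hℓS))) ∧
      (∀ (ℓ : ℕ) (hℓ : ℓ.Prime) (hℓS : ℓ ∉ (↑SQ : Set ℕ)),
        ∀ A : ValuationSubring Qbar, A.LiesOverPrime ℓ → ∀ σ : Γℚ, A.IsFrobeniusAt σ ℓ →
          (Φ.comp φ) (DQ.ρ.trace σ) =
            hopM' hG ε t α (isHop_TH hℓ (not_dvd_of_IsSQ hG hSQ hℓ hℓS))) ∧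
      (∀ f δ, Commute (Φ f) (dia' hG ε t α δ)) ∧
      (∀ (i : Fin r) (P : ValuationSubring Qbar), P.LiesOverPrime (W.q i) →
        ∀ F : Γℚ, P.IsFrobeniusAt F (W.q i) → ∀ a b : ResidueField 𝒪, a ≠ b →
        LinearMap.charpoly (ρbar.ρ F) = (X - C a) * (X - C b) →
        ∀ (n : ℕ) (T : TWInertia.Data DQ.ρ P F n) (z : W.M' ε S t I α),
          dia' hG ε t α (GroupAlg.gen (fun i => p ^ W.a i) i) z = z →
            (Φ.comp φ) (T.g : DQ.R) z = z) ∧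
      (∀ (i : Fin r) (P : ValuationSubring Qbar), P.LiesOverPrime (W.q i) →
        ∀ (F : Γℚ) (n : ℕ) (T : TWInertia.Data DQ.ρ P F n) (m : ℕ), m ≠ 0 →
        ∀ z : W.M' ε S t I α,
          ∑ j ∈ Finset.range m, dia' hG ε t α (GroupAlg.gen (fun i => p ^ W.a i) i ^ j) z = 0 →
            (Φ.comp φ) (T.g : DQ.R) z = z → z = 0) := by
  have hNS : ∀ q : ℕ, q.Prime → q ∣ N * W.Q ^ 2 → q ∈ SQ := by
    intro q hq h
    by_contra hcon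
    exact not_dvd_sq_of_IsSQ hG hSQ hq (fun h' => hcon (Finset.mem_coe.mp h')) h
  obtain ⟨φ, hφs, hφl, he⟩ := Wiring.exists_surj_of_datum DQ d hNS h𝒟 hfrob
  obtain ⟨Φ, hΦ⟩ := exists_act (ε := ε) (α := α) (I := I) hG hSQ θ hθ hE
  have htr : ∀ (ℓ : ℕ) (hℓ : ℓ.Prime) (hℓN : ¬ ℓ ∣ N * W.Q ^ 2) (hℓS : ℓ ∉ (↑SQ : Set ℕ)),
      ∀ A : ValuationSubring Qbar, A.LiesOverPrime ℓ → ∀ σ : Γℚ, A.IsFrobeniusAt σ ℓ →
        φ (DQ.ρ.trace σ) = CuspForm.heckeLocal.π (N * W.Q ^ 2) (↑SQ : Set ℕ) 𝒪 θ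
          (CuspForm.heckeAlgebra.T hℓ hℓN hℓS) := by
    intro ℓ hℓ hℓN hℓS A hA σ hσ
    rw [Wiring.map_trace_frob DQ d φ hφl he hℓ hℓN hℓS hA hσ, hd]
  have hres : d.ρ.residual.IsEquiv (ρbar.baseChangeAlong (ResidueField.map (algebraMap 𝒪
      (CuspForm.heckeLocal (N * W.Q ^ 2) (↑SQ : Set ℕ) 𝒪 θ)))) :=
    Wiring.datum_residual_isEquiv d hNS DQ.absIrr hfrob
  have hunr : ∀ (i : Fin r) (P : ValuationSubring Qbar), P.LiesOverPrime (W.q i) →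
      ∀ (F : Γℚ) (n : ℕ) (T : TWInertia.Data DQ.ρ P F n) (𝒪' : Type) [CommRing 𝒪'] [IsDomain 𝒪']
      [IsLocalRing 𝒪'] (f : CuspForm.heckeLocal (N * W.Q ^ 2) (↑SQ : Set ℕ) 𝒪 θ →+* 𝒪')
      (hf : IsLocalHom f),
      ((d.ρ.baseChangeAlong f hf).IsUnramifiedAt (W.q i) ↔ f (φ (T.g : DQ.R)) = 1) := by
    intro i P hP F n T 𝒪' _ _ _ f hf
    have hfφ : IsLocalHom (f.comp (φ : DQ.R →+* _)) := RingHom.isLocalHom_comp _ _
    rw [isUnramifiedAt_baseChange_iff (φ : DQ.R →+* _) hφl he f hf hfφ (W.q i),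
      T.isUnramifiedAt_iff (W.prime i) hP _ hfφ]
    rfl
  refine ⟨φ, Φ, hφs, htr, hΦ, ?_, ?_, ?_, ?_⟩
  · intro ℓ hℓ hℓS A hA σ hσ
    have hℓN := not_dvd_sq_of_IsSQ hG hSQ hℓ hℓS
    rw [AlgHom.comp_apply, htr ℓ hℓ hℓN hℓS A hA σ hσ, hΦ]
  · intro f δ
    have h1 : (Subalgebra.centralizer 𝒪 {dia' hG ε t α δ}).comap Φ = ⊤ := by
      refine eq_top_of_T_mem (fun q hq h => Finset.mem_coe.mpr (hNS q hq h)) _ ?_
      intro ℓ hℓ hℓN hℓS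
      rw [Subalgebra.mem_comap, Subalgebra.mem_centralizer_iff, hΦ]
      rintro _ rfl
      exact (hopM'_dia' hG _ δ).symm.eq
    have h2 : f ∈ (Subalgebra.centralizer 𝒪 {dia' hG ε t α δ}).comap Φ := by
      rw [h1]; trivial
    rw [Subalgebra.mem_comap, Subalgebra.mem_centralizer_iff] at h2
    exact (h2 _ rfl).symm
  · intro i P hP F hF a b hab hchar n T z hz
    rw [AlgHom.comp_apply]
    refine eig_one h30 h35 hpO hG hSQ hpS hθ hE d hd Φ hΦ i hP hF (α' := ResidueField.map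
      (algebraMap 𝒪 _) a) (β' := ResidueField.map (algebraMap 𝒪 _) b) ?_ ?_ ?_ hz
    · exact fun h => hab (RingHom.injective _ h)
    · rw [TWInertia.charpoly_of_isEquiv hres, hchar, Polynomial.map_mul, Polynomial.map_sub,
        Polynomial.map_sub, Polynomial.map_X, Polynomial.map_C, Polynomial.map_C]
    · intro 𝒪' _ _ _ f hf h
      exact (hunr i P hP F n T 𝒪' f hf).mp h
  · intro i P hP F n T m hm z hz hgz
    rw [AlgHom.comp_apply] at hgz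
    refine eig_two h36 hpO hG hSQ hpS hθ hE d hd Φ hΦ i ?_ hm hz hgz
    intro 𝒪' _ _ _ f hf h
    exact (hunr i P hP F n T 𝒪' f hf).mpr h

end Fermat.Agent.DR.SC.Action
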