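import Fermat.Agent.DR.SC.Hbar
import Fermat.Agent.RT.TypeLevels
import Fermat.Agent.RT.TypeTau
import Fermat.Prelude.Def_WeierstrassCurve_PeuRamifiee

/-!
# Scalar case: the place `p` and the auxiliary prime for `ρbar = E[p] ⊗ k`

* `dvd_of_not_peu` : `¬ IsPeuRamifieeAt p p` means `p ∣ Δ` and `p ∤ v_p(Δ)`;
* `tSC M p` : the type `strict` if `p ∣ M`, `flat` otherwise;
* `atP_tSC` : `AtP (tSC M p) p L ρbar` for the levels `L` with `v_p(L) = v_p(M)`;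
* `hbar_tSC` : `ρbar` satisfies the base deformation condition of type `tSC M p`;
* `noNewAt_aux` : the auxiliary prime.
-/

set_option autoImplicit false

open Polynomial IsLocalRing Pointwise
open WeierstrassCurve.Affine.Point
open scoped WeierstrassCurve.Affine

namespace Fermat.Agent.DR.SC

open Fermat.Agent.RT.Wiring Fermat.Agent.RT.Typ

/-- `¬ IsPeuRamifieeAt p p` means `p ∣ Δ` and `p ∤ v_p(Δ)`. -/
theorem dvd_of_not_peu {W : WeierstrassCurve ℤ} {p : ℕ}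
    (h : ¬ (W.map (Int.castRingHom ℚ)).IsPeuRamifieeAt p p) :
    (p : ℤ) ∣ W.Δ ∧ ¬ p ∣ padicValInt p W.Δ := by
  have h2 : padicValRat p (W.map (Int.castRingHom ℚ)).Δ = (padicValInt p W.Δ : ℤ) := by
    rw [WeierstrassCurve.map_Δ]
    exact padicValRat.of_int
  rw [WeierstrassCurve.IsPeuRamifieeAt, h2, Int.natCast_dvd_natCast] at h
  refine ⟨?_, h⟩
  by_contra h3
  rw [padicValInt.eq_zero_of_not_dvd h3] at h
  exact h (dvd_zero p)

/-- The type at `p` of the deformation problem in the scalar case. -/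
def tSC (M p : ℕ) : PType := if p ∣ M then .strict else .flat

theorem tSC_ne_ord (M p : ℕ) : tSC M p ≠ .ord := by
  rw [tSC]; split_ifs <;> simp

section

variable {W : WeierstrassCurve ℤ} (hΔ : W.Δ ≠ 0) {p : ℕ} [hp : Fact p.Prime]

/-- **The condition at `p`** for `ρbar` at the levels `L` with `v_p(L) = v_p(M)`. -/
theorem atP_tSC (hp2 : p ≠ 2) (hss : W.IsSemistableModel) (𝒪 : Type) [CommRing 𝒪] [IsLocalRing 𝒪]
    [Algebra ℤ_[p] 𝒪] [IsLocalHom (algebraMap ℤ_[p] 𝒪)] {M : ℕ} (hM : Squarefree M)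
    (hpeu : p ∣ M → ¬ (W.map (Int.castRingHom ℚ)).IsPeuRamifieeAt p p) {L : ℕ} (hL : L ≠ 0)
    (hLp : L.factorization p = M.factorization p) :
    AtP (tSC M p) p L (rhoBar W hΔ p 𝒪) := by
  have hM0 : M ≠ 0 := hM.ne_zero
  rw [tSC]
  by_cases h : p ∣ M
  · rw [if_pos h]
    obtain ⟨h1, h2⟩ := dvd_of_not_peu (hpeu h)
    have h3 : M.factorization p = 1 := by
      have h4 := (Nat.squarefree_iff_factorization_le_one hM0).mp hM p
      have h5 := (hp.out.dvd_iff_one_le_factorization hM0).mp h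
      omega
    refine ⟨(dvd_iff hL hp.out).mpr (by omega), ?_, rhoBar_isOrdinaryAt hΔ 𝒪 hss h1,
      tauInput hΔ hp2 hss 𝒪 h1 h2⟩
    rw [sq_dvd_iff hL hp.out]
    omega
  · rw [if_neg h]
    intro hd
    rw [dvd_iff hL hp.out, hLp, ← dvd_iff hM0 hp.out] at hd
    exact h hd

/-- **The base deformation condition** for `ρbar`. -/
theorem hbar_tSC (hp2 : p ≠ 2) (hss : W.IsSemistableModel) (hirr : W.ModRepIsIrreducible p)
    (𝒪 : Type) [CommRing 𝒪] [IsDomain 𝒪] [IsDiscreteValuationRing 𝒪]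
    [IsAdicComplete (maximalIdeal 𝒪) 𝒪] [Finite (ResidueField 𝒪)] [CharZero 𝒪]
    [Algebra ℤ_[p] 𝒪] [IsLocalHom (algebraMap ℤ_[p] 𝒪)] (hp𝒪 : (p : 𝒪) ∈ maximalIdeal 𝒪)
    {M : ℕ} (hpeu : p ∣ M → ¬ (W.map (Int.castRingHom ℚ)).IsPeuRamifieeAt p p)
    {N : ℕ} [NeZero N] (hpN : p ∣ N → p ∣ M) {S : Finset ℕ}
    (hpS : p ∈ S) (hNS : ∀ q : ℕ, q.Prime → q ∣ N → q ∈ S)
    (hΔS : ∀ q : ℕ, q.Prime → (q : ℤ) ∣ W.Δ → q ∈ S)
    (χ₀ : CuspForm.heckeAlgebra N 2 (↑S : Set ℕ) →+* 𝒪)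
    (hχ₀ : ∀ (ℓ : ℕ) (hℓ : ℓ.Prime) (hℓN : ¬ ℓ ∣ N) (hℓS : ℓ ∉ (↑S : Set ℕ)),
      residue 𝒪 (χ₀ (CuspForm.heckeAlgebra.T hℓ hℓN hℓS)) = (W.apOfModel ℓ : ResidueField 𝒪)) :
    dCond (tSC M p) 𝒪 p (Smin W p) (Smin W p)
      (GaloisRepAdic.ofResidualGaloisRep (rhoBar W hΔ p 𝒪)) := by
  rw [tSC]
  by_cases h : p ∣ M
  · rw [if_pos h]
    exact hbar_strict hΔ 𝒪 hss (dvd_of_not_peu (hpeu h)).1
  · rw [if_neg h]
    exact hbar_flat hΔ 𝒪 hss (flat_of_level hΔ 𝒪 hp2 hss hirr hp𝒪 (fun h' => h (hpN h')) hpS hNS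
      hΔS χ₀ hχ₀)

/-- **The auxiliary prime.** -/
theorem noNewAt_aux (𝒪 : Type) [CommRing 𝒪] [IsLocalRing 𝒪]
    [Algebra ℤ_[p] 𝒪] [IsLocalHom (algebraMap ℤ_[p] 𝒪)] {s : ℕ} (hs : s.Prime) (hsp : s ≠ p)
    (hgood : W.IsGoodPrimeFor s)
    (hne : ((W.apOfModel s : ℤ) : ZMod p) ^ 2 ≠ ((s : ZMod p) + 1) ^ 2) :
    NoNewAt (rhoBar W hΔ p 𝒪) s := by
  refine noNewAt_rhoBar hΔ 𝒪 hs hsp hgood fun h => hne ?_
  apply (zmodToResidue p 𝒪).injective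
  rw [map_pow, map_pow, map_add, map_intCast, map_natCast, map_one]
  exact h

end

end Fermat.Agent.DR.SC
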