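import Fermat.Agent.RT.Wiring.Base

/-!
# Scalar case: the base ring `𝒪` with enough `p`-power roots of unity

`exists_base_mu`: as `RT.Wiring.exists_base`, with moreover a primitive `p ^ e`-th root of unity
in `𝒪`.
-/

set_option autoImplicit false

open Polynomial IsLocalRing CongruenceSubgroup ModularFormClass

namespace Fermat.Agent.DR.SC

open Fermat.Agent.CMP Fermat.Agent.RT.Wiring

/-- **The base ring, with `p`-power roots of unity.** -/
theorem exists_base_mu (p : ℕ) [hpf : Fact p.Prime] (W : WeierstrassCurve ℤ) {N : ℕ} [NeZero N]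
    (hres : W.IsResiduallyModularOfLevel p N) (S : Finset ℕ) (hpS : p ∈ S)
    (hΔS : ∀ q : ℕ, q.Prime → (q : ℤ) ∣ W.Δ → q ∈ S) (e : ℕ) :
    ∃ (𝒪 : Type) (_ : CommRing 𝒪) (_ : IsDomain 𝒪) (_ : IsDiscreteValuationRing 𝒪)
      (_ : IsAdicComplete (maximalIdeal 𝒪) 𝒪) (_ : Finite (ResidueField 𝒪))
      (_ : CharZero 𝒪) (_ : Algebra ℤ_[p] 𝒪) (_ : Module.Finite ℤ_[p] 𝒪)
      (_ : IsLocalHom (algebraMap ℤ_[p] 𝒪)),
      Function.Injective (algebraMap ℤ_[p] 𝒪) ∧ (p : 𝒪) ∈ maximalIdeal 𝒪 ∧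
      (∃ ζ : ResidueField 𝒪, IsPrimitiveRoot ζ (p ^ 2 - 1)) ∧
      (∃ ω : 𝒪, IsPrimitiveRoot ω (p ^ e)) ∧
      ∃ χ₀ : CuspForm.heckeAlgebra N 2 (↑S : Set ℕ) →+* 𝒪,
        ∀ (ℓ : ℕ) (hℓ : ℓ.Prime) (hℓN : ¬ ℓ ∣ N) (hℓS : ℓ ∉ (↑S : Set ℕ)),
          residue 𝒪 (χ₀ (CuspForm.heckeAlgebra.T hℓ hℓN hℓS)) =
            (W.apOfModel ℓ : ResidueField 𝒪) := by
  classical
  obtain ⟨f, 𝔪, hf, h𝔪, hp𝔪, hfa⟩ := hres
  have hn : p ^ 2 - 1 ≠ 0 := by
    have h2 := hpf.out.two_le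
    have : 4 ≤ p ^ 2 := by nlinarith
    omega
  have hpe : p ^ e ≠ 0 := pow_ne_zero _ hpf.out.ne_zero
  let χ := EigenCharOn.eigenCharOn (↑S : Set ℕ) hf
  obtain ⟨R, hRfin, hχR, ζ0, hζ0R, hζ0⟩ := exists_order χ (mul_ne_zero hn hpe)
  -- the two roots of unity
  have hζ : IsPrimitiveRoot (ζ0 ^ p ^ e) (p ^ 2 - 1) :=
    hζ0.pow (Nat.pos_of_ne_zero (mul_ne_zero hn hpe)) (mul_comm _ _)
  have hω : IsPrimitiveRoot (ζ0 ^ (p ^ 2 - 1)) (p ^ e) :=
    hζ0.pow (Nat.pos_of_ne_zero (mul_ne_zero hn hpe)) rfl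
  have hζR : ζ0 ^ p ^ e ∈ R := pow_mem hζ0R _
  have hωR : ζ0 ^ (p ^ 2 - 1) ∈ R := pow_mem hζ0R _
  generalize ζ0 ^ p ^ e = ζ at hζ hζR
  generalize ζ0 ^ (p ^ 2 - 1) = ω at hω hωR
  have hRint : ∀ x : R, IsIntegral ℤ (x : ℂ) := fun x => by
    have h1 : IsIntegral ℤ x := Algebra.IsIntegral.isIntegral x
    exact h1.map R.val
  let j : R →+* integralClosure ℤ ℂ := (R.val : R →+* ℂ).codRestrict
    (integralClosure ℤ ℂ).toSubring fun x => hRint x
  have hj : ∀ x : R, ((j x : integralClosure ℤ ℂ) : ℂ) = x := fun x => rfl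
  let 𝔫 : Ideal R := 𝔪.comap j
  have hp𝔫 : (p : R) ∈ 𝔫 := by
    rw [Ideal.mem_comap, map_natCast]; exact hp𝔪
  have hprime : 𝔫.IsPrime := Ideal.IsPrime.comap j
  have htf : Module.IsTorsionFree ℤ R := inferInstance
  have hmax : 𝔫.IsMaximal := by
    have hdom : IsDomain (R ⧸ 𝔫) := Ideal.Quotient.isDomain 𝔫
    have hfin : Finite (R ⧸ 𝔫) := by
      have hc : CharP (R ⧸ 𝔫) p := by
        refine (CharP.charP_iff_prime_eq_zero hpf.out).mpr ?_
        rw [← map_natCast (Ideal.Quotient.mk 𝔫), Ideal.Quotient.eq_zero_iff_mem]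
        exact hp𝔫
      let _ : Algebra (ZMod p) (R ⧸ 𝔫) := ZMod.algebra _ p
      have : Module.Finite ℤ (R ⧸ 𝔫) := inferInstance
      have : IsScalarTower ℤ (ZMod p) (R ⧸ 𝔫) := IsScalarTower.of_algebraMap_eq'
        (RingHom.ext_int _ _)
      have : Module.Finite (ZMod p) (R ⧸ 𝔫) := Module.Finite.of_restrictScalars_finite ℤ _ _
      exact Module.finite_of_finite (ZMod p)
    have := Finite.isField_of_domain (R ⧸ 𝔫)
    exact Ideal.Quotient.maximal_of_isField _ this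
  obtain ⟨O', i1, i2, i3, i4, i5, i6, i7, i8, i9, hinj, hpO, g, hg, hginj⟩ :=
    OrderDVR.exists_dvr_of_order p R 𝔫 hp𝔫
  have hginj' : Function.Injective g := hginj inferInstance
  refine ⟨O', i1, i2, i3, i4, i5, i6, i7, i8, i9, hinj, hpO, ?_, ⟨g ⟨ω, hωR⟩, ?_⟩, ?_⟩
  · refine ⟨residue O' (g ⟨ζ, hζR⟩), isPrimitiveRoot_residue ?_ ?_⟩
    · have h1 : IsPrimitiveRoot (⟨ζ, hζR⟩ : R) (p ^ 2 - 1) :=
        IsPrimitiveRoot.of_map_of_injective (f := R.val) (by exact hζ) Subtype.val_injective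
      exact h1.map_of_injective hginj'
    · intro h
      have h1 : (1 : ResidueField O') = 0 := by
        have h2 : ((p : ℕ) : ResidueField O') = 0 := by
          rw [← map_natCast (residue O'), residue_eq_zero_iff]; exact hpO
        have h3 : (((p ^ 2 - 1 : ℕ) : ResidueField O')) + 1 = (p : ResidueField O') ^ 2 := by
          have h4 : 1 ≤ p ^ 2 := Nat.one_le_pow _ _ hpf.out.pos
          have h5 : ((p ^ 2 - 1 + 1 : ℕ) : ResidueField O') = ((p ^ 2 : ℕ) : ResidueField O') := by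
            rw [Nat.sub_add_cancel h4]
          rwa [Nat.cast_add, Nat.cast_one, Nat.cast_pow] at h5
        rw [h, h2, zero_add] at h3
        rw [h3]; exact zero_pow two_ne_zero
      exact one_ne_zero h1
  · have h1 : IsPrimitiveRoot (⟨ω, hωR⟩ : R) (p ^ e) :=
      IsPrimitiveRoot.of_map_of_injective (f := R.val) (by exact hω) Subtype.val_injective
    exact h1.map_of_injective hginj'
  · let χR : CuspForm.heckeAlgebra N 2 (↑S : Set ℕ) →+* R := χ.codRestrict R.toSubring hχR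
    refine ⟨g.comp χR, fun ℓ hℓ hℓN hℓS => ?_⟩
    have hℓS' : ℓ ∉ S := fun h => hℓS (Finset.mem_coe.mpr h)
    have hℓp : ℓ ≠ p := fun h => hℓS' (h ▸ hpS)
    have hgood : W.IsGoodPrimeFor ℓ := fun h => hℓS' (hΔS ℓ hℓ h)
    obtain ⟨a, ha, ham⟩ := hfa ℓ hℓ hgood hℓN hℓp
    have h1 : χR (CuspForm.heckeAlgebra.T hℓ hℓN hℓS) - (W.apOfModel ℓ : R) ∈ 𝔫 := by
      rw [Ideal.mem_comap, map_sub, map_intCast]
      convert ham using 2
      apply Subtype.ext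
      rw [hj, ha]
      exact EigenCharOn.eigenCharOn_T _ hf hℓ hℓN hℓS
    rw [← hg, Ideal.mem_comap, map_sub, map_intCast] at h1
    rw [RingHom.comp_apply, ← sub_eq_zero, ← map_intCast (residue O'), ← map_sub,
      residue_eq_zero_iff]
    exact h1

end Fermat.Agent.DR.SC
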