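import Fermat.Agent.DR.SC.TraceH
import Fermat.Agent.RT.PointMore
import Fermat.Agent.RT.PointSig
import Fermat.Agent.RT.TwistHInj
import Fermat.Agent.RT.TwistHNew
import Fermat.Agent.RT.Wiring.EigBound

/-!
# Conductors of the eigensystems in the pair `(M₁, M_χ)` at the scalar prime `q`

* `sq_dvd_of_chi` : an eigensymbol of level `GammaH N Q ψ` whose diamond character is nontrivial
  at `q ∣ Q` has `q² ∣ cond`;
* `dvd_of_heckeU_sq` : an eigensymbol of level `Γ₀(Mq)` with `U_q² = 1` has `q ∣ cond`;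
* `dvd_of_new` : an eigensymbol of level `GammaH (Nq) Q ψ` with `U_q² = D ψ(q)` has `q ∣ cond`.
-/

set_option autoImplicit false

open Matrix Matrix.SpecialLinearGroup CongruenceSubgroup ModularFormClass
open scoped MatrixGroups OnePoint UpperHalfPlane

noncomputable section

namespace Fermat.Agent.DR.SC.Cond

open Fermat.Agent.LR Fermat.Agent.LR.PS Fermat.Agent.RT Fermat.Agent.RT.TwistH
open Fermat.Agent.RT.Point Fermat.Agent.Newform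

/-- `|a_q(g)| < q + 1`. -/
theorem norm_qCoeff_lt {C : ℕ} [NeZero C] {g : CuspForm (Gamma0 C) 2} (hg : g.IsNewform) {q : ℕ}
    (hq : q.Prime) (hqC : ¬ q ∣ C) : ‖qCoeff ⇑g q‖ < q + 1 := by
  refine RT.Wiring.EigBound.norm_lt_of_heckeT_eq (f := g) ?_ hq.ne_zero hq.ne_one
    (eig_of_eigenform hg.1 q hq hqC)
  rintro rfl
  have h1 := hg.1.qCoeff_one
  have h3 : qCoeff (⇑(0 : CuspForm (Gamma0 C) 2) : ℍ → ℂ) 1 = 0 :=
    HeckeDuality.qc_zero (N := C) (k := 2) 1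
  rw [h3] at h1
  exact zero_ne_one h1

section old

variable {C : ℕ} [NeZero C] {g : CuspForm (Gamma0 C) 2} {M : ℕ} [NeZero M] {S : Set ℕ}

/-- no eigenvalue `±1` of `U_q` on the `q`-old part. -/
theorem eq_zero_of_heckeU_eq (hg : g.IsNewform) {q : ℕ} (hS : S.Finite)
    (hbad : ∀ r : ℕ, r.Prime → r ∣ M * q → r ∈ S) (hne : NonEis (M * q) S (qCoeff ⇑g))
    (hq : q.Prime) (hqM : ¬ q ∣ M) (hCM : C ∣ M) {α : ℂ} (hα : α ^ 2 = 1) {y : Pairs ℂ}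
    (hy : y ∈ eigMS (M * q) S (qCoeff ⇑g)) (hU : heckeU q y = α • y) : y = 0 := by
  obtain ⟨x, -, h1, h2⟩ := exists_iP hg hS hbad hne hq hqM hCM hy hU
  have hqC : ¬ q ∣ C := fun h => hqM (h.trans hCM)
  have h3 : α ^ 2 - α * qCoeff ⇑g q + q ≠ 0 := fun h =>
    RT.Wiring.EigBound.sq_ne_one_of_norm_lt (norm_qCoeff_lt hg hq hqC) (A := α)
      (by linear_combination h) hα
  have h4 : x = 0 := (smul_eq_zero.mp h2).resolve_left h3
  rw [h1, h4, map_zero]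

/-- **PT7**: an eigensymbol with `U_q² = 1` is `q`-new. -/
theorem dvd_of_heckeU_sq (hg : g.IsNewform) {q : ℕ} (hS : S.Finite)
    (hbad : ∀ r : ℕ, r.Prime → r ∣ M * q → r ∈ S) (hne : NonEis (M * q) S (qCoeff ⇑g))
    (hq : q.Prime) (hqM : ¬ q ∣ M) (hCMq : C ∣ M * q) {y : Pairs ℂ} (hy0 : y ≠ 0)
    (hy : y ∈ eigMS (M * q) S (qCoeff ⇑g)) (hU : heckeU q (heckeU q y) = y) : q ∣ C := by
  by_contra hqC
  have hCM : C ∣ M := Nat.Coprime.dvd_of_dvd_mul_right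
    ((Nat.Prime.coprime_iff_not_dvd hq).mpr hqC).symm hCMq
  have hUy : heckeU q y ∈ eigMS (M * q) S (qCoeff ⇑g) :=
    heckeU_mem_eigMS hq (dvd_mul_left q M) (hbad q hq (dvd_mul_left q M)) hy
  have h1 : heckeU q y + y = 0 := by
    refine eq_zero_of_heckeU_eq hg hS hbad hne hq hqM hCM (α := 1) (one_pow 2)
      (Submodule.add_mem _ hUy hy) ?_
    rw [map_add, hU, one_smul, add_comm]
  have h2 : heckeU q y - y = 0 := by
    refine eq_zero_of_heckeU_eq hg hS hbad hne hq hqM hCM (α := -1) (by norm_num)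
      (Submodule.sub_mem _ hUy hy) ?_
    rw [map_sub, hU, neg_smul, one_smul, neg_sub]
  apply hy0
  have h3 : (2 : ℂ) • y = 0 := by
    rw [two_smul]
    have : y + y = (heckeU q y + y) - (heckeU q y - y) := by abel
    rw [this, h1, h2, sub_zero]
  exact (smul_eq_zero.mp h3).resolve_left two_ne_zero

end old

section tw

variable {C : ℕ} [NeZero C] {g : CuspForm (Gamma0 C) 2} {S : Set ℕ}
variable {N Q : ℕ} {Δ : Type*} [CommGroup Δ] {ψ : (ZMod Q)ˣ →* Δ}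

/-- The twist of an eigensymbol is an eigensymbol. -/
theorem Tw_mem_eigMS (H : TwHyp N Q ψ) [NeZero Q] {c : ℕ → ℂ}
    (hbad : ∀ r : ℕ, r.Prime → r ∣ N * Q → r ∈ S) {y : Pairs ℂ}
    (hy : y ∈ MS (GammaH N Q ψ) ℂ)
    (hT : ∀ ℓ : ℕ, ℓ.Prime → ℓ ∉ S → TH N Q ψ ℓ y = c ℓ • y) :
    Tw N Q ψ y ∈ eigMS (N * Q ^ 2) S c :=
  ⟨Tw_mem H hy, fun ℓ hℓ hℓS => by
    rw [heckeT_Tw H hℓ (fun h => hℓS (hbad ℓ hℓ h)) (hInv_of_mem hy), hT ℓ hℓ hℓS, map_smul]⟩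

/-- **The conductor on `M_χ`.** -/
theorem sq_dvd_of_chi (H : TwHyp N Q ψ) [NeZero Q] {q Q' : ℕ} (hq : q.Prime) (hQ : Q = q * Q')
    (hQ' : Q' ∣ Q) (hg : g.IsNewform) (hS : S.Finite)
    (hbad : ∀ r : ℕ, r.Prime → r ∣ N * Q → r ∈ S)
    (hne : NonEis (N * Q ^ 2) S (qCoeff ⇑g)) (hC : C ∣ N * Q ^ 2) {y : Pairs ℂ} (hy0 : y ≠ 0)
    (hy : y ∈ MS (GammaH N Q ψ) ℂ)
    (hT : ∀ ℓ : ℕ, ℓ.Prime → ℓ ∉ S → TH N Q ψ ℓ y = qCoeff ⇑g ℓ • y)
    (χ : Δ →* ℂ) (hχ : ∀ δ, D N Q ψ δ y = χ δ • y)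
    (hχ1 : ∃ u : (ZMod Q)ˣ, ZMod.castHom hQ' (ZMod Q') (u : ZMod Q) = 1 ∧ χ (ψ u) ≠ 1) :
    q ^ 2 ∣ C := by
  by_contra hqC
  have hQ0 : Q ≠ 0 := NeZero.ne Q
  have hM0 : N * Q ^ 2 ≠ 0 := mul_ne_zero H.hN (pow_ne_zero 2 hQ0)
  have : NeZero (N * Q ^ 2) := ⟨hM0⟩
  have hqM : q ∣ N * Q ^ 2 :=
    ((Dvd.intro Q' hQ.symm).trans (dvd_pow_self Q two_ne_zero)).mul_left N
  have e1 : N * Q ^ 2 / q = N * Q' ^ 2 * q := by
    rw [hQ]
    refine Nat.div_eq_of_eq_mul_left hq.pos ?_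
    ring
  have hC' : C ∣ N * Q ^ 2 / q := by
    rw [← Nat.factorization_le_iff_dvd (NeZero.ne C) (by
      rw [e1]
      refine mul_ne_zero (mul_ne_zero H.hN (pow_ne_zero 2 ?_)) hq.ne_zero
      rintro rfl
      exact hQ0 (by rw [hQ, mul_zero]))]
    intro r
    rw [Nat.factorization_div hqM]
    have h1 := (Nat.factorization_le_iff_dvd (NeZero.ne C) hM0).mpr hC r
    rw [Finsupp.tsub_apply, hq.factorization, Finsupp.single_apply]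
    split_ifs with hqr
    · subst hqr
      have h2 : C.factorization q ≤ 1 := by
        by_contra h3
        exact hqC ((hq.pow_dvd_iff_le_factorization (NeZero.ne C)).mpr (by omega))
      have h4 : 2 ≤ (N * Q ^ 2).factorization q :=
        (hq.pow_dvd_iff_le_factorization hM0).mp
          ((pow_dvd_pow_of_dvd (Dvd.intro Q' hQ.symm) 2).mul_left N)
      omega
    · simpa using h1
  obtain ⟨z0, hz0, z1, hz1, e⟩ := exists_of_mem_eigMS hg hS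
    (fun r hr hrM => hbad r hr (by
      rcases hr.dvd_mul.mp hrM with h | h
      · exact h.mul_right Q
      · exact (hr.dvd_of_dvd_pow h).mul_left N)) hne hq hqM hC' (Tw_mem_eigMS H hbad hy hT)
  refine hy0 (eq_zero_of_Tw_old H hq hQ hQ' (hInv_of_mem hy) χ hχ hχ1 (z0 := z0) (z1 := z1) ?_
    (TInv_of_mem hz1.1) e)
  intro γ hγ
  rw [← e1] at hγ
  exact hz0.1.2 γ hγ

/-- **The conductor on `M₁`.** -/
theorem dvd_of_new {q : ℕ} (H : TraceH.Hyp N Q q ψ) [NeZero Q] (hg : g.IsNewform) (hS : S.Finite)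
    (hbad : ∀ r : ℕ, r.Prime → r ∣ N * q * Q → r ∈ S)
    (hne : NonEis (N * q * Q ^ 2) S (qCoeff ⇑g)) (hC : C ∣ N * q * Q ^ 2) {y : Pairs ℂ}
    (hy0 : y ≠ 0) (hy : y ∈ MS (GammaH (N * q) Q ψ) ℂ)
    (hT : ∀ ℓ : ℕ, ℓ.Prime → ℓ ∉ S → TH (N * q) Q ψ ℓ y = qCoeff ⇑g ℓ • y)
    (hU : heckeU q (heckeU q y) = D (N * q) Q ψ (TraceH.dq Q q ψ) y) :
    q ∣ C ∧ ¬ q ^ 2 ∣ C := by
  have hyi := hInv_of_mem hy
  have e0 : N * q * Q ^ 2 = N * Q ^ 2 * q := by ring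
  have hqQ : ¬ q ∣ Q := fun h => H.prime.one_lt.ne' (Nat.Coprime.eq_one_of_dvd H.copQ h)
  have hqM : ¬ q ∣ N * Q ^ 2 := fun h => by
    rcases H.prime.dvd_mul.mp h with h | h
    · exact H.hqN h
    · exact hqQ (H.prime.dvd_of_dvd_pow h)
  refine ⟨?_, fun h => hqM ?_⟩
  swap
  · have h1 : q ^ 2 ∣ N * Q ^ 2 * q := by rw [← e0]; exact h.trans hC
    rw [pow_two] at h1
    exact Nat.dvd_of_mul_dvd_mul_right H.prime.pos h1
  have hN0 : N ≠ 0 := H.tw0.hN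
  have : NeZero (N * Q ^ 2) := ⟨mul_ne_zero hN0 (pow_ne_zero 2 (NeZero.ne Q))⟩
  -- some `Tw (D ε y)` is non-zero
  obtain ⟨ε, hε⟩ : ∃ ε, Tw (N * q) Q ψ (D (N * q) Q ψ ε y) ≠ 0 := by
    by_contra h
    push Not at h
    exact hy0 (Tw_injective H.tw (nTor_of_charZero ℂ) hyi h)
  set y' := D (N * q) Q ψ ε y with hy'
  have hy'm : y' ∈ MS (GammaH (N * q) Q ψ) ℂ := D_mem hy ε
  have hy'i := hInv_of_mem hy'm
  have hbad' : ∀ r : ℕ, r.Prime → r ∣ N * Q ^ 2 * q → r ∈ S := fun r hr hrM => hbad r hr (by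
    rw [← e0] at hrM
    rcases hr.dvd_mul.mp hrM with h | h
    · exact h.mul_right Q
    · exact (hr.dvd_of_dvd_pow h).mul_left _)
  have hmem : Tw (N * q) Q ψ y' ∈ eigMS (N * q * Q ^ 2) S (qCoeff ⇑g) := by
    refine Tw_mem_eigMS H.tw hbad hy'm fun ℓ hℓ hℓS => ?_
    rw [hy', ← D_TH H.tw hℓ (fun h => hℓS (hbad ℓ hℓ h)) hyi, hT ℓ hℓ hℓS, map_smul]
  have hqNq : q ∣ N * q := dvd_mul_left q N
  have hUU : heckeU q (heckeU q (Tw (N * q) Q ψ y')) = Tw (N * q) Q ψ y' := by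
    have h1 : heckeU q (heckeU q y') = D (N * q) Q ψ (TraceH.dq Q q ψ) y' := by
      have hqd : q ∣ N * q * Q := hqNq.mul_right Q
      rw [hy', ← D_heckeU H.tw H.q0 hqd hyi, ← D_heckeU H.tw H.q0 hqd
        (hyi.heckeU H.tw H.q0 hqd), hU, hyi.D_D H.tw, hyi.D_D H.tw, mul_comm ε]
    have hqd : q ∣ N * q * Q := hqNq.mul_right Q
    rw [heckeU_Tw H.tw H.q0 hqNq hy'i, heckeU_Tw H.tw H.q0 hqNq ((hy'i.D _).heckeU H.tw H.q0 hqd),
      D_heckeU H.tw H.q0 hqd (hy'i.D _), hy'i.D_D H.tw, ← D_heckeU H.tw H.q0 hqd hy'i,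
      ← D_heckeU H.tw H.q0 hqd (hy'i.heckeU H.tw H.q0 hqd), h1, hy'i.D_D H.tw]
    have h2 : (wN ψ q)⁻¹ * (wN ψ q)⁻¹ * TraceH.dq Q q ψ = 1 := by
      rw [TraceH.dq_eq H, ← wN_mul_self H.tw H.copQ]
      group
    rw [h2, hy'i.D_one H.tw]
  rw [e0] at hne hC hmem
  exact dvd_of_heckeU_sq hg hS hbad' hne H.prime hqM hC hε hmem hUU

end tw

end Fermat.Agent.DR.SC.Cond
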