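import Fermat.Agent.RT.TWBasic
import Fermat.Agent.RT.TW.Defs

/-!
# Scalar case: Taylor–Wiles levels with the scalar prime as an additional prime (helper82)

* `TWP.tail V` : level `N * V.q 0`, the other primes;
* `TWP.drop V` : level `N`, the other primes;
* `TWP.cons` : add a prime;
* `ofTWSet` : the level of a `TWSet`.
-/

set_option autoImplicit false
set_option linter.unusedSectionVars false

open IsLocalRing

noncomputable section

namespace Fermat.Agent.RT.TWS.TWP

variable {p N r : ℕ}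

/-- the other primes, level `N * q 0` -/
def tail (V : TWP p N (r + 1)) : TWP p (N * V.q 0) r where
  q i := V.q i.succ
  inj := fun _ _ h => Fin.succ_injective _ (V.inj h)
  prime i := V.prime _
  ndvd i h := by
    rcases (Nat.Prime.dvd_mul (V.prime i.succ)).mp h with h | h
    · exact V.ndvd _ h
    · exact Fin.succ_ne_zero i (V.inj ((Nat.prime_dvd_prime_iff_eq (V.prime _) (V.prime _)).mp h))
  ne i := V.ne _
  a i := V.a i.succ
  apos i := V.apos _
  ha i := V.ha _
  ha' i := V.ha' _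

/-- the other primes, level `N` -/
def drop (V : TWP p N (r + 1)) : TWP p N r where
  q i := V.q i.succ
  inj := fun _ _ h => Fin.succ_injective _ (V.inj h)
  prime i := V.prime _
  ndvd i := V.ndvd _
  ne i := V.ne _
  a i := V.a i.succ
  apos i := V.apos _
  ha i := V.ha _
  ha' i := V.ha' _

@[simp] theorem tail_q (V : TWP p N (r + 1)) (i : Fin r) : V.tail.q i = V.q i.succ := rfl
@[simp] theorem tail_a (V : TWP p N (r + 1)) (i : Fin r) : V.tail.a i = V.a i.succ := rfl
@[simp] theorem drop_q (V : TWP p N (r + 1)) (i : Fin r) : V.drop.q i = V.q i.succ := rfl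
@[simp] theorem drop_a (V : TWP p N (r + 1)) (i : Fin r) : V.drop.a i = V.a i.succ := rfl

theorem drop_Q (V : TWP p N (r + 1)) : V.drop.Q = V.tail.Q := rfl

theorem Q_eq_tail (V : TWP p N (r + 1)) : V.Q = V.q 0 * V.tail.Q := by
  rw [Q, Fin.prod_univ_succ]; rfl

/-- add the prime `q`, `p ^ e ∥ q - 1`, `e ≠ 0` -/
def cons (W : TWP p N r) (q e : ℕ) (hq : q.Prime) (hqN : ¬ q ∣ N) (hqp : q ≠ p)
    (hqW : ∀ i, W.q i ≠ q) (he : e ≠ 0) (h : p ^ e ∣ q - 1) (h' : ¬ p ^ (e + 1) ∣ q - 1) :
    TWP p N (r + 1) where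
  q := Fin.cons q W.q
  inj := by
    intro i j
    refine Fin.cases ?_ (fun i => ?_) i <;> refine Fin.cases ?_ (fun j => ?_) j
    · intro _; rfl
    · intro h; exact absurd h.symm (hqW j)
    · intro h; exact absurd h (hqW i)
    · intro h; exact congrArg Fin.succ (W.inj h)
  prime i := by
    refine Fin.cases ?_ (fun i => ?_) i
    · exact hq
    · exact W.prime i
  ndvd i := by
    refine Fin.cases ?_ (fun i => ?_) i
    · exact hqN
    · exact W.ndvd i
  ne i := by
    refine Fin.cases ?_ (fun i => ?_) i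
    · exact hqp
    · exact W.ne i
  a := Fin.cons e W.a
  apos i := by
    refine Fin.cases ?_ (fun i => ?_) i
    · exact he
    · exact W.apos i
  ha i := by
    refine Fin.cases ?_ (fun i => ?_) i
    · exact h
    · exact W.ha i
  ha' i := by
    refine Fin.cases ?_ (fun i => ?_) i
    · exact h'
    · exact W.ha' i

end Fermat.Agent.RT.TWS.TWP

namespace Fermat.Agent.DR.SC

open Fermat.Agent.RT.TWS Fermat.Agent.RT.TW

/-- The Taylor–Wiles level (level `N`) of a Taylor–Wiles set. -/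
def ofTWSet {k : Type} [Field k] {ρbar : ResidualGaloisRep k} {p : ℕ} {S : Finset ℕ} {n r : ℕ}
    (Q : TWSet ρbar p S n r) (N : ℕ) (hpS : p ∈ S)
    (hNS : ∀ ℓ : ℕ, ℓ.Prime → ℓ ∣ N → ℓ ∈ S) : TWP p N r where
  q := Q.q
  inj := Q.q_injective
  prime := Q.prime
  ndvd i h := Q.not_mem i (hNS _ (Q.prime i) h)
  ne i h := Q.not_mem i (by rw [h]; exact hpS)
  a := Q.a
  apos i := by have := Q.lt_a i; omega
  ha := Q.dvd
  ha' := Q.not_dvd

/-- The Taylor–Wiles level (level `N`) of a Taylor–Wiles set together with the scalar prime `q`. -/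
def ofTWSetCons {k : Type} [Field k] {ρbar : ResidualGaloisRep k} {p : ℕ} {S : Finset ℕ} {n r : ℕ}
    (Q : TWSet ρbar p S n r) (N : ℕ) (hpS : p ∈ S)
    (hNS : ∀ ℓ : ℕ, ℓ.Prime → ℓ ∣ N → ℓ ∈ S) {q e m' : ℕ} (hq : q.Prime) (hqS : q ∈ S)
    (hqN : ¬ q ∣ N) (hqp : q ≠ p) (hp : p.Prime) (he : e ≠ 0) (hqm : q - 1 = p ^ e * m')
    (hm' : ¬ p ∣ m') : TWP p N (r + 1) :=
  (ofTWSet Q N hpS hNS).cons q e hq hqN hqp (fun i h => Q.not_mem i (by
      have h1 : Q.q i = q := h
      rw [h1]; exact hqS)) he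
    (hqm ▸ dvd_mul_right _ _) (fun h => hm' (by
      rw [hqm, pow_succ] at h
      exact Nat.dvd_of_mul_dvd_mul_left (pow_pos hp.pos e) h))

end Fermat.Agent.DR.SC
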