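import Mathlib

/-!
# Enumeration of a finite set of primes
-/

set_option autoImplicit false

namespace Fermat.Agent.DR.SC.Enum

/-- Enumeration of a finite set of primes starting with a given one. -/
theorem exists_enum {Sg : Finset ℕ} (hSg : ∀ r ∈ Sg, r.Prime) {q : ℕ} (hq : q ∈ Sg) :
    ∃ (k : ℕ) (v : Fin (k + 1) → Nat.Primes), Function.Injective v ∧ (v 0 : ℕ) = q ∧
      (∀ l, (v l : ℕ) ∈ Sg) ∧ ∀ r ∈ Sg, ∃ l, (v l : ℕ) = r := by
  classical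
  obtain ⟨k, hk⟩ : ∃ k, Sg.card = k + 1 :=
    Nat.exists_eq_succ_of_ne_zero (Finset.card_ne_zero_of_mem hq)
  let e : Fin (k + 1) ≃ Sg := (Sg.equivFinOfCardEq hk).symm
  let e' : Fin (k + 1) ≃ Sg := (Equiv.swap 0 (e.symm ⟨q, hq⟩)).trans e
  refine ⟨k, fun l => ⟨e' l, hSg _ (e' l).2⟩, fun l m h => ?_, ?_, fun l => (e' l).2, fun r hr =>
    ⟨e'.symm ⟨r, hr⟩, ?_⟩⟩
  · apply e'.injective
    apply Subtype.ext
    exact congrArg (fun x : Nat.Primes => (x : ℕ)) h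
  · change ((e' 0 : Sg) : ℕ) = q
    simp [e']
  · change ((e' (e'.symm ⟨r, hr⟩) : Sg) : ℕ) = r
    rw [Equiv.apply_symm_apply]

/-- `q - 1 = p ^ e * m` with `p ∤ m` and `0 < e`. -/
theorem exists_pow_mul {p q : ℕ} (hp : p.Prime) (hq : q.Prime) (h : (q : ZMod p) = 1) :
    p ∣ q - 1 ∧ ∃ e m : ℕ, 0 < e ∧ q - 1 = p ^ e * m ∧ ¬ p ∣ m := by
  have hq1 : 1 ≤ q := hq.one_lt.le
  have h1 : p ∣ q - 1 := by
    rw [← ZMod.natCast_eq_zero_iff, Nat.cast_sub hq1, h, Nat.cast_one, sub_self]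
  have hne : q - 1 ≠ 0 := by
    have := hq.two_le
    omega
  obtain ⟨e, m, hm, he⟩ := Nat.exists_eq_pow_mul_and_not_dvd hne p hp.ne_one
  refine ⟨h1, e, m, Nat.pos_of_ne_zero ?_, he, hm⟩
  rintro rfl
  rw [pow_zero, one_mul] at he
  exact hm (he ▸ h1)

end Fermat.Agent.DR.SC.Enum
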