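import Mathlib

/-!
# Relations on Hecke modules can be checked on points

* `smul_eq_zero_of_forall_associated`: for `T` reduced and integral over a domain `𝒪`, `M` torsion
  free over `𝒪`, an element of `T` lying in all associated primes of `M` kills `M`.
* `exists_eigenvector`: if `P = ker χ` is an associated prime of `M` (`χ : T → K`), there is a
  `χ`-eigenvector in `K ⊗ M`.
* `exists_eigenfunction`: a version for modules of functions.
-/

set_option autoImplicit false
set_option linter.unusedSectionVars false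

open TensorProduct

namespace Fermat.Agent.DR.SC

/-- Elements of a minimal prime of a reduced ring are killed by an element outside the prime. -/
theorem exists_mul_eq_zero_of_mem_minimalPrimes {T : Type*} [CommRing T] [IsReduced T] {P : Ideal T}
    (hP : P ∈ minimalPrimes T) {f : T} (hf : f ∈ P) : ∃ s ∉ P, s * f = 0 := by
  have hPp : P.IsPrime := hP.1.1
  by_contra hcon
  push Not at hcon
  let S : Submonoid T :=
    { carrier := {x | ∃ s ∉ P, ∃ n : ℕ, x = s * f ^ n}
      one_mem' := ⟨1, fun h => hPp.ne_top ((Ideal.eq_top_iff_one _).mpr h), 0, by simp⟩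
      mul_mem' := by
        rintro _ _ ⟨s, hs, n, rfl⟩ ⟨t, ht, m, rfl⟩
        refine ⟨s * t, fun h => (hPp.mem_or_mem h).elim hs ht, n + m, by rw [pow_add]; ring⟩ }
  have h0 : (0 : T) ∉ S := by
    rintro ⟨s, hs, n, h⟩
    refine hcon s hs ?_
    rcases Nat.eq_zero_or_pos n with rfl | hn
    · rw [pow_zero, mul_one] at h
      exact absurd (h ▸ P.zero_mem) hs
    · obtain ⟨m, rfl⟩ : ∃ m, n = m + 1 := ⟨n - 1, by omega⟩
      have : IsNilpotent (s * f) := ⟨m + 1, by
        rw [mul_pow, pow_succ s, mul_assoc, ← h, mul_zero]⟩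
      exact this.eq_zero
  have hdisj : Disjoint ((⊥ : Ideal T) : Set T) (S : Set T) := by
    rw [Set.disjoint_left]
    intro x hx
    rw [SetLike.mem_coe, Ideal.mem_bot] at hx
    rw [hx]
    exact h0
  obtain ⟨Q, hQ, -, hQS⟩ := Ideal.exists_le_prime_disjoint _ _ hdisj
  have hQP : Q ≤ P := by
    intro x hx
    by_contra hxP
    exact Set.disjoint_left.mp hQS hx ⟨x, hxP, 0, by simp⟩
  have hle : P ≤ Q := hP.2 ⟨hQ, bot_le⟩ hQP
  exact Set.disjoint_left.mp hQS (hle hf)
    ⟨1, fun h => hPp.ne_top ((Ideal.eq_top_iff_one _).mpr h), 1, by simp⟩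

section annih

variable {𝒪 T M : Type*} [CommRing 𝒪] [IsDomain 𝒪] [CommRing T] [IsNoetherianRing T] [Algebra 𝒪 T]
  [AddCommGroup M] [Module T M] [Module 𝒪 M] [IsScalarTower 𝒪 T M] [Module.IsTorsionFree 𝒪 M]

/-- An associated prime of an `𝒪`-torsion free module does not meet `𝒪`. -/
theorem comap_eq_bot_of_associated {P : Ideal T} (hP : P ∈ associatedPrimes T M) :
    P.comap (algebraMap 𝒪 T) = ⊥ := by
  obtain ⟨hPp, x, hx⟩ := isAssociatedPrime_iff.mp hP
  rw [eq_bot_iff]
  intro c hc
  have h1 : algebraMap 𝒪 T c ∈ P := hc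
  rw [hx, Submodule.mem_colon_singleton, Submodule.mem_bot, algebraMap_smul] at h1
  rcases smul_eq_zero.mp h1 with h | h
  · exact h
  · exfalso
    apply hPp.ne_top
    rw [Ideal.eq_top_iff_one, hx, Submodule.mem_colon_singleton, Submodule.mem_bot, h, smul_zero]

/-- An associated prime of an `𝒪`-torsion free module over an integral algebra is minimal. -/
theorem mem_minimalPrimes_of_associated [Algebra.IsIntegral 𝒪 T] {P : Ideal T}
    (hP : P ∈ associatedPrimes T M) : P ∈ minimalPrimes T := by
  have hPp : P.IsPrime := hP.1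
  refine ⟨⟨hPp, bot_le⟩, fun Q hQ hle => ?_⟩
  have hQp : Q.IsPrime := hQ.1
  by_contra hcon
  have hlt : Q < P := lt_of_le_not_ge hle hcon
  have h1 := Ideal.IsIntegral.comap_lt_comap (R := 𝒪) hlt
  rw [comap_eq_bot_of_associated hP] at h1
  exact not_lt_bot h1

/-- Relations can be checked at associated primes. -/
theorem smul_eq_zero_of_forall_associated [Algebra.IsIntegral 𝒪 T] [IsReduced T] {f : T}
    (h : ∀ P ∈ associatedPrimes T M, f ∈ P) (m : M) : f • m = 0 := by
  by_contra hne
  obtain ⟨P, hP, hle⟩ := exists_le_isAssociatedPrime_of_isNoetherianRing T (M := M) (f • m) hne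
  have hPass : P ∈ associatedPrimes T M := hP
  obtain ⟨s, hs, hsf⟩ := exists_mul_eq_zero_of_mem_minimalPrimes
    (mem_minimalPrimes_of_associated (𝒪 := 𝒪) hPass) (h P hPass)
  apply hs
  apply hle
  rw [Submodule.mem_colon_singleton, Submodule.mem_bot, smul_smul, hsf, zero_smul]

end annih

section eigen

variable {𝒪 T M K : Type*} [CommRing 𝒪] [IsDomain 𝒪] [IsPrincipalIdealRing 𝒪] [CommRing T]
  [IsNoetherianRing T] [Algebra 𝒪 T] [Module.Finite 𝒪 T]
  [AddCommGroup M] [Module T M] [Module 𝒪 M] [IsScalarTower 𝒪 T M]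
  [Field K] [Algebra 𝒪 K] [FaithfulSMul 𝒪 K]

/-- If the kernel of `χ : T → K` is an associated prime of `M`, there is a `χ`-eigenvector in
`K ⊗ M`. -/
theorem exists_eigenvector (χ : T →ₐ[𝒪] K)
    (hP : RingHom.ker (χ : T →+* K) ∈ associatedPrimes T M) :
    ∃ y : K ⊗[𝒪] M, y ≠ 0 ∧ ∀ t : T, (Algebra.lsmul 𝒪 𝒪 M t).lTensor K y = χ t • y := by
  obtain ⟨hPp, x, hx⟩ := isAssociatedPrime_iff.mp hP
  set P := RingHom.ker (χ : T →+* K) with hPdef
  have hmem : ∀ t : T, t ∈ P ↔ t • x = 0 := by
    intro t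
    rw [hx, Submodule.mem_colon_singleton, Submodule.mem_bot]
  have htf : Module.IsTorsionFree 𝒪 K := inferInstance
  have hflat : Module.Flat 𝒪 K := inferInstance
  -- the embedding `T ⧸ P → M`
  let f : (T ⧸ P) →ₗ[T] M := Submodule.liftQ P (LinearMap.toSpanSingleton T M x) (by
    intro p hp
    rw [LinearMap.mem_ker, LinearMap.toSpanSingleton_apply]
    exact (hmem p).mp hp)
  have hfa : ∀ t : T, f (Ideal.Quotient.mk P t) = t • x := fun t => rfl
  have hf : Function.Injective f := by
    rw [injective_iff_map_eq_zero]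
    intro p hp
    obtain ⟨p, rfl⟩ := Ideal.Quotient.mk_surjective p
    rw [hfa] at hp
    exact Ideal.Quotient.eq_zero_iff_mem.mpr ((hmem p).mpr hp)
  let fO : (T ⧸ P) →ₗ[𝒪] M := f.restrictScalars 𝒪
  have hfO : Function.Injective (fO.lTensor K) := Module.Flat.lTensor_preserves_injective_linearMap fO hf
  -- the finite dimensional algebra
  let A := K ⊗[𝒪] (T ⧸ P)
  let χ' : (T ⧸ P) →ₐ[𝒪] K := Ideal.Quotient.liftₐ P χ (fun a ha => ha)
  let κ : A →ₐ[K] K := Algebra.TensorProduct.lift (AlgHom.id K K) χ' (fun _ _ => Commute.all _ _)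
  have hκ : ∀ (c : K) (t : T), κ (c ⊗ₜ Ideal.Quotient.mk P t) = c * χ t := by
    intro c t
    change Algebra.TensorProduct.lift (AlgHom.id K K) χ' _ (c ⊗ₜ Ideal.Quotient.mk P t) = _
    rw [Algebra.TensorProduct.lift_tmul]
    rfl
  have hκs : Function.Surjective κ := fun c => ⟨c ⊗ₜ Ideal.Quotient.mk P 1, by
    rw [hκ, map_one, mul_one]⟩
  have hker : (RingHom.ker (κ : A →+* K)).IsMaximal := RingHom.ker_isMaximal_of_surjective _ hκs
  have hkerp : (RingHom.ker (κ : A →+* K)).IsPrime := hker.isPrime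
  have hart : IsArtinianRing A := IsArtinianRing.of_finite K A
  have hnoeth : IsNoetherianRing A := inferInstance
  have hmin : RingHom.ker (κ : A →+* K) ∈ (Module.annihilator A A).minimalPrimes := by
    refine IsArtinianRing.mem_minimalPrimes ?_
    intro a ha
    have h1 := Module.mem_annihilator.mp ha 1
    rw [smul_eq_mul, mul_one] at h1
    rw [h1]
    exact Ideal.zero_mem _
  have hass := Module.associatedPrimes.minimalPrimes_annihilator_subset_associatedPrimes A A hmin
  obtain ⟨-, a, ha⟩ := isAssociatedPrime_iff.mp hass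
  have hmem' : ∀ t : A, κ t = 0 ↔ t * a = 0 := by
    intro t
    have : t ∈ RingHom.ker (κ : A →+* K) ↔ t * a = 0 := by
      rw [ha, Submodule.mem_colon_singleton, Submodule.mem_bot, smul_eq_mul]
    exact this
  have ha0 : a ≠ 0 := by
    rintro rfl
    have := (hmem' 1).mpr (mul_zero _)
    rw [map_one] at this
    exact one_ne_zero this
  refine ⟨fO.lTensor K a, fun h => ha0 (hfO (by rw [h, map_zero])), fun t => ?_⟩
  -- the action of `t`
  have h1 : ∀ b : A, (Algebra.lsmul 𝒪 𝒪 M t).lTensor K (fO.lTensor K b) =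
      fO.lTensor K (((1 : K) ⊗ₜ[𝒪] Ideal.Quotient.mk P t) * b) := by
    intro b
    induction b using TensorProduct.induction_on with
    | zero => simp
    | add b c hb hc => rw [map_add, map_add, hb, hc, mul_add, map_add]
    | tmul c s =>
      obtain ⟨s, rfl⟩ := Ideal.Quotient.mk_surjective s
      rw [LinearMap.lTensor_tmul, LinearMap.lTensor_tmul, Algebra.TensorProduct.tmul_mul_tmul,
        one_mul, ← map_mul, LinearMap.lTensor_tmul]
      congr 1
      change t • f (Ideal.Quotient.mk P s) = f (Ideal.Quotient.mk P (t * s))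
      rw [hfa, hfa, mul_smul]
  have h2 : κ ((1 : K) ⊗ₜ[𝒪] Ideal.Quotient.mk P t - χ t ⊗ₜ[𝒪] Ideal.Quotient.mk P 1) = 0 := by
    rw [map_sub, hκ, hκ, map_one, one_mul, mul_one, sub_self]
  have h3 := (hmem' _).mp h2
  rw [sub_mul, sub_eq_zero] at h3
  rw [h1, h3]
  have h4 : (χ t ⊗ₜ[𝒪] Ideal.Quotient.mk P 1) * a = χ t • a := by
    have h5 : χ t ⊗ₜ[𝒪] Ideal.Quotient.mk P 1 = algebraMap K A (χ t) := by
      rw [Algebra.TensorProduct.algebraMap_apply]
      rfl
    rw [h5, ← Algebra.smul_def]
  rw [h4]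
  have h6 : ∀ (c : K) (b : A), fO.lTensor K (c • b) = c • fO.lTensor K b := by
    intro c b
    induction b using TensorProduct.induction_on with
    | zero => simp
    | add b d hb hd => rw [smul_add, map_add, map_add, hb, hd, smul_add]
    | tmul d s => rfl
  exact h6 _ _

end eigen

section functions

variable {𝒪 X K S : Type*} [CommRing 𝒪] [IsDomain 𝒪] [IsPrincipalIdealRing 𝒪]
  [AddCommGroup X] [Module 𝒪 X] [Field K] [Algebra 𝒪 K] [FaithfulSMul 𝒪 K]

/-- Every tensor in `K ⊗ X` can be written with `𝒪`-linearly independent elements of `K`. -/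
theorem exists_eq_sum_of_linearIndependent (z : K ⊗[𝒪] X) :
    ∃ (n : ℕ) (κ : Fin n → K) (x : Fin n → X), LinearIndependent 𝒪 κ ∧
      z = ∑ j, κ j ⊗ₜ[𝒪] x j := by
  classical
  obtain ⟨K0, hfin, hz⟩ := TensorProduct.exists_finite_submodule_left_of_setFinite
    ({z} : Set (K ⊗[𝒪] X)) (Set.finite_singleton z)
  obtain ⟨z0, hz0⟩ := hz rfl
  have hK0 : Module.Finite 𝒪 K0 := hfin
  have htf : Module.IsTorsionFree 𝒪 K0 := inferInstance
  have hfree : Module.Free 𝒪 K0 := Module.free_of_finite_type_torsion_free'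
  let b := Module.finBasis 𝒪 K0
  obtain ⟨c, hc⟩ := TensorProduct.eq_repr_basis_left b z0
  refine ⟨_, fun j => (b j : K), fun j => c j, ?_, ?_⟩
  · exact b.linearIndependent.map' K0.subtype (Submodule.ker_subtype K0)
  · rw [← hz0, ← hc, Finsupp.sum_fintype _ _ (fun i => by rw [tmul_zero]), map_sum]
    rfl

variable (ι : X →ₗ[𝒪] (S → 𝒪))

/-- The extension of scalars of an embedding into functions. -/
noncomputable def extFun : K ⊗[𝒪] X →ₗ[K] (S → K) :=
  TensorProduct.AlgebraTensorModule.lift
    { toFun := fun k =>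
        { toFun := fun x s => k * algebraMap 𝒪 K (ι x s)
          map_add' := fun x y => by funext s; simp [mul_add]
          map_smul' := fun c x => by
            funext s
            simp only [map_smul, Pi.smul_apply, smul_eq_mul, map_mul, RingHom.id_apply,
              Algebra.smul_def]
            ring }
      map_add' := fun k k' => by
        ext x s
        simp [add_mul]
      map_smul' := fun c k => by
        ext x s
        simp [mul_assoc] }

theorem extFun_tmul (k : K) (x : X) (s : S) :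
    extFun (K := K) ι (k ⊗ₜ x) s = k * algebraMap 𝒪 K (ι x s) := rfl

theorem extFun_injective (hι : Function.Injective ι) :
    Function.Injective (extFun (K := K) ι) := by
  rw [injective_iff_map_eq_zero]
  intro z hz
  obtain ⟨n, κ, x, hκ, rfl⟩ := exists_eq_sum_of_linearIndependent z
  have h1 : ∀ s j, ι (x j) s = 0 := by
    intro s
    have h2 := congrFun hz s
    rw [map_sum, Finset.sum_apply, Pi.zero_apply] at h2
    simp only [extFun_tmul] at h2
    refine Fintype.linearIndependent_iff.mp hκ (fun j => ι (x j) s) ?_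
    rw [← h2]
    exact Finset.sum_congr rfl fun j _ => by rw [Algebra.smul_def, mul_comm]
  have h3 : ∀ j, x j = 0 := fun j => hι (by
    rw [map_zero]
    funext s
    exact h1 s j)
  simp [h3]

end functions

end Fermat.Agent.DR.SC
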