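import Mathlib
import Fermat.Agent.RT.PointRep
import Fermat.Agent.RT.Wiring.BC
import Fermat.Agent.RT.SelUnram
import Fermat.Agent.RT.TWInertiaDef
import Fermat.Agent.DR.S35.Provider
import Fermat.Agent.DR.S34Wiring
import Fermat.Agent.DR.AllInputs
import Fermat.Agent.DR.ModGal.Unipotent
import Fermat.Agent.DR.SC.Points
import Fermat.Agent.S30

/-!
# The Galois half of the support conditions

Let `ρ : GaloisRepAdic R`, `y : R → 𝒪'` a point with values in a complete DVR of characteristic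
zero, `g` a newform of level `L` with `j (y (tr ρ(Frob_ℓ))) = a_ℓ(g)` for almost all `ℓ`.

* `Attached.trace_eq_two`: inertia at `q ∥ L`, `q ≠ p` is unipotent.
* `NewformPoint`: the data above.
* `NewformPoint.special`: `y (tr ρ(Frob_q)) = ±(q+1)` if `q ∥ L`.
* `NewformPoint.trace_ne_two`: `y (tr ρ(σ)) ≠ 2` for some `σ` in inertia, if `q² ∥ L`.
* `NewformPoint.trace_eq_two`: `y (tr ρ(σ)) = 2` on inertia at `r` if `r² ∤ L`.
* `smul_eq_zero_of_points`: relations on modules from relations on `K`-valued points.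
* `support1_of_newforms`, `supportχ_of_newforms`.
-/

set_option autoImplicit false
set_option linter.unusedSectionVars false
set_option linter.style.haveILetI false

open Polynomial IsLocalRing ModularFormClass CongruenceSubgroup Pointwise

namespace Fermat.Agent.DR.SC

open Fermat.Agent.RT.Point Fermat.Agent.DR.S34Algebra Fermat.Agent.DR.Core
  Fermat.Agent.DR.S34Wiring Fermat.Agent.RT.Wiring Fermat.Agent.DR.Relation ModularCurve

local notation "Qbar" => AlgebraicClosure ℚ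
local notation "Γℚ" => (AlgebraicClosure ℚ ≃ₐ[ℚ] AlgebraicClosure ℚ)

/-! ### S34 for λ-adic representations -/

section S34

variable {𝒪 : Type} [CommRing 𝒪] [IsDomain 𝒪] [IsDiscreteValuationRing 𝒪]
  [IsAdicComplete (maximalIdeal 𝒪) 𝒪] [Finite (ResidueField 𝒪)] [CharZero 𝒪]

theorem s30 : RT.Datum.S30Statement := fun p _ N _ S hpS hNS 𝒪' _ _ _ _ _ _ hp χ =>
  Fermat.Agent.GAL.Final.s30 Fermat.Agent.DR.allInputs p N S hpS hNS 𝒪' hp χ

/-- The Frobenius hypothesis for a representation attached to a character. -/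
theorem frobHyp_char {p : ℕ} {N : ℕ} [NeZero N] {S : Finset ℕ} (hpS : p ∈ S)
    (hNS : ∀ q : ℕ, q.Prime → q ∣ N → q ∈ S) (hp : p.Prime)
    (χ : CuspForm.heckeAlgebra N 2 (↑S : Set ℕ) →+* 𝒪) (ρ : GaloisRepAdic 𝒪)
    (hρ : ∀ (ℓ : ℕ) (hℓ : ℓ.Prime) (hℓN : ¬ ℓ ∣ N) (hℓS : ℓ ∉ (↑S : Set ℕ)),
      ∀ A : ValuationSubring Qbar, A.LiesOverPrime ℓ → ∀ σ : Γℚ, A.IsFrobeniusAt σ ℓ →
        LinearMap.charpoly (ρ.ρ σ) =
          X ^ 2 - C (χ (CuspForm.heckeAlgebra.T hℓ hℓN hℓS)) * X + C ((ℓ : 𝒪)))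
    (J : Type) [AddCommGroup J] [Module HeckeAlg J] [DistribMulAction Γℚ J]
    [SMulCommClass Γℚ HeckeAlg J] (hfr : FrobeniusQuadratic (K := ℚ) (L := Qbar) N p J) :
    letI : Module (HeckeS (↑S : Set ℕ)) J := Module.compHom J (toHecke (↑S : Set ℕ))
    letI : Algebra (HeckeS (↑S : Set ℕ)) 𝒪 := (χ.comp (evalS N (↑S : Set ℕ))).toAlgebra
    FrobHyp (R := HeckeS (↑S : Set ℕ)) p J ρ S := by
  let _ : Module (HeckeS (↑S : Set ℕ)) J := Module.compHom J (toHecke (↑S : Set ℕ))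
  let _ : Algebra (HeckeS (↑S : Set ℕ)) 𝒪 := (χ.comp (evalS N (↑S : Set ℕ))).toAlgebra
  intro ℓ hℓ hℓS A hA σ hσ
  have hℓN : ¬ ℓ ∣ N := fun h => hℓS (hNS ℓ hℓ h)
  have hℓS' : ℓ ∉ (↑S : Set ℕ) := by exact_mod_cast hℓS
  have hℓp : ¬ ℓ ∣ N * p := by
    intro h
    rcases (Nat.Prime.dvd_mul hℓ).mp h with h | h
    · exact hℓN h
    · exact hℓS ((Nat.prime_dvd_prime_iff_eq hℓ hp).mp h ▸ hpS)
  refine ⟨MvPolynomial.X ⟨⟨ℓ, hℓ⟩, hℓS'⟩, fun x hx => ?_, ?_⟩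
  · have h := hfr ℓ hℓ hℓp A hA σ hσ x hx
    have e1 : (MvPolynomial.X ⟨⟨ℓ, hℓ⟩, hℓS'⟩ : HeckeS (↑S : Set ℕ)) • (σ • x) =
        heckeGen ⟨ℓ, hℓ⟩ • (σ • x) := by
      change toHecke (↑S : Set ℕ) (MvPolynomial.X ⟨⟨ℓ, hℓ⟩, hℓS'⟩) • (σ • x) = _
      rw [toHecke_X]
    rw [e1, Nat.cast_smul_eq_nsmul]
    exact h
  · have h := hρ ℓ hℓ hℓN hℓS' A hA σ hσ
    rw [h]
    have e2 : algebraMap (HeckeS (↑S : Set ℕ)) 𝒪 (MvPolynomial.X ⟨⟨ℓ, hℓ⟩, hℓS'⟩) =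
        χ (CuspForm.heckeAlgebra.T hℓ hℓN hℓS') := by
      change χ (evalS N (↑S : Set ℕ) (MvPolynomial.X ⟨⟨ℓ, hℓ⟩, hℓS'⟩)) = _
      rw [evalS_X_of_not_dvd hℓ hℓN hℓS']
    rw [e2]

/-- Inertia at `q ∥ N` has trace two. -/
theorem trace_eq_two_char {p : ℕ} {N : ℕ} [NeZero N] {S : Finset ℕ} (hpS : p ∈ S)
    (hNS : ∀ q : ℕ, q.Prime → q ∣ N → q ∈ S) (hp : p.Prime) (hp𝒪 : (p : 𝒪) ∈ maximalIdeal 𝒪)
    (χ : CuspForm.heckeAlgebra N 2 (↑S : Set ℕ) →+* 𝒪) (ρ : GaloisRepAdic 𝒪)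
    (hρ : ∀ (ℓ : ℕ) (hℓ : ℓ.Prime) (hℓN : ¬ ℓ ∣ N) (hℓS : ℓ ∉ (↑S : Set ℕ)),
      ∀ A : ValuationSubring Qbar, A.LiesOverPrime ℓ → ∀ σ : Γℚ, A.IsFrobeniusAt σ ℓ →
        LinearMap.charpoly (ρ.ρ σ) =
          X ^ 2 - C (χ (CuspForm.heckeAlgebra.T hℓ hℓN hℓS)) * X + C ((ℓ : 𝒪)))
    (hdet : ρ.DetIsCyclotomic p) {q : ℕ} (hq : q.Prime) (hqp : q ≠ p) (hqN : q ∣ N)
    (hq2 : ¬ q ^ 2 ∣ N) {P : ValuationSubring Qbar} (hP : P.LiesOverPrime q) {τ : Γℚ}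
    (hτ : τ ∈ P.inertiaSubgroupIn ℚ) : LinearMap.trace 𝒪 ρ.V (ρ.ρ τ) = 2 := by
  have I : S30Wiring.Inputs N p S := (GAL.Final.galInputs allInputs N p hp).inputs hp S
  have hU : UnipotentInput p q (JZero N) := ModGal.unipotentInput N hp hq hqp hqN hq2
  have hdet1 := det_eq_one_of_mem_inertia ρ hp hq hqp hdet P hP τ hτ
  letI := heckeModuleBar N
  haveI hcomm : SMulCommClass Γℚ HeckeAlg (JZero N) := I.galois_hecke
  let _ : Module (HeckeS (↑S : Set ℕ)) (JZero N) :=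
    Module.compHom (JZero N) (toHecke (↑S : Set ℕ))
  let _ : Algebra (HeckeS (↑S : Set ℕ)) 𝒪 := (χ.comp (evalS N (↑S : Set ℕ))).toAlgebra
  have : SMulCommClass Γℚ (HeckeS (↑S : Set ℕ)) (JZero N) :=
    ⟨fun g t x => smul_comm g (toHecke (↑S : Set ℕ) t) x⟩
  have hfr : FrobeniusQuadratic (K := ℚ) (L := Qbar) N p (JZero N) :=
    S30Wiring.frobeniusQuadratic_of_specialization (I.specialization hcomm)
  have hfin : Finite {x : JZero N // p • x = 0} := by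
    have h := I.finite 1
    rw [pow_one] at h
    exact h
  have hsm : SmoothAct (JZero N) := fun x => I.smooth x
  refine trace_eq_two_of_unipotent (R := HeckeS (↑S : Set ℕ)) p ρ S hsm hfin
    (frobHyp_char hpS hNS hp χ ρ hρ (JZero N) hfr) τ hdet1 (hU P hP τ hτ) (RingHom.id 𝒪)
    (fun k => Ideal.span {((p : 𝒪)) ^ k}) (fun x hx => forall_mem_span_pow hp𝒪 x hx)
    (fun k => ⟨k, fun t ht => ?_⟩)
  have h1 := I.support hNS 𝒪 χ k (toAnemic S t) (fun x hx => by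
    rw [anemicIncl_toAnemic]
    exact ht x hx)
  rw [anemicEval_toAnemic] at h1
  exact Ideal.mem_span_singleton.mpr h1

variable {p : ℕ} [Fact p.Prime] {N : ℕ} [NeZero N] {g : CuspForm (Gamma0 N) 2}
  {S : Finset ℕ} {t : ℕ → 𝒪} {ρ : GaloisRepAdic 𝒪} {j : 𝒪 →+* ℂ}

/-- **S34** for the λ-adic representation of a newform. -/
theorem trace_eq_two_newform (hpO : (p : 𝒪) ∈ maximalIdeal 𝒪)
    (hg : g.IsNewform) (hpS : p ∈ S) (hNS : ∀ q : ℕ, q.Prime → q ∣ N → q ∈ S)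
    (hj : Function.Injective j) (htg : ∀ ℓ : ℕ, ℓ.Prime → ℓ ∉ S → qCoeff ⇑g ℓ = j (t ℓ))
    (hρ : Attached S t ρ) (hdet : ρ.DetIsCyclotomic p) {q : ℕ} (hq : q.Prime) (hqN : q ∣ N)
    (hqN2 : ¬ q ^ 2 ∣ N) (hqp : q ≠ p) {P : ValuationSubring Qbar} (hP : P.LiesOverPrime q)
    {τ : Γℚ} (hτ : τ ∈ P.inertiaSubgroupIn ℚ) : LinearMap.trace 𝒪 ρ.V (ρ.ρ τ) = 2 := by
  obtain ⟨iota, hiota⟩ := exists_iota j hj hg.1 (↑S : Set ℕ) fun ℓ hℓ hℓS => by
    rw [htg ℓ hℓ (fun h => hℓS (Finset.mem_coe.2 h))]; exact ⟨_, rfl⟩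
  refine trace_eq_two_char hpS hNS Fact.out hpO
    (iota.comp (CMP.EigenCharOn.eigenCharOn (↑S : Set ℕ) hg.1).rangeRestrict) ρ ?_ hdet hq hqp hqN
    hqN2 hP hτ
  intro ℓ hℓ hℓN hℓS A hA σ hσ
  rw [hρ ℓ hℓ (fun h => hℓS (Finset.mem_coe.2 h)) A hA σ hσ,
    iota_T hj hg.1 hiota hℓ hℓN hℓS (htg ℓ hℓ (fun h => hℓS (Finset.mem_coe.2 h)))]

end S34

/-! ### Points of the deformation ring -/

section Local

/-- A homomorphism to a local ring with finite residue field is local. -/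
theorem isLocalHom_of_finite {R B : Type*} [CommRing R] [IsLocalRing R] [CommRing B]
    [IsLocalRing B] [Finite (ResidueField B)] (y : R →+* B) : IsLocalHom y := by
  refine ⟨fun a ha => ?_⟩
  by_contra hna
  -- the kernel of `R → ResidueField B` is maximal
  let ψ : R →+* ResidueField B := (residue B).comp y
  have hfin : Finite (R ⧸ RingHom.ker ψ) :=
    Finite.of_injective _ (RingHom.kerLift_injective ψ)
  have hpr : (RingHom.ker ψ).IsPrime := RingHom.ker_isPrime ψ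
  have hmax : (RingHom.ker ψ).IsMaximal :=
    Ideal.Quotient.maximal_of_isField _ (Finite.isField_of_domain _)
  have h1 : RingHom.ker ψ = maximalIdeal R := eq_maximalIdeal hmax
  have h2 : a ∈ RingHom.ker ψ := by
    rw [h1]
    exact hna
  rw [RingHom.mem_ker, RingHom.comp_apply, residue_eq_zero_iff] at h2
  exact h2 ha

end Local

section Point

variable {𝒪 : Type} [CommRing 𝒪] {R : Type} [CommRing R] [IsLocalRing R] [Algebra 𝒪 R]

/-- `P` is the kernel of a point with values in a complete discrete valuation ring, attached to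
a newform whose level satisfies `cond`. -/
def NewformPoint (𝒪 : Type) [CommRing 𝒪] {R : Type} [CommRing R] [IsLocalRing R] [Algebra 𝒪 R]
    (ρ : GaloisRepAdic R) (P : Ideal R) (cond : ℕ → Prop) : Prop :=
  ∃ (𝒪' : Type) (_ : CommRing 𝒪') (_ : IsDomain 𝒪') (_ : IsDiscreteValuationRing 𝒪')
    (_ : IsAdicComplete (maximalIdeal 𝒪') 𝒪') (_ : Finite (ResidueField 𝒪'))
    (_ : CharZero 𝒪') (_ : Algebra 𝒪 𝒪') (y : R →ₐ[𝒪] 𝒪') (j : 𝒪' →+* ℂ) (L : ℕ)
    (_ : NeZero L) (g : CuspForm (Gamma0 L) 2) (S : Finset ℕ),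
    Function.Injective (algebraMap 𝒪 𝒪') ∧ RingHom.ker (y : R →+* 𝒪') = P ∧
    Function.Injective j ∧ g.IsNewform ∧ cond L ∧
    ∀ ℓ : ℕ, ℓ.Prime → ℓ ∉ S → ∀ A : ValuationSubring Qbar, A.LiesOverPrime ℓ → ∀ σ : Γℚ,
      A.IsFrobeniusAt σ ℓ → j (y (LinearMap.trace R ρ.V (ρ.ρ σ))) = qCoeff ⇑g ℓ

theorem NewformPoint.mono {ρ : GaloisRepAdic R} {P : Ideal R} {c c' : ℕ → Prop}
    (h : NewformPoint 𝒪 ρ P c) (hc : ∀ L, c L → c' L) : NewformPoint 𝒪 ρ P c' := by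
  obtain ⟨𝒪', i1, i2, i3, i4, i5, i6, i7, y, j, L, i8, g, S, h1, h2, h3, h4, h5, h6⟩ := h
  exact ⟨𝒪', i1, i2, i3, i4, i5, i6, i7, y, j, L, i8, g, S, h1, h2, h3, h4, hc L h5, h6⟩

end Point

section Core

variable {p : ℕ} [Fact p.Prime] {𝒪' : Type} [CommRing 𝒪'] [IsDomain 𝒪']
  [IsDiscreteValuationRing 𝒪'] [IsAdicComplete (maximalIdeal 𝒪') 𝒪'] [Finite (ResidueField 𝒪')]
  [CharZero 𝒪'] {R : Type} [CommRing R] [IsLocalRing R] [IsNoetherianRing R]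
  {ρ : GaloisRepAdic R} {y : R →+* 𝒪'} {j : 𝒪' →+* ℂ} {L : ℕ} [NeZero L]
  {g : CuspForm (Gamma0 L) 2} {S : Finset ℕ}

/-- The hypotheses on a point. -/
structure PointHyp (p : ℕ) (ρ : GaloisRepAdic R) (y : R →+* 𝒪') (j : 𝒪' →+* ℂ)
    (g : CuspForm (Gamma0 L) 2) (S : Finset ℕ) : Prop where
  loc : IsLocalHom y
  det : ρ.DetIsCyclotomic p
  irr : ρ.residual.IsAbsolutelyIrreducible
  inj : Function.Injective j
  new : g.IsNewform
  frob : ∀ ℓ : ℕ, ℓ.Prime → ℓ ∉ S → ∀ A : ValuationSubring Qbar, A.LiesOverPrime ℓ → ∀ σ : Γℚ,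
      A.IsFrobeniusAt σ ℓ → j (y (LinearMap.trace R ρ.V (ρ.ρ σ))) = qCoeff ⇑g ℓ

/-- Trace of the base change. -/
theorem trace_bc (hy : IsLocalHom y) (σ : Γℚ) :
    LinearMap.trace 𝒪' (ρ.baseChangeAlong y hy).V ((ρ.baseChangeAlong y hy).ρ σ) =
      y (LinearMap.trace R ρ.V (ρ.ρ σ)) := by
  have h1 := BN2.trace_eq_of_charpoly_map_eq (ρ.baseChangeAlong y hy).finrank_eq ρ.finrank_eq
    (RingHom.id 𝒪') y ((ρ.baseChangeAlong y hy).ρ σ) (ρ.ρ σ)
    (by rw [Polynomial.map_id, DefCond.charpoly_baseChangeAlong])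
  exact h1

/-- The base change of the representation is attached to a sequence of traces. -/
theorem PointHyp.exists_attached (h : PointHyp p ρ y j g S) :
    ∃ t : ℕ → 𝒪', Attached (S ∪ {p} ∪ L.primeFactors) t (ρ.baseChangeAlong y h.loc) ∧
      ∀ ℓ : ℕ, ℓ.Prime → ℓ ∉ S ∪ {p} ∪ L.primeFactors → qCoeff ⇑g ℓ = j (t ℓ) := by
  classical
  have hex : ∀ ℓ : ℕ, ∃ a : 𝒪', ℓ.Prime → ℓ ∉ S → (qCoeff ⇑g ℓ = j a ∧
      ∀ A : ValuationSubring Qbar, A.LiesOverPrime ℓ → ∀ σ : Γℚ, A.IsFrobeniusAt σ ℓ →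
        y (LinearMap.trace R ρ.V (ρ.ρ σ)) = a) := by
    intro ℓ
    by_cases hℓ : ℓ.Prime
    swap
    · exact ⟨0, fun h' => absurd h' hℓ⟩
    by_cases hℓS : ℓ ∈ S
    · exact ⟨0, fun _ h' => absurd hℓS h'⟩
    obtain ⟨P₀, hP₀⟩ := FrobExists.exists_liesOverPrime Qbar hℓ
    obtain ⟨φ₀, hφ₀⟩ := FrobExists.exists_isFrobeniusAt P₀ hℓ hP₀
    refine ⟨y (LinearMap.trace R ρ.V (ρ.ρ φ₀)), fun _ _ =>
      ⟨(h.frob ℓ hℓ hℓS P₀ hP₀ φ₀ hφ₀).symm, fun A hA σ hσ => h.inj ?_⟩⟩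
    rw [h.frob ℓ hℓ hℓS P₀ hP₀ φ₀ hφ₀, h.frob ℓ hℓ hℓS A hA σ hσ]
  choose t ht using hex
  refine ⟨t, fun ℓ hℓ hℓS A hA σ hσ => ?_, fun ℓ hℓ hℓS => ?_⟩
  · rw [Finset.mem_union, Finset.mem_union, Finset.mem_singleton, not_or, not_or] at hℓS
    obtain ⟨⟨hℓS, hℓp⟩, -⟩ := hℓS
    rw [BN2.charpoly_eq_of_finrank_two (ρ.baseChangeAlong y h.loc).finrank_eq, trace_bc,
      (ht ℓ hℓ hℓS).2 A hA σ hσ, DefCond.det_baseChangeAlong,
      RT.SelUnram.det_eq_natCast h.det (a := ℓ)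
        (fun n μ hμ => RT.SelUnram.frobenius_root Fact.out hℓ (Ne.symm hℓp) hA hσ n μ hμ),
      map_natCast]
  · rw [Finset.mem_union, Finset.mem_union, not_or, not_or] at hℓS
    exact (ht ℓ hℓ hℓS.1.1).1

theorem mem_left (S : Finset ℕ) (L p : ℕ) : p ∈ S ∪ {p} ∪ L.primeFactors := by simp

theorem mem_right (S : Finset ℕ) (L p : ℕ) [NeZero L] (q : ℕ) (hq : q.Prime) (hqL : q ∣ L) :
    q ∈ S ∪ {p} ∪ L.primeFactors := by
  simp [hq, hqL, NeZero.ne L]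

theorem PointHyp.residual_irr (h : PointHyp p ρ y j g S) :
    (ρ.baseChangeAlong y h.loc).residual.IsAbsolutelyIrreducible := by
  haveI := h.loc
  refine BN2.isAbsolutelyIrreducible_of_charpoly_eq (RingHom.id _) (ResidueField.map y)
    _ ρ.residual (fun σ => ?_) h.irr
  rw [Polynomial.map_id, CMP.S58Assembly.charpoly_residual, CMP.S58Assembly.charpoly_residual,
    DefCond.charpoly_baseChangeAlong, Polynomial.map_map, Polynomial.map_map]
  rfl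

theorem PointHyp.natCast_mem (h : PointHyp p ρ y j g S) : (p : 𝒪') ∈ maximalIdeal 𝒪' := by
  haveI := h.loc
  have h1 := map_nonunit y (p : R) h.det.1
  rwa [map_natCast] at h1

/-- The trace of Frobenius at `q ∥ L` is `±(q+1)`. -/
theorem PointHyp.special (h : PointHyp p ρ y j g S) {q : ℕ} (hq : q.Prime) (hqp : q ≠ p)
    (hqL : q ∣ L) (hqL2 : ¬ q ^ 2 ∣ L) {P : ValuationSubring Qbar} (hP : P.LiesOverPrime q)
    {F : Γℚ} (hF : P.IsFrobeniusAt F q) :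
    y (LinearMap.trace R ρ.V (ρ.ρ F)) = (q : 𝒪') + 1 ∨
      y (LinearMap.trace R ρ.V (ρ.ρ F)) = -((q : 𝒪') + 1) := by
  obtain ⟨t, hatt, htg⟩ := h.exists_attached
  have h1 := charpoly_steinberg S35.s35Prop h.natCast_mem h.new (mem_left S L p)
    (mem_right S L p) h.inj htg hatt hq hqL hqL2 hqp hP hF
  rw [BN2.charpoly_eq_of_finrank_two (ρ.baseChangeAlong y h.loc).finrank_eq, trace_bc] at h1
  rcases h1 with h1 | h1
  · left
    have h2 := congrArg (fun P => P.coeff 1) h1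
    simp only [coeff_add, coeff_sub, coeff_X_pow, coeff_C_mul, coeff_X_one, coeff_C] at h2
    norm_num at h2
    linear_combination (-1) * h2
  · right
    have h2 := congrArg (fun P => P.coeff 1) h1
    simp only [coeff_add, coeff_sub, coeff_X_pow, coeff_C_mul, coeff_X_one, coeff_C] at h2
    norm_num at h2
    linear_combination (-1) * h2

/-- Inertia at `r` with `r² ∤ L` has trace two. -/
theorem PointHyp.trace_eq_two (h : PointHyp p ρ y j g S) {r : ℕ} (hr : r.Prime) (hrp : r ≠ p)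
    (hrL2 : ¬ r ^ 2 ∣ L) {P : ValuationSubring Qbar} (hP : P.LiesOverPrime r)
    {σ : Γℚ} (hσ : σ ∈ P.inertiaSubgroupIn ℚ) :
    y (LinearMap.trace R ρ.V (ρ.ρ σ)) = 2 := by
  obtain ⟨t, hatt, htg⟩ := h.exists_attached
  by_cases hrL : r ∣ L
  · have h1 := trace_eq_two_newform h.natCast_mem h.new (mem_left S L p)
      (mem_right S L p) h.inj htg hatt (detIsCyclotomic_bc y h.loc h.det) hr hrL hrL2 hrp hP hσ
    rwa [trace_bc] at h1
  · have h1 := isUnramifiedAt s30 h.natCast_mem h.new (mem_left S L p)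
      (mem_right S L p) h.inj htg hatt h.residual_irr hr hrL hrp P hP σ hσ
    rw [← trace_bc h.loc, h1, LinearMap.trace_one, (ρ.baseChangeAlong y h.loc).finrank_eq]
    norm_num

/-- Inertia at `q` with `q² ∥ L` has an element of trace different from two. -/
theorem PointHyp.trace_ne_two (h : PointHyp p ρ y j g S) (h36 : CMP.S58Assembly.S36Prop)
    (hp2 : p ≠ 2) {q : ℕ} (hq : q.Prime) (hqp : q ≠ p) (hqL : L.factorization q = 2)
    {P : ValuationSubring Qbar} (hP : P.LiesOverPrime q) :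
    ∃ σ ∈ P.inertiaSubgroupIn ℚ, y (LinearMap.trace R ρ.V (ρ.ρ σ)) ≠ 2 := by
  obtain ⟨t, hatt, htg⟩ := h.exists_attached
  have h1 := not_unipotent h36 h.natCast_mem hp2 h.new (mem_left S L p)
      (mem_right S L p) h.inj htg hatt h.residual_irr hq hqp hqL
  unfold GaloisRepAdic.IsUnipotentOnInertiaAt at h1
  push Not at h1
  obtain ⟨P', hP', σ, hσ, hne⟩ := h1
  obtain ⟨γ, rfl⟩ := FrobExists.exists_smul_eq P P' hq hP hP'
  have h2 := TWP.Place.mem_inertia_conj γ⁻¹ hσ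
  rw [inv_smul_smul, inv_inv] at h2
  refine ⟨_, h2, fun h3 => hne ?_⟩
  have h4 : LinearMap.trace R ρ.V (ρ.ρ (γ⁻¹ * σ * γ)) = LinearMap.trace R ρ.V (ρ.ρ σ) := by
    rw [map_mul, LinearMap.trace_mul_comm, ← map_mul, ← mul_assoc, mul_inv_cancel, one_mul]
  rw [h4, ← trace_bc h.loc] at h3
  have hdet1 := det_eq_one_of_mem_inertia (ρ.baseChangeAlong y h.loc) Fact.out hq hqp
    (detIsCyclotomic_bc y h.loc h.det) _ hP' σ hσ
  rw [BN2.charpoly_eq_of_finrank_two (ρ.baseChangeAlong y h.loc).finrank_eq, h3, hdet1,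
    map_ofNat, map_one]
  ring

end Core

/-! ### Modules -/

section Module

variable {𝒪 : Type} [CommRing 𝒪] [IsDomain 𝒪] {R : Type} [CommRing R] [IsLocalRing R]
  [IsNoetherianRing R] [Algebra 𝒪 R] {T X : Type*} [CommRing T] [IsNoetherianRing T]
  [Algebra 𝒪 T] [Algebra.IsIntegral 𝒪 T] [IsReduced T] [AddCommGroup X] [Module T X] [Module 𝒪 X]
  [IsScalarTower 𝒪 T X] [Module.IsTorsionFree 𝒪 X] [Module R X]

omit [CommRing 𝒪] [IsDomain 𝒪] [IsLocalRing R] [IsNoetherianRing R] [Algebra 𝒪 R]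
  [IsNoetherianRing T] [Algebra 𝒪 T] [Algebra.IsIntegral 𝒪 T] [IsReduced T] [Module 𝒪 X]
  [IsScalarTower 𝒪 T X] [Module.IsTorsionFree 𝒪 X] in
/-- Relations on `X` can be checked at the points attached to newforms. -/
theorem smul_eq_zero_of_points (𝒪 : Type) [CommRing 𝒪] [IsDomain 𝒪] [IsNoetherianRing T]
    [Algebra 𝒪 T] [Algebra.IsIntegral 𝒪 T] [IsReduced T] [Module 𝒪 X] [IsScalarTower 𝒪 T X]
    [Module.IsTorsionFree 𝒪 X] (π : R →+* T) (hπ : ∀ (r : R) (x : X), π r • x = r • x)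
    {f : R} (h : ∀ P ∈ associatedPrimes T X, f ∈ P.comap π) (u : X) : f • u = 0 := by
  rw [← hπ]
  exact smul_eq_zero_of_forall_associated (𝒪 := 𝒪) (fun P hP => h P hP) u

/-- The associated primes of an `R`-module whose action factors through a surjection
`R → T`. -/
theorem associatedPrimes_comap (π : R →+* T) (hs : Function.Surjective π)
    (hπ : ∀ (r : R) (x : X), π r • x = r • x) {P : Ideal T} (hP : P ∈ associatedPrimes T X) :
    P.comap π ∈ associatedPrimes R X := by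
  obtain ⟨hPp, x, hx⟩ := isAssociatedPrime_iff.mp hP
  refine isAssociatedPrime_iff.mpr ⟨Ideal.IsPrime.comap π, x, ?_⟩
  ext r
  rw [Ideal.mem_comap, hx, Submodule.mem_colon_singleton, Submodule.mem_colon_singleton,
    Submodule.mem_bot, Submodule.mem_bot, hπ]

variable {p : ℕ} [Fact p.Prime] {ρ : GaloisRepAdic R}

/-- The points of `NewformPoint` satisfy `PointHyp`. -/
theorem mem_of_newformPoint (hdet : ρ.DetIsCyclotomic p)
    (hirr : ρ.residual.IsAbsolutelyIrreducible) {Q : Ideal R} {cond : ℕ → Prop}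
    (hQ : NewformPoint 𝒪 ρ Q cond) {f : R}
    (hf : ∀ (𝒪' : Type) [CommRing 𝒪'] [IsDomain 𝒪'] [IsDiscreteValuationRing 𝒪']
      [IsAdicComplete (maximalIdeal 𝒪') 𝒪'] [Finite (ResidueField 𝒪')] [CharZero 𝒪']
      [Algebra 𝒪 𝒪'] (y : R →ₐ[𝒪] 𝒪') (j : 𝒪' →+* ℂ) (L : ℕ) [NeZero L]
      (g : CuspForm (Gamma0 L) 2) (S : Finset ℕ), Function.Injective (algebraMap 𝒪 𝒪') →
      cond L → PointHyp p ρ (y : R →+* 𝒪') j g S → y f = 0) : f ∈ Q := by
  obtain ⟨𝒪', i1, i2, i3, i4, i5, i6, i7, y, j, L, i8, g, S, h1, h2, h3, h4, h5, h6⟩ := hQ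
  rw [← h2, RingHom.mem_ker]
  exact hf 𝒪' y j L g S h1 h5 ⟨isLocalHom_of_finite _, hdet, hirr, h3, h4, h6⟩

/-- **The support condition `support1`.** -/
theorem support1_of_newforms (hdet : ρ.DetIsCyclotomic p)
    (hirr : ρ.residual.IsAbsolutelyIrreducible) {q : ℕ} (hq : q.Prime) (hqp : q ≠ p)
    (π : R →+* T) (hπ : ∀ (r : R) (x : X), π r • x = r • x)
    (hpts : ∀ P ∈ associatedPrimes T X,
      NewformPoint 𝒪 ρ (P.comap π) fun L => q ∣ L ∧ ¬ q ^ 2 ∣ L) (f : R)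
    (hf : ∀ (K : Type) [Field K] [Algebra 𝒪 K] (y : R →ₐ[𝒪] K),
      Function.Injective (algebraMap 𝒪 K) →
      (∀ P : ValuationSubring Qbar, P.LiesOverPrime q → ∀ F : Γℚ, P.IsFrobeniusAt F q →
        (y (LinearMap.trace R ρ.V (ρ.ρ F)) = (q : K) + 1 ∨
          y (LinearMap.trace R ρ.V (ρ.ρ F)) = -((q : K) + 1))) → y f = 0) (u : X) :
    f • u = 0 := by
  refine smul_eq_zero_of_points 𝒪 π hπ (fun P hP =>
    mem_of_newformPoint hdet hirr (hpts P hP) ?_) u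
  intro 𝒪' _ _ _ _ _ _ _ y j L _ g S hinj hcond hy
  have hst : IsScalarTower 𝒪 𝒪' (FractionRing 𝒪') := inferInstance
  have h1 := hf (FractionRing 𝒪') ((IsScalarTower.toAlgHom 𝒪 𝒪' (FractionRing 𝒪')).comp y)
    (by
      rw [IsScalarTower.algebraMap_eq 𝒪 𝒪' (FractionRing 𝒪')]
      exact (IsFractionRing.injective 𝒪' (FractionRing 𝒪')).comp hinj)
    (fun P hP F hF => by
      rcases hy.special hq hqp hcond.1 hcond.2 hP hF with h | h
      · left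
        have := congrArg (algebraMap 𝒪' (FractionRing 𝒪')) h
        rw [map_add, map_natCast, map_one] at this
        exact this
      · right
        have := congrArg (algebraMap 𝒪' (FractionRing 𝒪')) h
        rw [map_neg, map_add, map_natCast, map_one] at this
        exact this)
  exact IsFractionRing.injective 𝒪' (FractionRing 𝒪') (h1.trans (map_zero _).symm)

/-- **The support condition `supportχ`.** -/
theorem supportχ_of_newforms (h36 : CMP.S58Assembly.S36Prop) (hp2 : p ≠ 2)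
    (hdet : ρ.DetIsCyclotomic p) (hirr : ρ.residual.IsAbsolutelyIrreducible) {q : ℕ}
    (hq : q.Prime) (hqp : q ≠ p) {k : ℕ} (v : Fin k → ℕ) (hv : ∀ l, (v l).Prime)
    (hvp : ∀ l, v l ≠ p) (π : R →+* T) (hπ : ∀ (r : R) (x : X), π r • x = r • x)
    (hpts : ∀ P ∈ associatedPrimes T X,
      NewformPoint 𝒪 ρ (P.comap π) fun L => L.factorization q = 2 ∧ ∀ l, ¬ (v l) ^ 2 ∣ L) (f : R)
    (hf : ∀ (K : Type) [Field K] [Algebra 𝒪 K] (y : R →ₐ[𝒪] K),
      Function.Injective (algebraMap 𝒪 K) →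
      (∀ P : ValuationSubring Qbar, P.LiesOverPrime q →
        ∃ σ ∈ P.inertiaSubgroupIn ℚ, y (LinearMap.trace R ρ.V (ρ.ρ σ)) ≠ 2) →
      (∀ l : Fin k, ∀ P : ValuationSubring Qbar, P.LiesOverPrime (v l) →
        ∀ σ ∈ P.inertiaSubgroupIn ℚ, y (LinearMap.trace R ρ.V (ρ.ρ σ)) = 2) → y f = 0) (u : X) :
    f • u = 0 := by
  refine smul_eq_zero_of_points 𝒪 π hπ (fun P hP =>
    mem_of_newformPoint hdet hirr (hpts P hP) ?_) u
  intro 𝒪' _ _ _ _ _ _ _ y j L _ g S hinj hcond hy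
  have hst : IsScalarTower 𝒪 𝒪' (FractionRing 𝒪') := inferInstance
  have hK := IsFractionRing.injective 𝒪' (FractionRing 𝒪')
  have h1 := hf (FractionRing 𝒪') ((IsScalarTower.toAlgHom 𝒪 𝒪' (FractionRing 𝒪')).comp y)
    (by
      rw [IsScalarTower.algebraMap_eq 𝒪 𝒪' (FractionRing 𝒪')]
      exact hK.comp hinj)
    (fun P hP => by
      obtain ⟨σ, hσ, hne⟩ := hy.trace_ne_two h36 hp2 hq hqp hcond.1 hP
      refine ⟨σ, hσ, fun h2 => hne (hK ?_)⟩
      rw [map_ofNat]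
      exact h2)
    (fun l P hP σ hσ => by
      have h2 := hy.trace_eq_two (hv l) (hvp l) (hcond.2 l) hP hσ
      have := congrArg (algebraMap 𝒪' (FractionRing 𝒪')) h2
      rw [map_ofNat] at this
      exact this)
  exact hK (h1.trans (map_zero _).symm)

end Module

section Data

variable {𝒪 : Type} [CommRing 𝒪] [IsDomain 𝒪] [IsDiscreteValuationRing 𝒪]
  [IsAdicComplete (maximalIdeal 𝒪) 𝒪] {ρbar : ResidualGaloisRep (ResidueField 𝒪)}
  {𝒟 : ∀ ⦃A : Type⦄ [CommRing A] [IsLocalRing A] [Algebra 𝒪 A], GaloisRepAdic A → Prop}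

/-- The residual representation of the universal deformation is absolutely irreducible. -/
theorem residual_irr_of_data (D : GaloisRep.DeformationRingData 𝒪 ρbar 𝒟) :
    D.ρ.residual.IsAbsolutelyIrreducible := by
  refine BN2.isAbsolutelyIrreducible_of_charpoly_eq (RingHom.id _)
    (ResidueField.map (algebraMap 𝒪 D.R)) _ ρbar (fun σ => ?_) D.absIrr
  rw [Polynomial.map_id]
  exact RT.TWInertia.charpoly_of_isEquiv D.residual_isEquiv σ

variable {p : ℕ} [Fact p.Prime] {t : PType} {S₀ Smin : Finset ℕ}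
  (D : GaloisRep.DeformationRingData 𝒪 ρbar (dCond t 𝒪 p S₀ Smin)) {k : ℕ}
  (v : Fin (k + 1) → Nat.Primes) {T X : Type*} [CommRing T] [IsNoetherianRing T]
  [Algebra 𝒪 T] [Algebra.IsIntegral 𝒪 T] [IsReduced T] [AddCommGroup X] [Module T X] [Module 𝒪 X]
  [IsScalarTower 𝒪 T X] [Module.IsTorsionFree 𝒪 X] [Module D.R X]

/-- `support1` in the form of `IH.PairSide`. -/
theorem support1_of_data (hvp : ∀ l, (v l : ℕ) ≠ p) (π : D.R →+* T)
    (hπ : ∀ (r : D.R) (x : X), π r • x = r • x)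
    (hpts : ∀ P ∈ associatedPrimes T X,
      NewformPoint 𝒪 D.ρ (P.comap π) fun L => (v 0 : ℕ) ∣ L ∧ ¬ (v 0 : ℕ) ^ 2 ∣ L) :
    ∀ f : D.R, (∀ (K : Type) [Field K] [Algebra 𝒪 K] (y : D.R →ₐ[𝒪] K),
      Function.Injective (algebraMap 𝒪 K) →
      (∀ P : ValuationSubring (AlgebraicClosure ℚ), P.LiesOverPrime (v 0 : ℕ) →
        ∀ F : UDef.GalQ, P.IsFrobeniusAt F (v 0 : ℕ) →
        (y (LinearMap.trace D.R D.ρ.V (D.ρ.ρ F)) = ((v 0 : ℕ) : K) + 1 ∨
          y (LinearMap.trace D.R D.ρ.V (D.ρ.ρ F)) = -(((v 0 : ℕ) : K) + 1))) → y f = 0) →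
      ∀ u : X, f • u = 0 := fun f hf u =>
  support1_of_newforms (dCond_det D.isOfType) (residual_irr_of_data D) (v 0).2 (hvp 0) π hπ
    hpts f hf u

/-- `supportχ` in the form of `IH.PairSide`. -/
theorem supportχ_of_data (h36 : CMP.S58Assembly.S36Prop) (hp2 : p ≠ 2)
    (hvp : ∀ l, (v l : ℕ) ≠ p) (π : D.R →+* T) (hπ : ∀ (r : D.R) (x : X), π r • x = r • x)
    (hpts : ∀ P ∈ associatedPrimes T X, NewformPoint 𝒪 D.ρ (P.comap π) fun L =>
      L.factorization (v 0 : ℕ) = 2 ∧ ∀ l : Fin k, ¬ (v l.succ : ℕ) ^ 2 ∣ L) :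
    ∀ f : D.R, (∀ (K : Type) [Field K] [Algebra 𝒪 K] (y : D.R →ₐ[𝒪] K),
      Function.Injective (algebraMap 𝒪 K) →
      (∀ P : ValuationSubring (AlgebraicClosure ℚ), P.LiesOverPrime (v 0 : ℕ) →
        ∃ σ ∈ P.inertiaSubgroupIn ℚ, y (LinearMap.trace D.R D.ρ.V (D.ρ.ρ σ)) ≠ 2) →
      (∀ l : Fin k, ∀ P : ValuationSubring (AlgebraicClosure ℚ),
        P.LiesOverPrime (v l.succ : ℕ) → ∀ σ ∈ P.inertiaSubgroupIn ℚ,
        y (LinearMap.trace D.R D.ρ.V (D.ρ.ρ σ)) = 2) → y f = 0) →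
      ∀ u : X, f • u = 0 := fun f hf u =>
  supportχ_of_newforms h36 hp2 (dCond_det D.isOfType) (residual_irr_of_data D) (v 0).2 (hvp 0)
    (fun l : Fin k => (v l.succ : ℕ)) (fun l => (v l.succ).2) (fun l => hvp l.succ) π hπ
    hpts f hf u

end Data

end Fermat.Agent.DR.SC
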