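import Fermat.Agent.RT.TwistHNew
import Fermat.Agent.DR.SC.Ctx

/-!
# [SC-1] Taylor–Wiles levels: forgetting the diamond operators at one prime

For `V : TWP p N (r+1)`, `q = V.q 0`, `V.tail : TWP p (N q) r`:
`x ∈ V.tail.M' ↔ x ∈ V.M' ∧ D (gen 0) x = x`, and the operators `D`, `TH ℓ` of the two levels agree
on such `x`.
-/

set_option autoImplicit false
set_option linter.unusedSectionVars false

open Matrix Matrix.SpecialLinearGroup CongruenceSubgroup IsLocalRing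
open scoped MatrixGroups OnePoint

noncomputable section

namespace Fermat.Agent.DR.SC.TailH

open Fermat.Agent.LR Fermat.Agent.LR.PS Fermat.Agent.RT Fermat.Agent.RT.TwistH
  Fermat.Agent.RT.GroupAlg Fermat.Agent.RT.TWS

variable {R : Type*} [CommRing R]
variable {N q Q Q' : ℕ} {Δ Δ' : Type*} [CommGroup Δ] [CommGroup Δ'] {ψ : (ZMod Q)ˣ →* Δ}
  {ψ' : (ZMod Q')ˣ →* Δ'} {π : Δ → Δ'}

/-- `Γ_H(N, Q, ψ) ≤ Γ_H(N q, Q', ψ')`. -/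
theorem GammaH_le (hQ : Q = q * Q') (hd : Q' ∣ Q)
    (hπ : ∀ u, π (ψ u) = ψ' (ZMod.unitsMap hd u)) (hπ1 : π 1 = 1) :
    GammaH N Q ψ ≤ GammaH (N * q) Q' ψ' := by
  subst hQ
  intro γ hγ
  obtain ⟨h1, h2⟩ := mem_GammaH.mp hγ
  have h1' : γ ∈ Gamma0 (N * q * Q') := by rw [mul_assoc]; exact h1
  refine mem_GammaH.mpr ⟨h1', ?_⟩
  rw [dia_eq, ← dQ_assoc h1 h1', ← hπ, ← dia_eq, h2, hπ1]

theorem mem_lower_iff (hQ : Q = q * Q') (hd : Q' ∣ Q)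
    (hπ : ∀ u, π (ψ u) = ψ' (ZMod.unitsMap hd u)) (hπ1 : π 1 = 1) (H : TwHyp N Q ψ)
    {x : Pairs R} : x ∈ MS (GammaH (N * q) Q' ψ') R ↔
      x ∈ MS (GammaH N Q ψ) R ∧ ∀ δ, π δ = 1 → D N Q ψ δ x = x := by
  constructor
  · intro hx
    have hx1 := MS_mono (R := R) (GammaH_le (N := N) hQ hd hπ hπ1) hx
    refine ⟨hx1, fun δ hδ => ?_⟩
    obtain ⟨γ, hγ⟩ := exists_dia H δ
    rw [← hγ, ← (hInv_of_mem hx1).slash_eq H γ]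
    subst hQ
    have h1' : (γ : SL(2, ℤ)) ∈ Gamma0 (N * q * Q') := by rw [mul_assoc]; exact γ.2
    refine hx.2 _ (mem_GammaH.mpr ⟨h1', ?_⟩)
    rw [dia_eq, ← dQ_assoc γ.2 h1', ← hπ, ← dia_eq]
    rw [hγ, hδ]
  · rintro ⟨hx, h⟩
    subst hQ
    exact mem_lower H hx fun u hu => h _ (by rw [hπ, hu])

theorem D_eq (hQ : Q = q * Q') (hd : Q' ∣ Q)
    (hπ : ∀ u, π (ψ u) = ψ' (ZMod.unitsMap hd u)) (H : TwHyp N Q ψ) (H' : TwHyp (N * q) Q' ψ')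
    {x : Pairs R} (hx : HInv N Q ψ x) (hx' : HInv (N * q) Q' ψ' x) (δ : Δ) :
    D N Q ψ δ x = D (N * q) Q' ψ' (π δ) x := by
  subst hQ
  obtain ⟨u, rfl⟩ := H.surj δ
  rw [D_lower H H' hx hx', hπ]

theorem TH_eq (hQ : Q = q * Q') (H : TwHyp N Q ψ) (H' : TwHyp (N * q) Q' ψ')
    (hd : Q' ∣ Q) (hπ : ∀ u, π (ψ u) = ψ' (ZMod.unitsMap hd u))
    (hcard : Nat.card Δ' ∣ Nat.card Δ) {x : Pairs R}
    (hx : HInv N Q ψ x) (hx' : HInv (N * q) Q' ψ' x) {ℓ : ℕ} (hℓ : ℓ.Coprime Q) :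
    TH N Q ψ ℓ x = TH (N * q) Q' ψ' ℓ x := by
  subst hQ
  exact TH_lower H H' hcard hx hx' hℓ

/-! ### Taylor–Wiles levels -/

variable {p r : ℕ} (V : TWP p N (r + 1))

theorem tail_Q_dvd : V.tail.Q ∣ V.Q := ⟨V.q 0, by rw [V.Q_eq_tail, mul_comm]⟩

/-- restriction of the characters -/
def πΔ (δ : V.Δ) : V.tail.Δ := fun i => δ i.succ

theorem πΔ_ψ (u : (ZMod V.Q)ˣ) :
    πΔ V (V.ψ u) = V.tail.ψ (ZMod.unitsMap (tail_Q_dvd V) u) := by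
  funext i
  rw [TWP.ψ_apply]
  change V.ψ u i.succ = psiAt (V.q i.succ) (p ^ V.a i.succ) _
  rw [TWP.ψ_apply, ← MonoidHom.comp_apply (ZMod.unitsMap _), ZMod.unitsMap_comp]
  rfl

variable [hp : Fact p.Prime]

theorem card_dvd : Nat.card V.tail.Δ ∣ Nat.card V.Δ := by
  rw [TWP.card_Δ, TWP.card_Δ, Fin.prod_univ_succ (fun i => p ^ V.a i)]
  exact dvd_mul_left _ _

theorem eq_gen_pow {δ : V.Δ} (h : πΔ V δ = 1) :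
    δ = GroupAlg.gen (fun i => p ^ V.a i) 0 ^ expo (fun i => p ^ V.a i) δ 0 := by
  conv_lhs => rw [eq_prod_gen δ, Fin.prod_univ_succ]
  rw [Finset.prod_eq_one, mul_one]
  intro i _
  have h1 : δ i.succ = 1 := congrFun h i
  rw [expo, h1, toAdd_one, ZMod.val_zero, pow_zero]

theorem mem_MS_tail_iff (H : TwHyp N V.Q V.ψ) {x : Pairs R} :
    x ∈ MS V.tail.ΓH R ↔
      x ∈ MS V.ΓH R ∧ D N V.Q V.ψ (GroupAlg.gen (fun i => p ^ V.a i) 0) x = x := by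
  rw [mem_lower_iff V.Q_eq_tail (tail_Q_dvd V) (πΔ_ψ V) rfl H]
  refine and_congr_right fun hx => ⟨fun h => h _ ?_, fun h δ hδ => ?_⟩
  · funext i
    simp [πΔ, GroupAlg.gen]
    rfl
  · rw [eq_gen_pow V hδ]
    generalize expo (fun i => p ^ V.a i) δ 0 = n
    induction n with
    | zero => rw [pow_zero, D_one H hx]
    | succ n ih => rw [pow_succ, ← D_D H hx, h, ih]

theorem mem_sgn_tail_iff (H : TwHyp N V.Q V.ψ) {ε : ℤ} {x : Pairs R} :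
    x ∈ sgnMS R ε V.tail.ΓH ↔
      x ∈ sgnMS R ε V.ΓH ∧ D N V.Q V.ψ (GroupAlg.gen (fun i => p ^ V.a i) 0) x = x := by
  rw [RT.mem_sgnMS, RT.mem_sgnMS, mem_MS_tail_iff V H]
  tauto

/-- for `x` on the level of `tail V`: the diamond operators agree. -/
theorem D_tail (H : TwHyp N V.Q V.ψ) (H' : TwHyp (N * V.q 0) V.tail.Q V.tail.ψ)
    {x : Pairs R} (hx : x ∈ MS V.tail.ΓH R) (δ : V.Δ) :
    D N V.Q V.ψ δ x = D (N * V.q 0) V.tail.Q V.tail.ψ (πΔ V δ) x :=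
  D_eq V.Q_eq_tail (tail_Q_dvd V) (πΔ_ψ V) H H' (hInv_of_mem ((mem_MS_tail_iff V H).mp hx).1)
    (hInv_of_mem hx) δ

theorem D_tail_cons (H : TwHyp N V.Q V.ψ) (H' : TwHyp (N * V.q 0) V.tail.Q V.tail.ψ)
    {x : Pairs R} (hx : x ∈ MS V.tail.ΓH R)
    (a : Multiplicative (ZMod (p ^ V.a 0))) (δ : V.tail.Δ) :
    D N V.Q V.ψ (Fin.cons a δ) x = D (N * V.q 0) V.tail.Q V.tail.ψ δ x := by
  rw [D_tail V H H' hx]
  rfl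

theorem TH_tail (H : TwHyp N V.Q V.ψ) (H' : TwHyp (N * V.q 0) V.tail.Q V.tail.ψ)
    {x : Pairs R} (hx : x ∈ MS V.tail.ΓH R) {ℓ : ℕ} (hℓ : ℓ.Coprime V.Q) :
    TH N V.Q V.ψ ℓ x = TH (N * V.q 0) V.tail.Q V.tail.ψ ℓ x :=
  TH_eq V.Q_eq_tail H H' (tail_Q_dvd V) (πΔ_ψ V) (card_dvd V)
    (hInv_of_mem ((mem_MS_tail_iff V H).mp hx).1) (hInv_of_mem hx) hℓ

/-! ### The Hecke modules -/

variable {V}

theorem good_tail {S I : Set ℕ} (hG : V.Good S I) (hq : V.q 0 ∈ S) : V.tail.Good S I where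
  hN := mul_ne_zero hG.hN (V.prime 0).ne_zero
  hp2 := hG.hp2
  hS ℓ hℓ h := by
    rcases (Nat.Prime.dvd_mul hℓ).mp h with h | h
    · exact hG.hS ℓ hℓ h
    · rwa [(Nat.prime_dvd_prime_iff_eq hℓ (V.prime 0)).mp h]
  hI s hs := by
    obtain ⟨h1, h2⟩ := hG.hI s hs
    refine ⟨h1, ?_⟩
    rwa [mul_assoc, ← V.Q_eq_tail]

theorem not_dvd_Q_iff {S : Set ℕ} (hq : V.q 0 ∈ S) {ℓ : ℕ} (hℓ : ℓ.Prime) (hℓS : ℓ ∉ S) :
    ¬ ℓ ∣ V.Q ↔ ¬ ℓ ∣ V.tail.Q := by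
  rw [V.Q_eq_tail, Nat.Prime.dvd_mul hℓ, not_or]
  refine ⟨fun h => h.2, fun h => ⟨fun h1 => hℓS ?_, h⟩⟩
  rwa [(Nat.prime_dvd_prime_iff_eq hℓ (V.prime 0)).mp h1]

theorem nilSub_congr' {𝒪 : Type*} [CommRing 𝒪] {X : Type*} [AddCommGroup X] [Module 𝒪 X]
    {A B : Module.End 𝒪 X} {H : Submodule 𝒪 X} (hB : ∀ x ∈ H, B x ∈ H) (h : ∀ x ∈ H, A x = B x)
    {x : X} (hx : x ∈ H) : x ∈ nilSub A ↔ x ∈ nilSub B := by
  have key : ∀ n : ℕ, (A ^ n) x = (B ^ n) x ∧ (B ^ n) x ∈ H := by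
    intro n
    induction n with
    | zero => exact ⟨rfl, hx⟩
    | succ n ih =>
      rw [pow_succ', Module.End.mul_apply, pow_succ', Module.End.mul_apply, ih.1, h _ ih.2]
      exact ⟨rfl, hB _ ih.2⟩
  simp only [mem_nilSub]
  refine forall_congr' fun c => forall_congr' fun _ => exists_congr fun n =>
    exists_congr fun z => ?_
  rw [(key n).1]

/-- **[SC-1]** -/
theorem mem_M'_tail_iff {𝒪 : Type*} [CommRing 𝒪] {S I : Set ℕ} (hG : V.Good S I)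
    (hq : V.q 0 ∈ S) {ε : ℤ} {t α : ℕ → 𝒪} {x : Pairs 𝒪} :
    x ∈ V.tail.M' ε S t I α ↔ x ∈ V.M' ε S t I α ∧
      D N V.Q V.ψ (GroupAlg.gen (fun i => p ^ V.a i) 0) x = x := by
  have H := hG.hyp
  have hG' := good_tail hG hq
  have H' := hG'.hyp
  have key : ∀ {ℓ : ℕ}, ℓ.Prime → ℓ ∉ S → ¬ ℓ ∣ V.tail.Q → ∀ {x : Pairs 𝒪},
      x ∈ sgnMS 𝒪 ε V.tail.ΓH →
      (x ∈ nilSub (TH N V.Q V.ψ ℓ - t ℓ • LinearMap.id : Module.End 𝒪 (Pairs 𝒪)) ↔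
        x ∈ nilSub (TH (N * V.q 0) V.tail.Q V.tail.ψ ℓ - t ℓ • LinearMap.id :
          Module.End 𝒪 (Pairs 𝒪))) := by
    intro ℓ hℓ hℓS hℓQ x hx
    refine nilSub_congr' (H := sgnMS 𝒪 ε V.tail.ΓH)
      (fun x hx => TWP.ops_mem (t := t) (α := α) hG' (Or.inl ⟨ℓ, hℓ, hℓS, hℓQ, rfl⟩) hx)
      (fun x hx => ?_) hx
    have h1 : ℓ.Coprime V.Q :=
      (Nat.Prime.coprime_iff_not_dvd hℓ).mpr ((not_dvd_Q_iff hq hℓ hℓS).mpr hℓQ)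
    rw [LinearMap.sub_apply, LinearMap.sub_apply, TH_tail V H H' (RT.mem_sgnMS.mp hx).1 h1]
  constructor
  · intro h
    obtain ⟨h1, h2⟩ := mem_part.mp h
    obtain ⟨h3, h4⟩ := (mem_sgn_tail_iff V H).mp h1
    refine ⟨mem_part.mpr ⟨h3, ?_⟩, h4⟩
    rintro T (⟨ℓ, hℓ, hℓS, hℓQ, rfl⟩ | ⟨s, hs, rfl⟩)
    · have hℓQ' := (not_dvd_Q_iff hq hℓ hℓS).mp hℓQ
      exact (key hℓ hℓS hℓQ' h1).mpr (h2 _ (Or.inl ⟨ℓ, hℓ, hℓS, hℓQ', rfl⟩))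
    · exact h2 _ (Or.inr ⟨s, hs, rfl⟩)
  · rintro ⟨h, h3⟩
    obtain ⟨h1, h2⟩ := mem_part.mp h
    have h1' := (mem_sgn_tail_iff V H).mpr ⟨h1, h3⟩
    refine mem_part.mpr ⟨h1', ?_⟩
    rintro T (⟨ℓ, hℓ, hℓS, hℓQ, rfl⟩ | ⟨s, hs, rfl⟩)
    · have hℓQ' := (not_dvd_Q_iff hq hℓ hℓS).mpr hℓQ
      exact (key hℓ hℓS hℓQ h1').mp (h2 _ (Or.inl ⟨ℓ, hℓ, hℓS, hℓQ', rfl⟩))
    · exact h2 _ (Or.inr ⟨s, hs, rfl⟩)

theorem M'_tail_le {𝒪 : Type*} [CommRing 𝒪] {S I : Set ℕ} (hG : V.Good S I)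
    (hq : V.q 0 ∈ S) {ε : ℤ} {t α : ℕ → 𝒪} : V.tail.M' ε S t I α ≤ V.M' ε S t I α :=
  fun _ hx => ((mem_M'_tail_iff hG hq).mp hx).1

end Fermat.Agent.DR.SC.TailH
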