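import Fermat.Agent.RT.NewVanishIter

/-!
# SC-2 (b), (c): the rank of the module of level `Γ₀(N Q)` (helper86)

* `M0_eq_iterPart'`: `W.M0` as an iterated part, `W` having some primes in `S` (scalar primes);
* `exists_equiv_M0`, `finrank_M0`: for `W : TWP p N r`, `B = {q_i ∉ S}`, `N₁ ∏ B = N W.Q`,
  `W.M0 ε S t B α ≃ part (sgnMS ε Γ₀(N₁)) {T_ℓ - t_ℓ | ℓ ∉ S}`;
* `finrank_M0_tw` : all `q_i ∉ S`; `finrank_M0_cons` : `V : TWP p N (r+1)`, `V.q 0 ∈ S`.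
-/

set_option autoImplicit false
set_option linter.unusedSectionVars false

noncomputable section

open Polynomial IsLocalRing CongruenceSubgroup ModularFormClass

namespace Fermat.Agent.DR.SC.RankB

open Fermat.Agent.LR Fermat.Agent.LR.PS Fermat.Agent.RT Fermat.Agent.RT.Point
  Fermat.Agent.CMP.S58Assembly Fermat.Agent.RT.TWS Fermat.Agent.RT.Control

local notation "Qbar" => AlgebraicClosure ℚ
local notation "Γℚ" => (AlgebraicClosure ℚ ≃ₐ[ℚ] AlgebraicClosure ℚ)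

section sub

variable {𝒪 : Type*} [CommRing 𝒪] {p N N₁ r : ℕ} {ε : ℤ} {t α : ℕ → 𝒪}

/-- `W.M0` as an iterated part over the level `N₁`. -/
theorem M0_eq_iterPart' (W : TWP p N r) {S : Set ℕ} {B : Finset ℕ}
    (hB : ∀ ℓ : ℕ, ℓ ∈ B ↔ ℓ ∉ S ∧ ∃ i, ℓ = W.q i) (hN₁ : N * W.Q = N₁ * ∏ q ∈ B, q)
    {I : Set ℕ} (hI : I = (B : Set ℕ)) : W.M0 ε S t I α = iterPart N₁ S ε t α B := by
  have h2 : W.ops0 S t I α = opF (prS S B) t (B : Set ℕ) α := by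
    ext T
    constructor
    · rintro (⟨ℓ, h1, h2, h3, h4⟩ | ⟨s, hs, h⟩)
      · refine Or.inl ⟨ℓ, ⟨h1, h2, fun h => ?_⟩, h4⟩
        obtain ⟨-, i, rfl⟩ := (hB ℓ).mp h
        exact h3 (W.dvd_Q i)
      · exact Or.inr ⟨s, by rwa [← hI], h⟩
    · rintro (⟨ℓ, ⟨h1, h2, h3⟩, h4⟩ | ⟨s, hs, h⟩)
      · refine Or.inl ⟨ℓ, h1, h2, fun h => ?_, h4⟩
        exact h3 ((hB ℓ).mpr ⟨h2, (W.prime_dvd_Q_iff h1).mp h⟩)
      · exact Or.inr ⟨s, by rwa [hI], h⟩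
  rw [TWP.M0, h2, hN₁]

end sub

variable {𝒪 : Type} [CommRing 𝒪] [IsDomain 𝒪] [IsDiscreteValuationRing 𝒪]
  [IsAdicComplete (maximalIdeal 𝒪) 𝒪] [Finite (ResidueField 𝒪)] [CharZero 𝒪]
  {p : ℕ} [Fact p.Prime] {N N₁ r : ℕ}

/-- The Taylor–Wiles conditions at a prime `q`, `q ≡ 1 mod p`: `α` lifts an eigenvalue of a
Frobenius at `q` which is different from the other one. -/
def TWAt (ρbar : ResidualGaloisRep (ResidueField 𝒪)) (q : ℕ) (α : 𝒪) : Prop :=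
  ∃ P : ValuationSubring Qbar, P.LiesOverPrime q ∧ ∃ φ : Γℚ, P.IsFrobeniusAt φ q ∧
    ∃ β : ResidueField 𝒪, residue 𝒪 α ≠ β ∧
      LinearMap.charpoly (ρbar.ρ φ) = (X - C (residue 𝒪 α)) * (X - C β)

/-- The numerical consequences. -/
theorem TWAt.num {ρbar : ResidualGaloisRep (ResidueField 𝒪)} {q : ℕ} {α tq : 𝒪}
    (h : TWAt ρbar q α)
    (hρq : ∀ A : ValuationSubring Qbar, A.LiesOverPrime q →
      ∀ σ : Γℚ, A.IsFrobeniusAt σ q → LinearMap.charpoly (ρbar.ρ σ) =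
        X ^ 2 - C (residue 𝒪 tq) * X + C ((q : ℕ) : ResidueField 𝒪))
    (hq1 : ((q : ℕ) : ResidueField 𝒪) = 1) :
    IsUnit α ∧ α ^ 2 - tq * α + q ∈ maximalIdeal 𝒪 ∧ IsUnit (2 * α - tq) ∧
      IsUnit (tq ^ 2 - ((q : 𝒪) + 1) ^ 2) := by
  obtain ⟨P, hP, φ, hφ, β, hne, hch⟩ := h
  rw [hρq P hP φ hφ, hq1] at hch
  have h0 := congrArg (fun P => P.coeff 0) hch
  have h1 := congrArg (fun P => P.coeff 1) hch
  have e0 : (X ^ 2 - C (residue 𝒪 tq) * X + C (1 : ResidueField 𝒪)).coeff 0 = 1 := by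
    simp
  have e1 : (X ^ 2 - C (residue 𝒪 tq) * X + C (1 : ResidueField 𝒪)).coeff 1 =
      - residue 𝒪 tq := by
    simp [coeff_one]
  have e2 : ((X - C (residue 𝒪 α)) * (X - C β) : (ResidueField 𝒪)[X]) =
      X ^ 2 - C (residue 𝒪 α + β) * X + C (residue 𝒪 α * β) := by
    rw [C_add, C_mul]; ring
  have e3 : (X ^ 2 - C (residue 𝒪 α + β) * X + C (residue 𝒪 α * β)).coeff 0 =
      residue 𝒪 α * β := by simp
  have e4 : (X ^ 2 - C (residue 𝒪 α + β) * X + C (residue 𝒪 α * β)).coeff 1 =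
      -(residue 𝒪 α + β) := by simp [coeff_C]
  rw [e2] at h0 h1
  have hdet : residue 𝒪 α * β = 1 := by rw [← e3, ← h0, e0]
  have htr : residue 𝒪 tq = residue 𝒪 α + β := by
    have := e1.symm.trans (h1.trans e4)
    exact neg_injective this
  have hu : ∀ x : 𝒪, residue 𝒪 x ≠ 0 → IsUnit x := fun x hx => by
    by_contra hn
    exact hx ((residue_eq_zero_iff x).mpr hn)
  refine ⟨hu _ ?_, ?_, hu _ ?_, hu _ ?_⟩
  · intro h; rw [h, zero_mul] at hdet; exact zero_ne_one hdet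
  · rw [← residue_eq_zero_iff]
    simp only [map_add, map_sub, map_mul, map_pow, map_natCast, hq1, htr]
    linear_combination -hdet
  · simp only [map_sub, map_mul, htr, map_ofNat]
    intro h
    exact hne (by linear_combination h)
  · simp only [map_sub, map_add, map_pow, map_natCast, map_one, hq1, htr]
    intro h
    have h2 : (residue 𝒪 α - β) ^ 2 = 0 := by linear_combination h - 4 * hdet
    exact hne (sub_eq_zero.mp (pow_eq_zero_iff two_ne_zero |>.mp h2))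

theorem natCast_eq_one (hp𝒪 : (p : 𝒪) ∈ maximalIdeal 𝒪) {q a : ℕ} (hq : q.Prime) (ha : a ≠ 0)
    (h : p ^ a ∣ q - 1) : ((q : ℕ) : ResidueField 𝒪) = 1 := by
  have hp0 : ((p : ℕ) : ResidueField 𝒪) = 0 := by
    rw [← map_natCast (residue 𝒪) p]; exact (residue_eq_zero_iff _).2 hp𝒪
  obtain ⟨m, hm⟩ := (dvd_pow_self p ha).trans h
  have h1 : q = p * m + 1 := by have := hq.two_le; omega
  rw [h1]
  push_cast
  rw [hp0, zero_mul, zero_add]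

section main

variable (h30 : Datum.S30Statement) (h35 : S35Prop) (hp𝒪 : (p : 𝒪) ∈ maximalIdeal 𝒪)
    (ρbar : ResidualGaloisRep (ResidueField 𝒪)) (habs : ρbar.IsAbsolutelyIrreducible)
    (S : Finset ℕ) (hpS : p ∈ S) (t : ℕ → 𝒪)
    (hρt : ∀ ℓ : ℕ, ℓ.Prime → ℓ ∉ S → ∀ A : ValuationSubring Qbar, A.LiesOverPrime ℓ →
      ∀ σ : Γℚ, A.IsFrobeniusAt σ ℓ → LinearMap.charpoly (ρbar.ρ σ) =
        X ^ 2 - C (residue 𝒪 (t ℓ)) * X + C ((ℓ : ℕ) : ResidueField 𝒪))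

include h30 h35 hp𝒪 habs hpS hρt

/-- **Control down to the level `N₁`.** -/
theorem exists_equiv_M0 (W : TWP p N r) (hNS : ∀ ℓ : ℕ, ℓ.Prime → ℓ ∣ N₁ → ℓ ∈ S)
    {B : Finset ℕ} (hB : ∀ ℓ : ℕ, ℓ ∈ B ↔ ℓ ∉ S ∧ ∃ i, ℓ = W.q i)
    (hN₁ : N * W.Q = N₁ * ∏ q ∈ B, q) {α : ℕ → 𝒪} (hα : ∀ q ∈ B, TWAt ρbar q (α q)) (ε : ℤ) :
    ∃ e : part (sgnMS 𝒪 ε (Gamma0 N₁)) (opF {ℓ | ℓ.Prime ∧ ℓ ∉ (↑S : Set ℕ)} t ∅ α) ≃ₗ[𝒪]
        W.M0 ε (↑S : Set ℕ) t (B : Set ℕ) α,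
      (∀ ℓ : ℕ, ℓ.Prime → ℓ ∉ (↑S : Set ℕ) → ℓ ∉ B →
        ∀ x x' : part (sgnMS 𝒪 ε (Gamma0 N₁)) (opF {ℓ | ℓ.Prime ∧ ℓ ∉ (↑S : Set ℕ)} t ∅ α),
        (x' : Pairs 𝒪) = heckeT ℓ x → (e x' : Pairs 𝒪) = heckeT ℓ (e x)) ∧
      (∀ s : ℕ, s.Prime → s ∣ N₁ →
        ∀ x x' : part (sgnMS 𝒪 ε (Gamma0 N₁)) (opF {ℓ | ℓ.Prime ∧ ℓ ∉ (↑S : Set ℕ)} t ∅ α),
        (x' : Pairs 𝒪) = heckeU s x → (e x' : Pairs 𝒪) = heckeU s (e x)) := by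
  have hBp : ∀ q ∈ B, q.Prime := fun q hq => by
    obtain ⟨-, i, rfl⟩ := (hB q).mp hq
    exact W.prime i
  have hBS : ∀ q ∈ B, q ∉ S := fun q hq => ((hB q).mp hq).1
  have hB' : ∀ ℓ : ℕ, ℓ ∈ B ↔ ℓ ∉ (↑S : Set ℕ) ∧ ∃ i, ℓ = W.q i := fun ℓ => by
    rw [hB, Finset.mem_coe]
  have hnum : ∀ q ∈ B, IsUnit (α q) ∧ α q ^ 2 - t q * α q + q ∈ maximalIdeal 𝒪 ∧
      IsUnit (2 * α q - t q) ∧ IsUnit ((t q) ^ 2 - ((q : 𝒪) + 1) ^ 2) := by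
    intro q hq
    refine (hα q hq).num (hρt q (hBp q hq) (hBS q hq)) ?_
    obtain ⟨-, i, rfl⟩ := (hB q).mp hq
    exact natCast_eq_one hp𝒪 (W.prime i) (W.apos i) (W.ha i)
  rw [M0_eq_iterPart' W hB' hN₁ rfl]
  exact exists_controlIter (fun ℓ hℓ h => Finset.mem_coe.2 (hNS ℓ hℓ h)) hBp
    (fun q hq h => hBS q hq (Finset.mem_coe.1 h)) (fun q hq => (hnum q hq).1)
    (fun q hq => (hnum q hq).2.1) (fun q hq => (hnum q hq).2.2.1) (fun q hq => (hnum q hq).2.2.2)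
    (Eig.hnewIter h30 h35 hp𝒪 ρbar habs S hpS t hρt hNS hBp hBS
      (fun q hq => (hnum q hq).2.2.2) ε α)

/-- **The rank of `W.M0`.** -/
theorem finrank_M0 (W : TWP p N r) (hNS : ∀ ℓ : ℕ, ℓ.Prime → ℓ ∣ N₁ → ℓ ∈ S)
    {B : Finset ℕ} (hB : ∀ ℓ : ℕ, ℓ ∈ B ↔ ℓ ∉ S ∧ ∃ i, ℓ = W.q i)
    (hN₁ : N * W.Q = N₁ * ∏ q ∈ B, q) {α : ℕ → 𝒪} (hα : ∀ q ∈ B, TWAt ρbar q (α q)) (ε : ℤ) :
    Module.finrank 𝒪 (W.M0 ε (↑S : Set ℕ) t (B : Set ℕ) α) = Module.finrank 𝒪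
      (part (sgnMS 𝒪 ε (Gamma0 N₁)) (opF {ℓ | ℓ.Prime ∧ ℓ ∉ (↑S : Set ℕ)} t ∅ α)) := by
  obtain ⟨e, -⟩ := exists_equiv_M0 h30 h35 hp𝒪 ρbar habs S hpS t hρt W hNS hB hN₁ hα ε
  exact e.finrank_eq.symm

/-- **(b)** All `q_i ∉ S`. -/
theorem finrank_M0_tw (W : TWP p N r) (hNS : ∀ ℓ : ℕ, ℓ.Prime → ℓ ∣ N → ℓ ∈ S)
    (hWS : ∀ i, W.q i ∉ S) {α : ℕ → 𝒪} (hα : ∀ i, TWAt ρbar (W.q i) (α (W.q i))) (ε : ℤ) :
    Module.finrank 𝒪 (W.M0 ε (↑S : Set ℕ) t (Set.range W.q) α) = Module.finrank 𝒪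
      (part (sgnMS 𝒪 ε (Gamma0 N)) (opF {ℓ | ℓ.Prime ∧ ℓ ∉ (↑S : Set ℕ)} t ∅ α)) := by
  classical
  have h := finrank_M0 h30 h35 hp𝒪 ρbar habs S hpS t hρt W hNS
    (B := Finset.univ.image W.q) (fun ℓ => by
      rw [Finset.mem_image]
      constructor
      · rintro ⟨i, -, rfl⟩; exact ⟨hWS i, i, rfl⟩
      · rintro ⟨-, i, rfl⟩; exact ⟨i, Finset.mem_univ i, rfl⟩)
    (by rw [Finset.prod_image (fun i _ j _ h => W.inj h)]; rfl) (α := α)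
    (fun q hq => by
      obtain ⟨i, -, rfl⟩ := Finset.mem_image.mp hq
      exact hα i) ε
  rwa [Finset.coe_image, Finset.coe_univ, Set.image_univ] at h

/-- **(c)** `V : TWP p N (r + 1)`, the prime `V.q 0` is scalar (`∈ S`), the others are
Taylor–Wiles primes (`∉ S`): the rank of `V.M0` is the rank at level `N * V.q 0`. -/
theorem finrank_M0_cons (V : TWP p N (r + 1))
    (hNS : ∀ ℓ : ℕ, ℓ.Prime → ℓ ∣ N * V.q 0 → ℓ ∈ S)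
    (hVS : ∀ i : Fin r, V.q i.succ ∉ S) {α : ℕ → 𝒪}
    (hα : ∀ i : Fin r, TWAt ρbar (V.q i.succ) (α (V.q i.succ))) (ε : ℤ) :
    Module.finrank 𝒪 (V.M0 ε (↑S : Set ℕ) t (Set.range fun i : Fin r => V.q i.succ) α) =
      Module.finrank 𝒪 (part (sgnMS 𝒪 ε (Gamma0 (N * V.q 0)))
        (opF {ℓ | ℓ.Prime ∧ ℓ ∉ (↑S : Set ℕ)} t ∅ α)) := by
  classical
  have h0 : V.q 0 ∈ S := hNS _ (V.prime 0) (dvd_mul_left _ _)
  have h := finrank_M0 h30 h35 hp𝒪 ρbar habs S hpS t hρt V hNS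
    (B := Finset.univ.image fun i : Fin r => V.q i.succ) (fun ℓ => by
      rw [Finset.mem_image]
      constructor
      · rintro ⟨i, -, rfl⟩; exact ⟨hVS i, i.succ, rfl⟩
      · rintro ⟨hS, i, rfl⟩
        refine Fin.cases (fun hS => absurd h0 hS) (fun i _ => ⟨i, Finset.mem_univ i, rfl⟩) i hS)
    (by
      rw [Finset.prod_image (fun i _ j _ h => Fin.succ_injective _ (V.inj h)), TWP.Q,
        Fin.prod_univ_succ, mul_assoc]) (α := α)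
    (fun q hq => by
      obtain ⟨i, -, rfl⟩ := Finset.mem_image.mp hq
      exact hα i) ε
  rwa [Finset.coe_image, Finset.coe_univ, Set.image_univ] at h

end main

end Fermat.Agent.DR.SC.RankB
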