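import Fermat.Agent.DR.SC.TraceH
import Fermat.Agent.DR.SC.Ctx
import Fermat.Agent.DR.SC.RankB
import Fermat.Agent.RT.TWInst

/-!
# SC-3: vanishing in the level without the scalar prime and `U_q² = D ψ(q)` (helper82)

* `Good.tail`, `Good.drop`;
* `M'_eq_bot_of_M0_eq_bot`;
* `drop_M'_eq_bot` : `V.drop.M' = ⊥` if the localisation vanishes in level `Γ₀(N)`;
* `heckeU_heckeU_tail` : then `U_q² = D ψ(q)` on `V.tail.M'`.
-/

set_option autoImplicit false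
set_option linter.unusedSectionVars false
set_option linter.style.haveILetI false

noncomputable section

open IsLocalRing CongruenceSubgroup

namespace Fermat.Agent.RT.TWS.TWP

open Fermat.Agent.LR Fermat.Agent.LR.PS Fermat.Agent.RT Fermat.Agent.RT.TwistH
  Fermat.Agent.RT.GroupAlg Fermat.Agent.RT.Dict Fermat.Agent.RT.Loc Fermat.Agent.RT.GR
  Fermat.Agent.RT.Control Fermat.Agent.DR.SC.TraceH

variable {p N r : ℕ} {V : TWP p N (r + 1)} {S I : Set ℕ}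

/-- `Good` for the tail. -/
theorem Good.tail (hG : V.Good S I) (hqS : V.q 0 ∈ S) : V.tail.Good S I where
  hN := mul_ne_zero hG.hN (V.prime 0).ne_zero
  hp2 := hG.hp2
  hS ℓ hℓ h := by
    rcases (Nat.Prime.dvd_mul hℓ).mp h with h | h
    · exact hG.hS ℓ hℓ h
    · rw [(Nat.prime_dvd_prime_iff_eq hℓ (V.prime 0)).mp h]; exact hqS
  hI s hs := ⟨(hG.hI s hs).1, by
    have := (hG.hI s hs).2
    rwa [Q_eq_tail, ← mul_assoc] at this⟩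

/-- `Good` for the level without the scalar prime. -/
theorem Good.drop (hG : V.Good S I) (hqI : V.q 0 ∉ I) : V.drop.Good S I where
  hN := hG.hN
  hp2 := hG.hp2
  hS := hG.hS
  hI s hs := ⟨(hG.hI s hs).1, by
    have h1 := (hG.hI s hs).2
    have h2 := (hG.hI s hs).1
    rw [Q_eq_tail, mul_left_comm] at h1
    rcases (Nat.Prime.dvd_mul h2).mp h1 with h | h
    · exact absurd ((Nat.prime_dvd_prime_iff_eq h2 (V.prime 0)).mp h ▸ hs) hqI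
    · exact h⟩

theorem ops_eq_opsH {p N r : ℕ} (W : TWP p N r) {𝒪 : Type*} [CommRing 𝒪] (S : Set ℕ) (t : ℕ → 𝒪)
    (I : Set ℕ) (α : ℕ → 𝒪) :
    W.ops S t I α = opsH N W.Q W.ψ {ℓ | ℓ.Prime ∧ ℓ ∉ S ∧ ¬ ℓ ∣ W.Q} t I α := by
  ext T
  constructor
  · rintro (⟨ℓ, h1, h2, h3, h4⟩ | h)
    · exact Or.inl ⟨ℓ, ⟨h1, h2, h3⟩, h4⟩
    · exact Or.inr h
  · rintro (⟨ℓ, ⟨h1, h2, h3⟩, h4⟩ | h)
    · exact Or.inl ⟨ℓ, h1, h2, h3, h4⟩
    · exact Or.inr h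

variable [hp : Fact p.Prime]

theorem hypTail (hG : V.Good S I) (hqS : V.q 0 ∈ S) :
    Fermat.Agent.DR.SC.TraceH.Hyp N V.tail.Q (V.q 0) V.tail.ψ :=
  ⟨(hG.tail hqS).hyp, V.prime 0, V.ndvd 0⟩

/-- **`U_q² = D ψ(q)` on the module of level `N q`**, if the module of level `N` vanishes. -/
theorem heckeU_heckeU_tail {𝒪 : Type*} [CommRing 𝒪] {t α : ℕ → 𝒪} {ε : ℤ} (hG : V.Good S I)
    (hqS : V.q 0 ∈ S) (hqI : V.q 0 ∉ I) (hbot : V.drop.M' ε S t I α = ⊥) {x : Pairs 𝒪}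
    (hx : x ∈ V.tail.M' ε S t I α) :
    heckeU (V.q 0) (heckeU (V.q 0) x) =
      D (N * V.q 0) V.tail.Q V.tail.ψ (dq V.tail.Q (V.q 0) V.tail.ψ) x := by
  have h1 : V.drop.M' ε S t I α = part (sgnMS 𝒪 ε (GammaH N V.tail.Q V.tail.ψ))
      (opsH N V.tail.Q V.tail.ψ {ℓ | ℓ.Prime ∧ ℓ ∉ S ∧ ¬ ℓ ∣ V.tail.Q} t I α) := by
    rw [M', ops_eq_opsH]; rfl
  have h2 : V.tail.M' ε S t I α = part (sgnMS 𝒪 ε (GammaH (N * V.q 0) V.tail.Q V.tail.ψ))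
      (opsH (N * V.q 0) V.tail.Q V.tail.ψ {ℓ | ℓ.Prime ∧ ℓ ∉ S ∧ ¬ ℓ ∣ V.tail.Q} t I α) := by
    rw [M', ops_eq_opsH]
  refine heckeU_heckeU_of_part_eq_bot (hypTail hG hqS) (fun ℓ hℓ => ⟨hℓ.1, fun h => ?_⟩)
    (hG.drop hqI).hI (h1.symm.trans hbot) (h2 ▸ hx)
  rcases (Nat.Prime.dvd_mul hℓ.1).mp h with h | h
  · exact hℓ.2.1 ((hG.tail hqS).hS ℓ hℓ.1 h)
  · exact hℓ.2.2 h

section dvr

variable {𝒪 : Type} [CommRing 𝒪] [IsDomain 𝒪] [IsDiscreteValuationRing 𝒪]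
  [IsAdicComplete (maximalIdeal 𝒪) 𝒪] [Finite (ResidueField 𝒪)] {t α : ℕ → 𝒪}
  {W : TWP p N r}

/-- If `M0 = 0` then `M' = 0`. -/
theorem M'_eq_bot_of_M0_eq_bot (hG : W.Good S I) (h2 : IsUnit (2 : 𝒪))
    (hp𝒪 : (p : 𝒪) ∈ maximalIdeal 𝒪)
    (h3 : IsUnit (3 : 𝒪) ∨ ∃ s : ℕ, s.Prime ∧ s % 3 = 2 ∧ s ∣ N)
    (h : W.M0 1 S t I α = ⊥) : W.M' 1 S t I α = ⊥ := by
  classical
  letI := Fintype.ofFinite W.Δ
  obtain ⟨ι, hι, b, hb⟩ := (repFree (t := t) (α := α) hG h2 hp𝒪 h3).exists_basis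
  obtain ⟨ν, -, hν, -⟩ := exists_norm (t := t) (α := α) hG h2 hp𝒪 h3
  rcases isEmpty_or_nonempty ι with hι' | ⟨⟨k⟩⟩
  · have : Subsingleton (W.M' 1 S t I α) := b.repr.injective.subsingleton
    exact (Submodule.subsingleton_iff_eq_bot).mp this
  · exfalso
    have h1 : ν (b (1, k)) = 0 := by
      have : Subsingleton (W.M0 1 S t I α) := Submodule.subsingleton_iff_eq_bot.mpr h
      exact Subsingleton.elim _ _
    have h4 := hν (b (1, k))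
    rw [h1, map_zero] at h4
    simp only [hb] at h4
    have h5 := congrArg (fun z => b.repr z (1, k)) h4
    simp only [map_zero, Finsupp.coe_zero, Pi.zero_apply, map_sum, Module.Basis.repr_self,
      Finsupp.coe_finsetSum, Finset.sum_apply] at h5
    rw [Finset.sum_eq_single (1 : W.Δ)] at h5
    · rw [Finsupp.single_eq_same] at h5
      exact zero_ne_one h5
    · intro x _ hx
      rw [Finsupp.single_eq_of_ne]
      intro h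
      exact hx (Prod.mk.inj h).1.symm
    · intro h; exact absurd (Finset.mem_univ _) h

end dvr

end Fermat.Agent.RT.TWS.TWP

namespace Fermat.Agent.DR.SC.Vanish

open Fermat.Agent.LR Fermat.Agent.LR.PS Fermat.Agent.RT Fermat.Agent.RT.Point
  Fermat.Agent.CMP.S58Assembly Fermat.Agent.RT.TWS Fermat.Agent.RT.Control
  Fermat.Agent.RT.TwistH Fermat.Agent.DR.SC.TraceH Fermat.Agent.DR.SC.RankB Polynomial

variable {𝒪 : Type} [CommRing 𝒪] [IsDomain 𝒪] [IsDiscreteValuationRing 𝒪]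
  [IsAdicComplete (maximalIdeal 𝒪) 𝒪] [Finite (ResidueField 𝒪)] [CharZero 𝒪]
  {p : ℕ} [Fact p.Prime] {N r : ℕ}

variable (h30 : Datum.S30Statement) (h35 : S35Prop) (hp𝒪 : (p : 𝒪) ∈ maximalIdeal 𝒪)
  (ρbar : ResidualGaloisRep (ResidueField 𝒪)) (habs : ρbar.IsAbsolutelyIrreducible)
  (S : Finset ℕ) (hpS : p ∈ S) (t : ℕ → 𝒪)
  (hρt : ∀ ℓ : ℕ, ℓ.Prime → ℓ ∉ S → ∀ A : ValuationSubring (AlgebraicClosure ℚ),
    A.LiesOverPrime ℓ → ∀ σ : (AlgebraicClosure ℚ ≃ₐ[ℚ] AlgebraicClosure ℚ),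
    A.IsFrobeniusAt σ ℓ → LinearMap.charpoly (ρbar.ρ σ) =
      X ^ 2 - C (residue 𝒪 (t ℓ)) * X + C ((ℓ : ResidueField 𝒪)))

include h30 h35 hp𝒪 habs hpS hρt

/-- **The module of level `N` vanishes** if the localisation vanishes in level `Γ₀(N)`. -/
theorem drop_M'_eq_bot (h2 : IsUnit (2 : 𝒪))
    (h3 : IsUnit (3 : 𝒪) ∨ ∃ s : ℕ, s.Prime ∧ s % 3 = 2 ∧ s ∣ N)
    (V : TWP p N (r + 1)) {α : ℕ → 𝒪}
    (hG : V.Good (↑S : Set ℕ) (Set.range fun i : Fin r => V.q i.succ))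
    (hVS : ∀ i : Fin r, V.q i.succ ∉ S)
    (hα : ∀ i : Fin r, TWAt ρbar (V.q i.succ) (α (V.q i.succ)))
    (hbase : part (sgnMS 𝒪 1 (Gamma0 N)) (opF {ℓ | ℓ.Prime ∧ ℓ ∉ (↑S : Set ℕ)} t ∅ α) = ⊥) :
    V.drop.M' 1 (↑S : Set ℕ) t (Set.range fun i : Fin r => V.q i.succ) α = ⊥ := by
  have hqI : V.q 0 ∉ Set.range fun i : Fin r => V.q i.succ := by
    rintro ⟨i, hi⟩
    exact Fin.succ_ne_zero i (V.inj hi)
  have hGd := hG.drop hqI
  refine TWP.M'_eq_bot_of_M0_eq_bot hGd h2 hp𝒪 h3 ?_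
  have h4 := finrank_M0_tw h30 h35 hp𝒪 ρbar habs S hpS t hρt V.drop
    (fun ℓ hℓ h => Finset.mem_coe.mp (hG.hS ℓ hℓ h)) hVS hα 1
  rw [hbase, finrank_bot] at h4
  have hfin : Module.Finite 𝒪 (V.drop.M' 1 (↑S : Set ℕ) t
      (Set.range fun i : Fin r => V.q i.succ) α) := TWP.finite_M' hGd
  have hfin0 : Module.Finite 𝒪 (V.drop.M0 1 (↑S : Set ℕ) t
      (Set.range fun i : Fin r => V.q i.succ) α) :=
    Module.Finite.of_injective (Submodule.inclusion (TWP.M0_le hGd))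
      (Submodule.inclusion_injective _)
  have h5 : Module.finrank 𝒪 (V.drop.M0 1 (↑S : Set ℕ) t
      (Set.range fun i : Fin r => V.q i.succ) α) = 0 := h4
  have h6 : Subsingleton (V.drop.M0 1 (↑S : Set ℕ) t
      (Set.range fun i : Fin r => V.q i.succ) α) := Module.finrank_zero_iff.mp h5
  exact Submodule.subsingleton_iff_eq_bot.mp h6

/-- **`U_q² = D ψ(q)`** on the module of level `N q`. -/
theorem heckeU_heckeU_tail (h2 : IsUnit (2 : 𝒪))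
    (h3 : IsUnit (3 : 𝒪) ∨ ∃ s : ℕ, s.Prime ∧ s % 3 = 2 ∧ s ∣ N)
    (V : TWP p N (r + 1)) {α : ℕ → 𝒪}
    (hG : V.Good (↑S : Set ℕ) (Set.range fun i : Fin r => V.q i.succ)) (hqS : V.q 0 ∈ S)
    (hVS : ∀ i : Fin r, V.q i.succ ∉ S)
    (hα : ∀ i : Fin r, TWAt ρbar (V.q i.succ) (α (V.q i.succ)))
    (hbase : part (sgnMS 𝒪 1 (Gamma0 N)) (opF {ℓ | ℓ.Prime ∧ ℓ ∉ (↑S : Set ℕ)} t ∅ α) = ⊥)
    {x : Pairs 𝒪}
    (hx : x ∈ V.tail.M' 1 (↑S : Set ℕ) t (Set.range fun i : Fin r => V.q i.succ) α) :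
    heckeU (V.q 0) (heckeU (V.q 0) x) =
      D (N * V.q 0) V.tail.Q V.tail.ψ (dq V.tail.Q (V.q 0) V.tail.ψ) x := by
  have hqI : V.q 0 ∉ Set.range fun i : Fin r => V.q i.succ := by
    rintro ⟨i, hi⟩
    exact Fin.succ_ne_zero i (V.inj hi)
  exact TWP.heckeU_heckeU_tail hG (Finset.mem_coe.mpr hqS) hqI
    (drop_M'_eq_bot h30 h35 hp𝒪 ρbar habs S hpS t hρt h2 h3 V hG hVS hα hbase) hx

end Fermat.Agent.DR.SC.Vanish
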