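import Fermat.Agent.DR.SC.SuppNew
import Fermat.Agent.DR.SC.SupportPts
import Fermat.Agent.DR.SC.Tail
import Fermat.Agent.DR.SC.Vanish
import Fermat.Agent.RT.TWAct

/-!
# The supports of the two eigenspaces of the diamond operator at the scalar prime

`V` a Taylor–Wiles level, `q = V.q 0`, `Φ : heckeLocal (N Q²) → End M'` and
`φ : D.R → heckeLocal`.

* `hmodChi`, `hmodOne` : the eigenspaces of `dia' (gen 0)` as Hecke modules of symbols;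
* `support1`, `supportχ` : the support conditions of `IH.exists_pairHecke`.
-/

set_option autoImplicit false
set_option linter.unusedSectionVars false
set_option linter.style.haveILetI false

noncomputable section

open Matrix Matrix.SpecialLinearGroup CongruenceSubgroup IsLocalRing CuspForm ModularFormClass
open scoped MatrixGroups OnePoint

namespace Fermat.Agent.DR.SC.SuppGlue

open Fermat.Agent.LR Fermat.Agent.LR.PS Fermat.Agent.RT Fermat.Agent.RT.TwistH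
  Fermat.Agent.RT.TWS Fermat.Agent.RT.TWS.TWP Fermat.Agent.DR.SC.Supp Fermat.Agent.UDef
  Fermat.Agent.RT.Wiring Fermat.Agent.DR.SC.TraceH

local notation "Qbar" => AlgebraicClosure ℚ
local notation "Γℚ" => (AlgebraicClosure ℚ ≃ₐ[ℚ] AlgebraicClosure ℚ)

section restr

variable {𝒪 T X : Type} [CommRing 𝒪] [CommRing T] [Algebra 𝒪 T] [AddCommGroup X] [Module 𝒪 X]

/-- restriction of an action to a stable submodule -/
def restrAlg (Φ : T →ₐ[𝒪] Module.End 𝒪 X) (Y : Submodule 𝒪 X) (h : ∀ f, ∀ x ∈ Y, Φ f x ∈ Y) :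
    T →ₐ[𝒪] Module.End 𝒪 Y where
  toFun f := (Φ f).restrict (h f)
  map_one' := LinearMap.ext fun x => Subtype.ext (by
    change (Φ 1) (x : X) = x
    rw [map_one]; rfl)
  map_mul' f g := LinearMap.ext fun x => Subtype.ext (by
    change (Φ (f * g)) (x : X) = Φ f (Φ g x)
    rw [map_mul]; rfl)
  map_zero' := LinearMap.ext fun x => Subtype.ext (by
    change (Φ 0) (x : X) = 0
    rw [map_zero]; rfl)
  map_add' f g := LinearMap.ext fun x => Subtype.ext (by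
    change (Φ (f + g)) (x : X) = Φ f x + Φ g x
    rw [map_add]; rfl)
  commutes' c := LinearMap.ext fun x => Subtype.ext (by
    change (Φ (algebraMap 𝒪 T c)) (x : X) = c • (x : X)
    rw [AlgHom.commutes]; rfl)

theorem restrAlg_coe (Φ : T →ₐ[𝒪] Module.End 𝒪 X) (Y : Submodule 𝒪 X)
    (h : ∀ f, ∀ x ∈ Y, Φ f x ∈ Y) (f : T) (x : Y) :
    ((restrAlg Φ Y h f x : Y) : X) = Φ f x := rfl

theorem torsionFree_of {𝒪 X : Type} [CommRing 𝒪] [IsDomain 𝒪] [AddCommGroup X] [Module 𝒪 X]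
    (ι : X →ₗ[𝒪] Pairs 𝒪) (hι : Function.Injective ι) : Module.IsTorsionFree 𝒪 X := by
  have h : ∀ (c : 𝒪) (x : X), c • x = 0 → c = 0 ∨ x = 0 := by
    intro c x h
    by_cases hc : c = 0
    · exact Or.inl hc
    · refine Or.inr (hι ?_)
      rw [map_zero]
      funext a b
      have h1 : ι (c • x) a b = 0 := by rw [h, map_zero]; rfl
      rw [map_smul] at h1
      exact (mul_eq_zero.mp h1).resolve_left hc
  exact Module.isTorsionFree_iff_smul_eq_zero.mpr fun {c x} => h c x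

end restr

variable {p N r : ℕ} [hp : Fact p.Prime] {V : TWP p N (r + 1)}
variable {𝒪 : Type} [CommRing 𝒪] [IsDomain 𝒪] [IsDiscreteValuationRing 𝒪]
  [IsAdicComplete (maximalIdeal 𝒪) 𝒪] [Finite (ResidueField 𝒪)] [CharZero 𝒪]
variable {t α : ℕ → 𝒪} {S I : Set ℕ} {SQ : Finset ℕ}

/-- The eigenspace of the diamond operator at the scalar prime. -/
abbrev Eig (hG : V.Good S I) (t α : ℕ → 𝒪) (c : 𝒪) : Submodule 𝒪 (V.M' 1 S t I α) :=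
  Module.End.eigenspace (dia' hG 1 t α (GroupAlg.gen (fun i => p ^ V.a i) 0)) c

theorem finite_Eig (hG : V.Good S I) (t α : ℕ → 𝒪) (c : 𝒪) : Module.Finite 𝒪 (Eig hG t α c) := by
  have := finite_M' (t := t) (α := α) (ε := 1) hG
  infer_instance

variable [NeZero (N * V.Q ^ 2)] [Fact (CuspForm.HasIntegralStructure (N * V.Q ^ 2) 2)]
variable {θ : CuspForm.heckeAlgebra (N * V.Q ^ 2) 2 (↑SQ : Set ℕ) →+* ResidueField 𝒪}

/-- `Φ` acts through the twisted operators and commutes with the diamonds. -/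
structure Act (hG : V.Good S I) (hSQ : IsSQ V S (↑SQ : Set ℕ))
    (Φ : CuspForm.heckeLocal (N * V.Q ^ 2) (↑SQ : Set ℕ) 𝒪 θ →ₐ[𝒪]
      Module.End 𝒪 (V.M' 1 S t I α)) : Prop where
  hT : ∀ (ℓ : ℕ) (hℓ : ℓ.Prime) (hℓN : ¬ ℓ ∣ N * V.Q ^ 2) (hℓS : ℓ ∉ (↑SQ : Set ℕ)),
    Φ (CuspForm.heckeLocal.π (N * V.Q ^ 2) (↑SQ : Set ℕ) 𝒪 θ
      (CuspForm.heckeAlgebra.T hℓ hℓN hℓS)) =
        hopM' hG 1 t α (isHop_TH hℓ (not_dvd_of_IsSQ hG hSQ hℓ hℓS))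
  hD : ∀ f δ, Commute (Φ f) (dia' hG 1 t α δ)

variable {hG : V.Good S I} {hSQ : IsSQ V S (↑SQ : Set ℕ)}
  {Φ : CuspForm.heckeLocal (N * V.Q ^ 2) (↑SQ : Set ℕ) 𝒪 θ →ₐ[𝒪] Module.End 𝒪 (V.M' 1 S t I α)}

theorem Act.mem_eig (A : Act hG hSQ Φ) (c : 𝒪) (f) (x) (hx : x ∈ Eig hG t α c) :
    Φ f x ∈ Eig hG t α c := by
  rw [Module.End.mem_eigenspace_iff] at hx ⊢
  have h := LinearMap.congr_fun (A.hD f (GroupAlg.gen (fun i => p ^ V.a i) 0)).eq x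
  rw [Module.End.mul_apply, Module.End.mul_apply, hx, map_smul] at h
  exact h.symm

theorem dia'_comm (hG : V.Good S I) (δ δ' : V.Δ) (x : V.M' 1 S t I α) :
    dia' hG 1 t α δ (dia' hG 1 t α δ' x) = dia' hG 1 t α δ' (dia' hG 1 t α δ x) := by
  rw [← Module.End.mul_apply, ← map_mul, mul_comm, map_mul, Module.End.mul_apply]

theorem dia'_mem_eig (hG : V.Good S I) (c : 𝒪) (δ : V.Δ) (x : V.M' 1 S t I α)
    (hx : x ∈ Eig hG t α c) : dia' hG 1 t α δ x ∈ Eig hG t α c := by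
  rw [Module.End.mem_eigenspace_iff] at hx ⊢
  rw [dia'_comm, hx, map_smul]

theorem hSM_of (hG : V.Good S I) (hSQ : IsSQ V S (↑SQ : Set ℕ)) (ℓ : ℕ) (hℓ : ℓ.Prime)
    (h : ℓ ∣ N * V.Q ^ 2) : ℓ ∈ SQ := by
  by_contra hc
  exact not_dvd_sq_of_IsSQ hG hSQ hℓ (fun h' => hc (Finset.mem_coe.mp h')) h

theorem hSN_of (hG : V.Good S I) (hSQ : IsSQ V S (↑SQ : Set ℕ)) (ℓ : ℕ) (hℓ : ℓ.Prime)
    (h : ℓ ∣ N * V.Q) : ℓ ∈ SQ := by
  by_contra hc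
  exact not_dvd_of_IsSQ hG hSQ hℓ (fun h' => hc (Finset.mem_coe.mp h')) h

/-- The eigenspace as a Hecke module of symbols of level `V`. -/
def hmodChi (A : Act hG hSQ Φ) (c : 𝒪) :
    HMod 𝒪 N V.Q V.ψ (N * V.Q ^ 2) SQ θ (Eig hG t α c) where
  hSM := hSM_of hG hSQ
  hSN := hSN_of hG hSQ
  Φ := restrAlg Φ _ (A.mem_eig c)
  ι := (V.M' 1 S t I α).subtype ∘ₗ (Eig hG t α c).subtype
  inj := fun _ _ h => Subtype.ext (Subtype.ext h)
  mem := fun x => M'_le_MS x.1.2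
  hΦ := fun ℓ hℓ hℓM hℓS x => by
    change ((restrAlg Φ _ (A.mem_eig c) _ x : Eig hG t α c).1 : Pairs 𝒪) = _
    rw [restrAlg_coe, A.hT ℓ hℓ hℓM hℓS, hopM'_coe]
    rfl
  hD := fun δ x => ⟨⟨dia' hG 1 t α δ x.1, dia'_mem_eig hG c δ x.1 x.2⟩, rfl⟩

theorem mem_tail_of_eig (hq : V.q 0 ∈ S) (x : Eig hG t α 1) :
    ((x : V.M' 1 S t I α) : Pairs 𝒪) ∈ V.tail.M' 1 S t I α := by
  refine (TailH.mem_M'_tail_iff hG hq).mpr ⟨x.1.2, ?_⟩
  have h := Module.End.mem_eigenspace_iff.mp x.2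
  rw [one_smul] at h
  exact congrArg Subtype.val h

theorem eig_of_mem_tail (hG : V.Good S I) (hq : V.q 0 ∈ S) {x : Pairs 𝒪}
    (hx : x ∈ V.tail.M' 1 S t I α) : ∃ x' : Eig hG t α 1, ((x' : V.M' 1 S t I α) : Pairs 𝒪) = x := by
  obtain ⟨h1, h2⟩ := (TailH.mem_M'_tail_iff hG hq).mp hx
  refine ⟨⟨⟨x, h1⟩, ?_⟩, rfl⟩
  rw [Module.End.mem_eigenspace_iff, one_smul]
  exact Subtype.ext h2

/-- The invariants as a Hecke module of symbols of level `V.tail`. -/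
def hmodOne (A : Act hG hSQ Φ) (hq : V.q 0 ∈ S) :
    HMod 𝒪 (N * V.q 0) V.tail.Q V.tail.ψ (N * V.Q ^ 2) SQ θ (Eig hG t α 1) where
  hSM := hSM_of hG hSQ
  hSN := fun ℓ hℓ h => hSN_of hG hSQ ℓ hℓ (by
    rwa [mul_assoc, ← V.Q_eq_tail] at h)
  Φ := restrAlg Φ _ (A.mem_eig 1)
  ι := (V.M' 1 S t I α).subtype ∘ₗ (Eig hG t α 1).subtype
  inj := fun _ _ h => Subtype.ext (Subtype.ext h)
  mem := fun x => M'_le_MS (mem_tail_of_eig hq x)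
  hΦ := fun ℓ hℓ hℓM hℓS x => by
    change ((restrAlg Φ _ (A.mem_eig 1) _ x : Eig hG t α 1).1 : Pairs 𝒪) = _
    rw [restrAlg_coe, A.hT ℓ hℓ hℓM hℓS, hopM'_coe]
    refine TailH.TH_tail V hG.hyp (TailH.good_tail hG hq).hyp (M'_le_MS (mem_tail_of_eig hq x))
      ((Nat.Prime.coprime_iff_not_dvd hℓ).mpr fun h => hℓM ?_)
    exact (h.trans (dvd_pow_self _ two_ne_zero)).mul_left N
  hD := fun δ x => by
    have h1 := D_mem_M' (TailH.good_tail hG hq) δ (mem_tail_of_eig hq x)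
    exact eig_of_mem_tail hG hq h1

/-! ### The conductor -/

theorem exists_unit_gen (V : TWP p N (r + 1)) : ∃ u : (ZMod V.Q)ˣ,
    ZMod.castHom (TailH.tail_Q_dvd V) (ZMod V.tail.Q) (u : ZMod V.Q) = 1 ∧
    V.ψ u = GroupAlg.gen (fun i => p ^ V.a i) 0 := by
  obtain ⟨w, hw⟩ := psiAt_surjective (V.prime 0) (V.ha 0) (Multiplicative.ofAdd 1)
  obtain ⟨u, hu⟩ := V.exists_unit (Fin.cons w fun _ => 1)
  have h0 : ZMod.unitsMap (V.dvd_Q 0) u = w := hu 0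
  have hs : ∀ i : Fin r, ZMod.unitsMap (V.dvd_Q i.succ) u = 1 := fun i => hu i.succ
  refine ⟨u, ?_, ?_⟩
  · -- by the Chinese remainder theorem
    have h1 : ZMod.unitsMap (TailH.tail_Q_dvd V) u = 1 := by
      have hinj : Function.Injective (ZMod.prodEquivPi V.tail.q V.tail.coprime_pair) :=
        (ZMod.prodEquivPi V.tail.q V.tail.coprime_pair).injective
      apply Units.ext
      refine hinj (funext fun i => ?_)
      rw [ZMod.prodEquivPi_apply, ZMod.prodEquivPi_apply]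
      have h3 : ZMod.unitsMap (V.tail.dvd_Q i) (ZMod.unitsMap (TailH.tail_Q_dvd V) u) = 1 := by
        rw [← MonoidHom.comp_apply, ZMod.unitsMap_comp]
        exact hs i
      have h4 := congrArg Units.val h3
      rw [ZMod.unitsMap_val] at h4
      exact (h4.trans Units.val_one).trans
        (map_one (ZMod.castHom (V.tail.dvd_Q i) (ZMod (V.tail.q i)))).symm
    have h2 := congrArg Units.val h1
    rw [ZMod.unitsMap_val] at h2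
    exact h2
  · funext i
    rw [TWP.ψ_apply]
    refine Fin.cases ?_ (fun i => ?_) i
    · rw [h0, hw, GroupAlg.gen, Pi.mulSingle_eq_same]
    · rw [hs, map_one, GroupAlg.gen, Pi.mulSingle_eq_of_ne (Fin.succ_ne_zero i)]

/-- the factorisation of the conductor at the scalar prime -/
theorem factorization_eq_two {L : ℕ} (hL0 : L ≠ 0) (hL : L ∣ N * V.Q ^ 2)
    (h2 : V.q 0 ^ 2 ∣ L) : L.factorization (V.q 0) = 2 := by
  have hq := V.prime 0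
  refine le_antisymm ?_ ((hq.pow_dvd_iff_le_factorization hL0).mp h2)
  by_contra hc
  have h3 : V.q 0 ^ 3 ∣ L := (hq.pow_dvd_iff_le_factorization hL0).mpr (by omega)
  have h4 : V.q 0 ^ 3 ∣ N * V.Q ^ 2 := h3.trans hL
  have h5 : (V.q 0 ^ 3).Coprime N :=
    ((Nat.Prime.coprime_iff_not_dvd hq).mpr (V.ndvd 0)).pow_left 3
  have h6 : V.q 0 ^ 3 ∣ V.q 0 ^ 2 * V.tail.Q ^ 2 := by
    rw [← mul_pow, ← V.Q_eq_tail]
    exact h5.dvd_of_dvd_mul_left h4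
  have h7 : V.q 0 ∣ V.tail.Q ^ 2 := by
    rw [pow_succ] at h6
    exact Nat.dvd_of_mul_dvd_mul_left (pow_pos hq.pos 2) h6
  obtain ⟨i, hi⟩ := (V.tail.prime_dvd_Q_iff hq).mp (hq.dvd_of_dvd_pow h7)
  exact Fin.succ_ne_zero i (V.inj hi.symm)

theorem not_sq_dvd {L s : ℕ} (hs : s.Prime) (hN : Squarefree N) (hsQ : ¬ s ∣ V.Q)
    (hL : L ∣ N * V.Q ^ 2) : ¬ s ^ 2 ∣ L := by
  intro h
  have h1 : (s ^ 2).Coprime (V.Q ^ 2) :=
    ((Nat.Prime.coprime_iff_not_dvd hs).mpr hsQ).pow 2 2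
  have h2 : s ^ 2 ∣ N := h1.dvd_of_dvd_mul_right (h.trans hL)
  rw [pow_two] at h2
  exact hs.one_lt.ne' (Nat.isUnit_iff.mp (hN s h2))

/-! ### The points -/

section points

variable {ρbar : ResidualGaloisRep (ResidueField 𝒪)}
  {𝒟 : ∀ ⦃A : Type⦄ [CommRing A] [IsLocalRing A] [Algebra 𝒪 A], GaloisRepAdic A → Prop}
  (DQ : GaloisRep.DeformationRingData 𝒪 ρbar 𝒟)
  (φ : DQ.R →ₐ[𝒪] CuspForm.heckeLocal (N * V.Q ^ 2) (↑SQ : Set ℕ) 𝒪 θ)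

theorem newformPoint_of (hG : V.Good S I) (hSQ : IsSQ V S (↑SQ : Set ℕ))
    (hφT : ∀ (ℓ : ℕ) (hℓ : ℓ.Prime) (hℓN : ¬ ℓ ∣ N * V.Q ^ 2) (hℓS : ℓ ∉ (↑SQ : Set ℕ)),
      ∀ A : ValuationSubring Qbar, A.LiesOverPrime ℓ → ∀ σ : Γℚ, A.IsFrobeniusAt σ ℓ →
        φ (DQ.ρ.trace σ) = CuspForm.heckeLocal.π (N * V.Q ^ 2) (↑SQ : Set ℕ) 𝒪 θ
          (CuspForm.heckeAlgebra.T hℓ hℓN hℓS))
    {P : Ideal (CuspForm.heckeLocal (N * V.Q ^ 2) (↑SQ : Set ℕ) 𝒪 θ)} {cond cond' : ℕ → Prop}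
    (hcond : ∀ L, L ≠ 0 → L ∣ N * V.Q ^ 2 → cond' L → cond L)
    (h : ∃ (𝒪' : Type) (_ : CommRing 𝒪') (_ : IsDomain 𝒪') (_ : IsDiscreteValuationRing 𝒪')
      (_ : IsAdicComplete (maximalIdeal 𝒪') 𝒪') (_ : Finite (ResidueField 𝒪'))
      (_ : CharZero 𝒪') (_ : Algebra 𝒪 𝒪') (_ : Module.Finite 𝒪 𝒪') (_ : Module.Free 𝒪 𝒪')
      (_ : IsLocalHom (algebraMap 𝒪 𝒪')),
      Function.Injective (algebraMap 𝒪 𝒪') ∧
      ∃ (y : heckeLocal (N * V.Q ^ 2) (↑SQ : Set ℕ) 𝒪 θ →ₐ[𝒪] 𝒪') (j : 𝒪' →+* ℂ),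
        Function.Injective j ∧ RingHom.ker y = P ∧
        ∃ (L : ℕ) (_ : NeZero L) (g : CuspForm (Gamma0 L) 2), L ∣ N * V.Q ^ 2 ∧ g.IsNewform ∧
          (∀ (ℓ : ℕ) (hℓ : ℓ.Prime) (hℓM : ¬ ℓ ∣ N * V.Q ^ 2) (hℓS : ℓ ∉ (↑SQ : Set ℕ)),
            qCoeff ⇑g ℓ = j (y (heckeLocal.π (N * V.Q ^ 2) (↑SQ : Set ℕ) 𝒪 θ
              (heckeAlgebra.T hℓ hℓM hℓS)))) ∧ cond' L) :
    NewformPoint 𝒪 DQ.ρ (P.comap (φ : DQ.R →+*
      CuspForm.heckeLocal (N * V.Q ^ 2) (↑SQ : Set ℕ) 𝒪 θ)) cond := by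
  obtain ⟨𝒪', i1, i2, i3, i4, i5, i6, i7, i8, i9, i10, hinj, y, j, hj, hyP, L, iL, g, hLM, hg,
    hga, hc⟩ := h
  refine ⟨𝒪', i1, i2, i3, i4, i5, i6, i7, y.comp φ, j, L, iL, g, SQ, hinj, ?_, hj, hg,
    hcond L (NeZero.ne L) hLM hc, ?_⟩
  · rw [← hyP]
    rfl
  · intro ℓ hℓ hℓS A hA σ hσ
    have hℓS' : ℓ ∉ (↑SQ : Set ℕ) := fun h => hℓS (Finset.mem_coe.mp h)
    have hℓN := not_dvd_sq_of_IsSQ hG hSQ hℓ hℓS'
    rw [hga ℓ hℓ hℓN hℓS', ← hφT ℓ hℓ hℓN hℓS' A hA σ hσ]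
    rfl

end points

/-! ### The supports -/

section support

variable {ρbar : ResidualGaloisRep (ResidueField 𝒪)} {ty : PType} {S₀ Smin : Finset ℕ}
  (DQ : GaloisRep.DeformationRingData 𝒪 ρbar (dCond ty 𝒪 p S₀ Smin))
  (φ : DQ.R →ₐ[𝒪] CuspForm.heckeLocal (N * V.Q ^ 2) (↑SQ : Set ℕ) 𝒪 θ)
  {k : ℕ} (v : Fin (k + 1) → Nat.Primes)

theorem hSQ_of (hG : V.Good S I) (hSQ : IsSQ V S (↑SQ : Set ℕ)) (q : ℕ) (hq : q.Prime)
    (h : q ∣ N * V.Q ^ 2) : q ∈ (↑SQ : Set ℕ) :=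
  Finset.mem_coe.mpr (hSM_of hG hSQ q hq h)

theorem isReduced_T (hG : V.Good S I) (hSQ : IsSQ V S (↑SQ : Set ℕ)) :
    IsReduced (CuspForm.heckeLocal (N * V.Q ^ 2) (↑SQ : Set ℕ) 𝒪 θ) :=
  HeckeLocalFields.isReduced _ (↑SQ : Set ℕ) 𝒪 θ
    (Petersson.isReduced_heckeAlgebra (hSQ_of hG hSQ))
    (IntStr.moduleFinite_heckeAlgebra _ 2 _)

/-- **`supportχ`** -/
theorem supportχ (A : Act hG hSQ Φ) (h36 : CMP.S58Assembly.S36Prop) (hp2 : p ≠ 2)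
    (hφT : ∀ (ℓ : ℕ) (hℓ : ℓ.Prime) (hℓN : ¬ ℓ ∣ N * V.Q ^ 2) (hℓS : ℓ ∉ (↑SQ : Set ℕ)),
      ∀ A : ValuationSubring Qbar, A.LiesOverPrime ℓ → ∀ σ : Γℚ, A.IsFrobeniusAt σ ℓ →
        φ (DQ.ρ.trace σ) = CuspForm.heckeLocal.π (N * V.Q ^ 2) (↑SQ : Set ℕ) 𝒪 θ
          (CuspForm.heckeAlgebra.T hℓ hℓN hℓS))
    (hv0 : (v 0 : ℕ) = V.q 0) (hvp : ∀ l, (v l : ℕ) ≠ p) (hN : Squarefree N)
    (hvQ : ∀ l : Fin k, ¬ (v l.succ : ℕ) ∣ V.Q) {ω : 𝒪} (hω : ω ≠ 1) :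
    ∀ f : DQ.R, (∀ (K : Type) [Field K] [Algebra 𝒪 K] (y : DQ.R →ₐ[𝒪] K),
      Function.Injective (algebraMap 𝒪 K) →
      (∀ P : ValuationSubring (AlgebraicClosure ℚ), P.LiesOverPrime (v 0 : ℕ) →
        ∃ σ ∈ P.inertiaSubgroupIn ℚ, y (LinearMap.trace DQ.R DQ.ρ.V (DQ.ρ.ρ σ)) ≠ 2) →
      (∀ l : Fin k, ∀ P : ValuationSubring (AlgebraicClosure ℚ),
        P.LiesOverPrime (v l.succ : ℕ) → ∀ σ ∈ P.inertiaSubgroupIn ℚ,
        y (LinearMap.trace DQ.R DQ.ρ.V (DQ.ρ.ρ σ)) = 2) → y f = 0) →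
      ∀ z : V.M' 1 S t I α, dia' hG 1 t α (GroupAlg.gen _ 0) z = ω • z →
        (Φ.comp φ) f z = 0 := by
  intro f hf z hz
  let T := CuspForm.heckeLocal (N * V.Q ^ 2) (↑SQ : Set ℕ) 𝒪 θ
  have iT : IsReduced T := isReduced_T hG hSQ
  have iI : Algebra.IsIntegral 𝒪 T := Algebra.IsIntegral.of_finite 𝒪 T
  have iN : NeZero V.Q := ⟨V.Q_ne_zero⟩
  let X := Eig hG t α ω
  have iX : Module.Finite 𝒪 X := finite_Eig hG t α ω
  letI m1 : Module T X := Module.compHom X (hmodChi A ω).Φ.toRingHom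
  letI m2 : Module DQ.R X := Module.compHom X ((hmodChi A ω).Φ.comp φ).toRingHom
  have hsm : ∀ (a : T) (x : X), a • x = (hmodChi A ω).Φ a x := fun _ _ => rfl
  have ist : IsScalarTower 𝒪 T X := ⟨fun c a x => by
    rw [hsm, hsm, map_smul]; rfl⟩
  have itf : Module.IsTorsionFree 𝒪 X :=
    torsionFree_of (𝒪 := 𝒪) (X := X) (hmodChi A ω).ι (hmodChi A ω).inj
  have h := supportχ_of_data (𝒪 := 𝒪) (T := T) (X := X) DQ v h36 hp2 hvp (φ : DQ.R →+* T)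
    (fun _ _ => rfl) (fun P hP => ?_) f hf ⟨z, Module.End.mem_eigenspace_iff.mpr hz⟩
  · exact congrArg Subtype.val h
  · obtain ⟨hPp, x, hx⟩ := isAssociatedPrime_iff.mp hP
    obtain ⟨u, hu1, hu2⟩ := exists_unit_gen V
    refine newformPoint_of DQ φ hG hSQ hφT (cond' := fun L => V.q 0 ^ 2 ∣ L)
      (fun L hL0 hL h2 => ⟨?_, fun l => not_sq_dvd (v l.succ).2 hN (hvQ l) hL⟩)
      (exists_newform_chi hG.hyp (V.prime 0) V.Q_eq_tail (TailH.tail_Q_dvd V) (hmodChi A ω) hu1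
        hω (fun x => ?_) P hPp x fun a => ?_)
    · rw [hv0]
      exact factorization_eq_two hL0 hL h2
    · rw [hu2]
      exact congrArg Subtype.val (Module.End.mem_eigenspace_iff.mp x.2)
    · rw [hx, Submodule.mem_colon_singleton, Submodule.mem_bot, hsm]

/-- **`support1`** -/
theorem support1 (A : Act hG hSQ Φ) (hq : V.q 0 ∈ S)
    (hU : ∀ x ∈ V.tail.M' 1 S t I α, heckeU (V.q 0) (heckeU (V.q 0) x) =
      D (N * V.q 0) V.tail.Q V.tail.ψ (dq V.tail.Q (V.q 0) V.tail.ψ) x)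
    (hφT : ∀ (ℓ : ℕ) (hℓ : ℓ.Prime) (hℓN : ¬ ℓ ∣ N * V.Q ^ 2) (hℓS : ℓ ∉ (↑SQ : Set ℕ)),
      ∀ A : ValuationSubring Qbar, A.LiesOverPrime ℓ → ∀ σ : Γℚ, A.IsFrobeniusAt σ ℓ →
        φ (DQ.ρ.trace σ) = CuspForm.heckeLocal.π (N * V.Q ^ 2) (↑SQ : Set ℕ) 𝒪 θ
          (CuspForm.heckeAlgebra.T hℓ hℓN hℓS))
    (hv0 : (v 0 : ℕ) = V.q 0) (hvp : ∀ l, (v l : ℕ) ≠ p) :
    ∀ f : DQ.R, (∀ (K : Type) [Field K] [Algebra 𝒪 K] (y : DQ.R →ₐ[𝒪] K),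
      Function.Injective (algebraMap 𝒪 K) →
      (∀ P : ValuationSubring (AlgebraicClosure ℚ), P.LiesOverPrime (v 0 : ℕ) →
        ∀ F : GalQ, P.IsFrobeniusAt F (v 0 : ℕ) →
        (y (LinearMap.trace DQ.R DQ.ρ.V (DQ.ρ.ρ F)) = ((v 0 : ℕ) : K) + 1 ∨
          y (LinearMap.trace DQ.R DQ.ρ.V (DQ.ρ.ρ F)) = -(((v 0 : ℕ) : K) + 1))) → y f = 0) →
      ∀ z : V.M' 1 S t I α, dia' hG 1 t α (GroupAlg.gen _ 0) z = z →
        (Φ.comp φ) f z = 0 := by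
  intro f hf z hz
  let T := CuspForm.heckeLocal (N * V.Q ^ 2) (↑SQ : Set ℕ) 𝒪 θ
  have iT : IsReduced T := isReduced_T hG hSQ
  have iI : Algebra.IsIntegral 𝒪 T := Algebra.IsIntegral.of_finite 𝒪 T
  let X := Eig hG t α 1
  have iX : Module.Finite 𝒪 X := finite_Eig hG t α 1
  letI m1 : Module T X := Module.compHom X (hmodOne A hq).Φ.toRingHom
  letI m2 : Module DQ.R X := Module.compHom X ((hmodOne A hq).Φ.comp φ).toRingHom
  have hsm : ∀ (a : T) (x : X), a • x = (hmodOne A hq).Φ a x := fun _ _ => rfl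
  have ist : IsScalarTower 𝒪 T X := ⟨fun c a x => by
    rw [hsm, hsm, map_smul]; rfl⟩
  have itf : Module.IsTorsionFree 𝒪 X :=
    torsionFree_of (𝒪 := 𝒪) (X := X) (hmodOne A hq).ι (hmodOne A hq).inj
  have h := support1_of_data (𝒪 := 𝒪) (T := T) (X := X) DQ v hvp (φ : DQ.R →+* T)
    (fun _ _ => rfl) (fun P hP => ?_) f hf ⟨z, Module.End.mem_eigenspace_iff.mpr
      (by rw [one_smul]; exact hz)⟩
  · exact congrArg Subtype.val h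
  · obtain ⟨hPp, x, hx⟩ := isAssociatedPrime_iff.mp hP
    refine newformPoint_of DQ φ hG hSQ hφT (cond' := fun L => V.q 0 ∣ L ∧ ¬ V.q 0 ^ 2 ∣ L)
      (fun L hL0 hL h2 => by rw [hv0]; exact h2)
      (exists_newform_one (hypTail hG hq) (hmodOne A hq)
        (fun x => hU _ (mem_tail_of_eig hq x)) P hPp x fun a => ?_)
    rw [hx, Submodule.mem_colon_singleton, Submodule.mem_bot, hsm]

end support

end Fermat.Agent.DR.SC.SuppGlue
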