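import Fermat.Agent.DR.SC.Level
import Fermat.Agent.DR.SC.SuppGlue

/-!
# SC-10: `PairHecke` at every Taylor–Wiles level (helper82), second part
-/

set_option autoImplicit false
set_option linter.unusedSectionVars false
set_option linter.style.haveILetI false

noncomputable section

open Matrix Matrix.SpecialLinearGroup CongruenceSubgroup IsLocalRing CuspForm Polynomial
open scoped MatrixGroups OnePoint

namespace Fermat.Agent.DR.SC.Level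

open Fermat.Agent.LR Fermat.Agent.LR.PS Fermat.Agent.RT Fermat.Agent.RT.TwistH
  Fermat.Agent.RT.GroupAlg Fermat.Agent.RT.Dict Fermat.Agent.RT.Loc Fermat.Agent.RT.GR
  Fermat.Agent.RT.MSHecke Fermat.Agent.RT.HeckeLocalFields Fermat.Agent.RT.TWS
  Fermat.Agent.RT.TWS.TWP Fermat.Agent.UDef Fermat.Agent.CMP.S58Assembly
  Fermat.Agent.RT.TWBase Fermat.Agent.RT.Wiring Fermat.Agent.DR.SC.RankB
  Fermat.Agent.RT.Control Fermat.Agent.IH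

local notation "Qbar" => AlgebraicClosure ℚ
local notation "Γℚ" => (AlgebraicClosure ℚ ≃ₐ[ℚ] AlgebraicClosure ℚ)

variable {p : ℕ} [hp : Fact p.Prime] {𝒪 : Type} [CommRing 𝒪] [IsDomain 𝒪]
  [IsDiscreteValuationRing 𝒪] [IsAdicComplete (maximalIdeal 𝒪) 𝒪] [Finite (ResidueField 𝒪)]
  [CharZero 𝒪] {ρbar : ResidualGaloisRep (ResidueField 𝒪)}
  {ty : PType} {N : ℕ} {k : ℕ} {v : Fin (k + 1) → Nat.Primes} {S Smin : Finset ℕ}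
  {t : ℕ → 𝒪} {e m' : ℕ} (K : Ctx ty p 𝒪 ρbar N v S Smin t e m')

include K

/-- **`PairHecke` at every Taylor–Wiles level.** -/
theorem exists_pairHecke_level (I : Typ.Inputs) (h36 : S36Prop) [NeZero (N * (v 0 : ℕ))]
    (θ₁ : heckeAlgebra (N * (v 0 : ℕ)) 2 (↑S : Set ℕ) →+* ResidueField 𝒪)
    (hθ₁ : ∀ (ℓ : ℕ) (hℓ : ℓ.Prime) (hℓN : ¬ ℓ ∣ N * (v 0 : ℕ)) (hℓS : ℓ ∉ (↑S : Set ℕ)),
      residue 𝒪 (t ℓ) = θ₁ (heckeAlgebra.T hℓ hℓN hℓS))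
    {ϖ ω : 𝒪} (hϖ : Prime ϖ) (hω : IsPrimitiveRoot ω (p ^ e)) {n r : ℕ}
    (Q : TW.TWSet ρbar p S n r)
    (DQ : GaloisRep.DeformationRingData 𝒪 ρbar
      (dCond ty 𝒪 p (Smin ∪ (Finset.univ.image (fun l => (v l : ℕ)) ∪ Finset.univ.image Q.q)) Smin))
    (T : ∀ i, TWInertia.Data DQ.ρ (Q.P i) (Q.φ i) (p ^ Q.a i)) :
    Nonempty (PairHecke ty 𝒪 p ρbar Smin v ϖ
      (Module.finrank 𝒪 (Mb (N * (v 0 : ℕ)) 1 (↑S : Set ℕ) t)) Q DQ T) := by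
  classical
  obtain ⟨α, hα⟩ := exists_alpha Q.q Q.q_injective Q.α
  have hpS : p ∈ S := K.hSmin K.hpSmin
  have hG := good_lev K Q
  obtain ⟨SQ, hSQdef⟩ : ∃ SQ : Finset ℕ, SQ = S ∪ Finset.univ.image Q.q := ⟨_, rfl⟩
  have hSQ : IsSQ (lev K Q) (↑S : Set ℕ) (↑SQ : Set ℕ) := by rw [hSQdef]; exact isSQ_lev K Q
  have hSSQ : S ⊆ SQ := by rw [hSQdef]; exact Finset.subset_union_left
  have hpSQ : p ∈ SQ := hSSQ hpS
  have i1 : NeZero (N * (lev K Q).Q ^ 2) := ⟨lev_level_ne_zero K Q⟩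
  have i2 : Fact (HasIntegralStructure (N * (lev K Q).Q ^ 2) 2) :=
    ⟨IntStr.hasIntegralStructure _ 2⟩
  have hlevS : ∀ q : ℕ, q.Prime → q ∣ N * (lev K Q).Q ^ 2 → q ∈ SQ := by
    rw [hSQdef]; exact mem_SQ_of_dvd K Q
  -- the residual character
  obtain ⟨θ, hθ⟩ : ∃ θ : heckeAlgebra (N * (lev K Q).Q ^ 2) 2 (↑SQ : Set ℕ) →+* ResidueField 𝒪,
      ∀ (ℓ : ℕ) (hℓ : ℓ.Prime) (hℓN : ¬ ℓ ∣ N * (lev K Q).Q ^ 2) (hℓS : ℓ ∉ (↑SQ : Set ℕ)),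
        residue 𝒪 (t ℓ) = θ (heckeAlgebra.T hℓ hℓN hℓS) := by
    refine ⟨θ₁.comp (chg (dvd_lev K Q) (Finset.coe_subset.mpr hSSQ)
      (fun q hq h => Finset.mem_coe.mpr (hlevS q hq h))), fun ℓ hℓ hℓN hℓS => ?_⟩
    have h1 : ¬ ℓ ∣ N * (v 0 : ℕ) := fun h => hℓN (dvd_trans h (dvd_lev K Q))
    have h2 : ℓ ∉ (↑S : Set ℕ) := fun h =>
      hℓS (Finset.mem_coe.mpr (hSSQ (Finset.mem_coe.mp h)))
    rw [RingHom.comp_apply, chg_T _ _ _ hℓ hℓN hℓS h1 h2]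
    exact hθ₁ ℓ hℓ h1 h2
  have hρt' : ∀ ℓ : ℕ, ℓ.Prime → ℓ ∉ SQ → ∀ A : ValuationSubring Qbar, A.LiesOverPrime ℓ →
      ∀ σ : Γℚ, A.IsFrobeniusAt σ ℓ → LinearMap.charpoly (ρbar.ρ σ) =
        X ^ 2 - C (residue 𝒪 (t ℓ)) * X + C ((ℓ : ResidueField 𝒪)) :=
    fun ℓ hℓ hℓS => K.hρt ℓ hℓ fun h => hℓS (hSSQ h)
  have hfrob : ∀ (ℓ : ℕ) (hℓ : ℓ.Prime) (hℓN : ¬ ℓ ∣ N * (lev K Q).Q ^ 2)
      (hℓS : ℓ ∉ (↑SQ : Set ℕ)), ∀ A : ValuationSubring Qbar, A.LiesOverPrime ℓ →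
        ∀ σ : Γℚ, A.IsFrobeniusAt σ ℓ → LinearMap.charpoly (ρbar.ρ σ) =
          X ^ 2 - C (θ (heckeAlgebra.T hℓ hℓN hℓS)) * X + C ((ℓ : ResidueField 𝒪)) := by
    intro ℓ hℓ hℓN hℓS A hA σ hσ
    rw [← hθ ℓ hℓ hℓN hℓS]
    exact hρt' ℓ hℓ (fun h => hℓS (Finset.mem_coe.mpr h)) A hA σ hσ
  -- the type
  have hVS : ∀ i, (lev K Q).q i ∈
      Smin ∪ (Finset.univ.image (fun l => (v l : ℕ)) ∪ Finset.univ.image Q.q) := by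
    intro i
    refine Fin.cases ?_ (fun i => ?_) i
    · exact Finset.mem_union_right _ (Finset.mem_union_left _
        (Finset.mem_image.mpr ⟨0, Finset.mem_univ _, rfl⟩))
    · exact Finset.mem_union_right _ (Finset.mem_union_right _
        (Finset.mem_image.mpr ⟨i, Finset.mem_univ _, rfl⟩))
  have hVS' : ∀ i, (lev K Q).q i ∉ Smin := by
    intro i
    refine Fin.cases ?_ (fun i => ?_) i
    · exact K.hvmin 0
    · exact fun h => Q.not_mem i (K.hSmin h)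
  obtain ⟨d, -, -, hd, h𝒟, -, -, -⟩ := TypeV.exists_surjective_V (lev K Q) hpSQ K.hp𝒪 K.habs
    hlevS (θ := θ) hfrob I K.hp2 ty K.hN
    (Smin ∪ (Finset.univ.image (fun l => (v l : ℕ)) ∪ Finset.univ.image Q.q)) Smin
    (Finset.mem_union_left _ K.hpSmin) hVS hVS' (fun r hr hrN hrS => K.haux r hr hrN
      (fun h => hrS (Finset.mem_union_left _ h))
      (fun l h => hrS (Finset.mem_union_right _ (Finset.mem_union_left _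
        (Finset.mem_image.mpr ⟨l, Finset.mem_univ _, h.symm⟩))))) K.hpt DQ
  -- non-Eisenstein
  have hpk : (p : ResidueField 𝒪) = 0 := by
    rw [← map_natCast (residue 𝒪)]
    exact (residue_eq_zero_iff _).mpr K.hp𝒪
  obtain ⟨ℓ₀, hℓ₀, hℓ₀S, hℓ₀1, hℓ₀2⟩ := TWBase.exists_nonEis hpk ρbar K.habs SQ
    (fun ℓ => residue 𝒪 (t ℓ)) hρt' (N * (lev K Q).Q ^ 2) SQ
  have hE : ∃ ℓ₀ : ℕ, ℓ₀.Prime ∧ ℓ₀ ∉ (↑SQ : Set ℕ) ∧
      ((ℓ₀ : ℕ) : ZMod (N * (lev K Q).Q ^ 2)) = 1 ∧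
      residue 𝒪 (t ℓ₀) ≠ 1 + (ℓ₀ : ResidueField 𝒪) :=
    ⟨ℓ₀, hℓ₀, fun h => hℓ₀S (Finset.mem_coe.mp h), hℓ₀1, hℓ₀2⟩
  -- the action
  obtain ⟨φ, Φ, hφs, hφT, hΦT, hΨT, hΦD, hE1, hE2⟩ := Action.exists_action (ε := 1) (t := t)
    (α := α) I.s30 I.s35 h36 K.hp𝒪 hG hSQ hpSQ hθ hE DQ hfrob d hd h𝒟
  have hω1 : ω ^ p ^ (lev K Q).a 0 = 1 := hω.pow_eq_one
  refine exists_pairHecke (lev K Q) hG (isUnit_two K.hp2 K.hp𝒪) K.hp𝒪 (Or.inr K.h3)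
    (fun i => rfl) (Φ.comp φ) (fun f δ => hΦD (φ f) δ) (fun i z hz => ?_) (fun i z hz hgz => ?_)
    hω1 (dvd_sub_one_of_pow K.hp𝒪 hϖ hω1) (fun ι _ b hb => card_eq K I Q hα ι b hb) ?_ ?_
  · exact hE1 i.succ (Q.P i) (Q.liesOver i) (Q.φ i) (Q.isFrobenius i) (Q.α i) (Q.β i)
      (Q.α_ne_β i) (Q.charpoly i) _ (T i) z hz
  · exact hE2 i.succ (Q.P i) (Q.liesOver i) (Q.φ i) _ (T i) p hp.out.ne_zero z hz hgz
  · exact SuppGlue.support1 (hSQ := hSQ) DQ φ v ⟨hΦT, hΦD⟩ (Finset.mem_coe.mpr (K.hvS 0))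
      (fun x hx => heckeU_heckeU K I Q hα hx) hφT rfl K.hvp
  · refine SuppGlue.supportχ (hSQ := hSQ) DQ φ v ⟨hΦT, hΦD⟩ h36 K.hp2 hφT rfl K.hvp K.hN (fun l h => ?_) ?_
    · obtain ⟨i, hi⟩ := ((lev K Q).prime_dvd_Q_iff (v l.succ).2).mp h
      revert hi
      refine Fin.cases (fun hi => ?_) (fun i hi => ?_) i
      · exact Fin.succ_ne_zero l (K.hvinj (Subtype.ext hi))
      · exact Q.not_mem i (by
          have h1 := K.hvS l.succ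
          rw [hi] at h1
          exact h1)
    · intro h
      rw [h, IsPrimitiveRoot.iff_def] at hω
      have h1 := hω.2 1 (one_pow 1)
      exact (Nat.one_lt_pow K.he hp.out.one_lt).ne' (Nat.dvd_one.mp h1)

end Fermat.Agent.DR.SC.Level
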