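import Fermat.Agent.DR.SC.ExistsHCtx
import Fermat.Agent.DR.SC.LevelMain

/-!
# Scalar case: the Hecke side for `ρbar = E[p] ⊗ k`
-/

set_option autoImplicit false

open IsLocalRing

namespace Fermat.Agent.DR.SC

open Fermat.Agent.RT Fermat.Agent.RT.Wiring Fermat.Agent.CMP.S58Assembly

/-- **The Hecke side of the scalar case.** -/
theorem existsH (I : Typ.Inputs) (h36 : S36Prop) : ExistsH := by
  intro p hp hp2 W hΔ hss hirr 𝒪 _ _ _ _ _ _ _ _ _ hp𝒪 _ M s iM hM hres hmin hpeu hs hs12 hsM hsp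
    hsΔ has k v hvinj hvM hvp hvmin hv hv1 S hSp hpS hsS hMS hΔS χ₀ hχ₀ ϖ hϖ ω e m' hω he hqm hm'
  have K := ctx_of hΔ 𝒪 hp2 hss hirr hp𝒪 hM hmin hpeu hs hs12 hsM hsp hsΔ has hvinj hvM hvp hvmin
    hv hpS hsS hMS hΔS he hqm hm'
  have hne : M / (v 0 : ℕ) * s * (v 0 : ℕ) ≠ 0 := by
    rw [level_eq (v 0).2.pos (hvM 0)]
    exact mul_ne_zero iM.out hs.ne_zero
  have i1 : NeZero (M / (v 0 : ℕ) * s * (v 0 : ℕ)) := ⟨hne⟩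
  obtain ⟨⟨θ₁, hθ₁⟩, hd⟩ := exists_theta (W := W) 𝒪 hs (v 0).2 (hvM 0) hsS hMS χ₀ hχ₀
  exact ⟨_, hd, fun r n Q DQ T _ =>
    Level.exists_pairHecke_level K I h36 θ₁ hθ₁ hϖ hω Q DQ T⟩

end Fermat.Agent.DR.SC
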