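import Fermat.Agent.DR.SC.Selmer
import Fermat.Agent.DR.SC.AtPW

/-!
# Scalar case: the statement of the Hecke side for `ρbar = E[p] ⊗ k`
-/

set_option autoImplicit false

open Polynomial IsLocalRing

namespace Fermat.Agent.DR.SC

open Fermat.Agent.UDef Fermat.Agent.RT.Wiring Fermat.Agent.IH
open Fermat.Agent.RT.TW (TWSet)
open Fermat.Agent.RT.TWInertia (Data)

/-- **The Hecke side of the scalar case.** `M` squarefree and minimal, `v` enumerates the primes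
`≠ p` of `M` at which `E[p]` is unramified (all of them are `≡ 1 mod p`), `s` is the auxiliary
prime. -/
def ExistsH : Prop :=
  ∀ (p : ℕ) [Fact p.Prime] (_hp2 : p ≠ 2) (W : WeierstrassCurve ℤ) (hΔ : W.Δ ≠ 0)
    (_hss : W.IsSemistableModel) (_hirr : W.ModRepIsIrreducible p)
    (𝒪 : Type) [CommRing 𝒪] [IsDomain 𝒪] [IsDiscreteValuationRing 𝒪]
    [IsAdicComplete (maximalIdeal 𝒪) 𝒪] [Finite (ResidueField 𝒪)] [CharZero 𝒪]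
    [Algebra ℤ_[p] 𝒪] [Module.Finite ℤ_[p] 𝒪] [IsLocalHom (algebraMap ℤ_[p] 𝒪)]
    (_hp𝒪 : (p : 𝒪) ∈ maximalIdeal 𝒪)
    (_hζ : ∃ ζ : ResidueField 𝒪, IsPrimitiveRoot ζ (p ^ 2 - 1))
    (M s : ℕ) [NeZero M] (_hM : Squarefree M) (_hres : W.IsResiduallyModularOfLevel p M)
    (_hmin : ∀ M' : ℕ, M' ∣ M → W.IsResiduallyModularOfLevel p M' → M' = M)
    (_hpeu : p ∣ M → ¬ (W.map (Int.castRingHom ℚ)).IsPeuRamifieeAt p p)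
    (_hs : s.Prime) (_hs12 : s % 12 = 11) (_hsM : ¬ s ∣ M) (_hsp : s ≠ p)
    (_hsΔ : W.IsGoodPrimeFor s)
    (_has : ((W.apOfModel s : ℤ) : ZMod p) ^ 2 ≠ ((s : ZMod p) + 1) ^ 2)
    (k : ℕ) (v : Fin (k + 1) → Nat.Primes) (_hvinj : Function.Injective v)
    (_hvM : ∀ l, (v l : ℕ) ∣ M) (_hvp : ∀ l, (v l : ℕ) ≠ p) (_hvmin : ∀ l, (v l : ℕ) ∉ Smin W p)
    (_hv : ∀ r : ℕ, r.Prime → r ∣ M → r ≠ p → r ∉ Smin W p → ∃ l, (v l : ℕ) = r)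
    (_hv1 : ∀ l, ((v l : ℕ) : ZMod p) = 1)
    (S : Finset ℕ) (_hS : ∀ r ∈ S, r.Prime) (_hpS : p ∈ S) (_hsS : s ∈ S)
    (_hMS : ∀ r : ℕ, r.Prime → r ∣ M → r ∈ S) (_hΔS : ∀ r : ℕ, r.Prime → (r : ℤ) ∣ W.Δ → r ∈ S)
    (χ₀ : CuspForm.heckeAlgebra M 2 (↑S : Set ℕ) →+* 𝒪)
    (_hχ₀ : ∀ (ℓ : ℕ) (hℓ : ℓ.Prime) (hℓM : ¬ ℓ ∣ M) (hℓS : ℓ ∉ (↑S : Set ℕ)),
      residue 𝒪 (χ₀ (CuspForm.heckeAlgebra.T hℓ hℓM hℓS)) = (W.apOfModel ℓ : ResidueField 𝒪))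
    (ϖ : 𝒪) (_hϖ : Prime ϖ) (ω : 𝒪) (e m' : ℕ) (_hω : IsPrimitiveRoot ω (p ^ e)) (_he : 0 < e)
    (_hqm : (v 0 : ℕ) - 1 = p ^ e * m') (_hm' : ¬ p ∣ m'),
    ∃ d : ℕ, 0 < d ∧ ∀ (r n : ℕ) (Q : TWSet (rhoBar W hΔ p 𝒪) p S n r)
      (DQ : GaloisRep.DeformationRingData 𝒪 (rhoBar W hΔ p 𝒪)
        (dCond (tSC M p) 𝒪 p (Smin W p ∪ (Finset.univ.image (fun l => (v l : ℕ)) ∪
          Finset.univ.image Q.q)) (Smin W p)))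
      (T : ∀ i, Data DQ.ρ (Q.P i) (Q.φ i) (p ^ Q.a i)),
      (∀ i, residue DQ.R (T i).A = ResidueField.map (algebraMap 𝒪 DQ.R) (Q.α i) ∧
        residue DQ.R (T i).D = ResidueField.map (algebraMap 𝒪 DQ.R) (Q.β i)) →
      Nonempty (PairHecke (tSC M p) 𝒪 p (rhoBar W hΔ p 𝒪) (Smin W p) v ϖ d Q DQ T)

end Fermat.Agent.DR.SC
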