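import Fermat.Agent.RT.TWBase

/-!
# SC-4 (converse half): the localisation at the level of `χ₀` does not vanish (helper82)
-/

set_option autoImplicit false
set_option linter.unusedSectionVars false

noncomputable section

open IsLocalRing CongruenceSubgroup CuspForm

namespace Fermat.Agent.DR.SC.ResModC

open Fermat.Agent.LR Fermat.Agent.LR.PS Fermat.Agent.RT Fermat.Agent.RT.TWBase
  Fermat.Agent.RT.Control

variable {𝒪 : Type} [CommRing 𝒪] [IsDomain 𝒪] [IsDiscreteValuationRing 𝒪]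
  [IsAdicComplete (maximalIdeal 𝒪) 𝒪] [Finite (ResidueField 𝒪)] [CharZero 𝒪]
  {N : ℕ} [NeZero N] {S : Set ℕ}

/-- If `A x = c x` with `c ∈ 𝔪` then `x` is topologically nilpotent for `A`. -/
theorem mem_nilSub_of_smul {X : Type*} [AddCommGroup X] [Module 𝒪 X] {A : Module.End 𝒪 X} {c : 𝒪}
    (hc : c ∈ maximalIdeal 𝒪) {x : X} (h : A x = c • x) : x ∈ nilSub A := by
  intro d hd
  obtain ⟨ϖ, hϖ⟩ := IsDiscreteValuationRing.exists_irreducible 𝒪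
  obtain ⟨n, hn⟩ := IsDiscreteValuationRing.associated_pow_irreducible hd hϖ
  have h1 : ∀ m : ℕ, (A ^ m) x = c ^ m • x := by
    intro m
    induction m with
    | zero => rw [pow_zero, pow_zero, one_smul]; rfl
    | succ m ih => rw [pow_succ', Module.End.mul_apply, ih, map_smul, h, smul_smul, pow_succ]
  have h2 : ϖ ∣ c := by
    rw [hϖ.maximalIdeal_eq, Ideal.mem_span_singleton] at hc
    exact hc
  have h3 : d ∣ c ^ n := hn.dvd.trans (pow_dvd_pow_of_dvd h2 n)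
  obtain ⟨e, he⟩ := h3
  exact ⟨n, e • x, by rw [h1, he, mul_smul]⟩

/-- **The localisation does not vanish at the level of `χ₀`.** -/
theorem part_ne_bot (hNS : ∀ q : ℕ, q.Prime → q ∣ N → q ∈ S)
    (χ : heckeAlgebra N 2 S →+* 𝒪) {ε : ℤ} (hε : ε * ε = 1) {t α : ℕ → 𝒪}
    (ht : ∀ (ℓ : ℕ) (hℓ : ℓ.Prime) (hℓN : ¬ ℓ ∣ N) (hℓS : ℓ ∉ S),
      residue 𝒪 (t ℓ) = residue 𝒪 (χ (heckeAlgebra.T hℓ hℓN hℓS))) :
    part (sgnMS 𝒪 ε (Gamma0 N)) (opF {ℓ | ℓ.Prime ∧ ℓ ∉ S} t ∅ α) ≠ ⊥ := by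
  obtain ⟨x, hx1, hx2, hx3⟩ := exists_eigvec hNS χ hε
  have hx : x ∈ part (sgnMS 𝒪 ε (Gamma0 N)) (opF {ℓ | ℓ.Prime ∧ ℓ ∉ S} t ∅ α) := by
    rw [← fam_eq_opF]
    refine mem_Mb.mpr ⟨hx1, fun ℓ hℓ hℓS => ?_⟩
    have hℓN : ¬ ℓ ∣ N := fun h => hℓS (hNS ℓ hℓ h)
    refine mem_nilSub_of_smul (c := tOf χ ℓ - t ℓ) ?_ ?_
    · rw [← residue_eq_zero_iff, map_sub, tOf_eq χ hℓ hℓN hℓS, ← ht ℓ hℓ hℓN hℓS, sub_self]
    · rw [LinearMap.sub_apply, hx3 ℓ hℓ hℓS, LinearMap.smul_apply, LinearMap.id_apply, sub_smul]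
  intro h
  rw [h, Submodule.mem_bot] at hx
  exact hx2.ne_zero hx

/-- The rank of the localisation is positive. -/
theorem finrank_pos (hNS : ∀ q : ℕ, q.Prime → q ∣ N → q ∈ S)
    (χ : heckeAlgebra N 2 S →+* 𝒪) {ε : ℤ} (hε : ε * ε = 1) {t α : ℕ → 𝒪}
    (ht : ∀ (ℓ : ℕ) (hℓ : ℓ.Prime) (hℓN : ¬ ℓ ∣ N) (hℓS : ℓ ∉ S),
      residue 𝒪 (t ℓ) = residue 𝒪 (χ (heckeAlgebra.T hℓ hℓN hℓS))) :
    0 < Module.finrank 𝒪
      (part (sgnMS 𝒪 ε (Gamma0 N)) (opF {ℓ | ℓ.Prime ∧ ℓ ∉ S} t ∅ α)) := by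
  have h1 := part_ne_bot hNS χ hε (α := α) ht
  have h2 := finite_Mb (𝒪 := 𝒪) (N := N) (ε := ε) (S := S) (t := t)
  rw [Mb, fam_eq_opF (u := α)] at h2
  rw [pos_iff_ne_zero]
  intro h3
  exact h1 (Submodule.subsingleton_iff_eq_bot.mp (Module.finrank_zero_iff.mp h3))

/-- The same with `χ₀` at a level `M ∣ N`, and a smaller excluded set. -/
theorem finrank_pos_of_dvd {M : ℕ} [NeZero M] (hMN : M ∣ N) {S₀ : Set ℕ} (hS₀ : S₀ ⊆ S)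
    (hNS : ∀ q : ℕ, q.Prime → q ∣ N → q ∈ S)
    (χ : heckeAlgebra M 2 S₀ →+* 𝒪) {ε : ℤ} (hε : ε * ε = 1) {t α : ℕ → 𝒪}
    (ht : ∀ (ℓ : ℕ) (hℓ : ℓ.Prime) (hℓM : ¬ ℓ ∣ M) (hℓS : ℓ ∉ S₀),
      residue 𝒪 (t ℓ) = residue 𝒪 (χ (heckeAlgebra.T hℓ hℓM hℓS))) :
    0 < Module.finrank 𝒪
      (part (sgnMS 𝒪 ε (Gamma0 N)) (opF {ℓ | ℓ.Prime ∧ ℓ ∉ S} t ∅ α)) := by
  refine finrank_pos hNS (χ.comp (chg hMN hS₀ hNS)) hε fun ℓ hℓ hℓN hℓS => ?_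
  have hℓM : ¬ ℓ ∣ M := fun h => hℓN (dvd_trans h hMN)
  have hℓS₀ : ℓ ∉ S₀ := fun h => hℓS (hS₀ h)
  rw [RingHom.comp_apply, chg_T hMN hS₀ hNS hℓ hℓN hℓS hℓM hℓS₀]
  exact ht ℓ hℓ _ _

end Fermat.Agent.DR.SC.ResModC
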