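import Fermat.Agent.RT.NewVanish
import Fermat.Agent.DR.S38.AuxRemove
import Fermat.Agent.Oldform

/-!
# SC-4 : non zero localised modular symbols give residual modularity (helper86)

`isResiduallyModularOfLevel_of_part`: `W` an elliptic curve over `ℚ`, `t` lifts `a_ℓ(W) mod p` for
almost all `ℓ`, `ρbar` absolutely irreducible with `charpoly ρbar(Frob_ℓ) = X² - t_ℓ X + ℓ`. If the
modular symbols of level `Γ₀(N)` localised at `T_ℓ - t_ℓ` are non zero, then `W` is residually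
modular of level `N`.
-/

set_option autoImplicit false
set_option linter.unusedSectionVars false

noncomputable section

open Polynomial IsLocalRing CongruenceSubgroup ModularFormClass

namespace Fermat.Agent.DR.SC

open Fermat.Agent.LR Fermat.Agent.LR.PS Fermat.Agent.RT Fermat.Agent.RT.Point
  Fermat.Agent.RT.Eig Fermat.Agent.DR.S38

local notation "Qbar" => AlgebraicClosure ℚ
local notation "Γℚ" => (AlgebraicClosure ℚ ≃ₐ[ℚ] AlgebraicClosure ℚ)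

/-- A maximal ideal of `ℤ̄` over the maximal ideal of `𝒪' ⊆ ℂ`. -/
theorem exists_maximal_integralClosure {p : ℕ} (hp : p.Prime) {𝒪' : Type*} [CommRing 𝒪']
    [IsLocalRing 𝒪'] (hp𝒪 : (p : 𝒪') ∈ maximalIdeal 𝒪') (j : 𝒪' →+* ℂ)
    (hj : Function.Injective j) :
    ∃ 𝔪 : Ideal (integralClosure ℤ ℂ), 𝔪.IsMaximal ∧ (p : integralClosure ℤ ℂ) ∈ 𝔪 ∧
      ∀ (x : 𝒪') (a : integralClosure ℤ ℂ), x ∈ maximalIdeal 𝒪' → (a : ℂ) = j x → a ∈ 𝔪 := by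
  classical
  -- the subring of algebraic integers in the image of `𝒪'`
  let v : integralClosure ℤ ℂ →+* ℂ := (integralClosure ℤ ℂ).val.toRingHom
  let R : Subring (integralClosure ℤ ℂ) := j.range.comap v
  have hR : ∀ r : R, ∃ x : 𝒪', j x = ((r : integralClosure ℤ ℂ) : ℂ) := fun r => r.2
  let e : R →+* 𝒪' :=
    { toFun := fun r => (hR r).choose
      map_one' := hj (by rw [(hR 1).choose_spec, map_one]; rfl)
      map_mul' := fun a b => hj (by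
        rw [(hR (a * b)).choose_spec, map_mul, (hR a).choose_spec, (hR b).choose_spec]; rfl)
      map_zero' := hj (by rw [(hR 0).choose_spec, map_zero]; rfl)
      map_add' := fun a b => hj (by
        rw [(hR (a + b)).choose_spec, map_add, (hR a).choose_spec, (hR b).choose_spec]; rfl) }
  have he : ∀ r : R, j (e r) = ((r : integralClosure ℤ ℂ) : ℂ) := fun r => (hR r).choose_spec
  have hintR : Algebra.IsIntegral R (integralClosure ℤ ℂ) := ⟨fun x =>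
    (Algebra.IsIntegral.isIntegral (R := ℤ) x).tower_top⟩
  let P : Ideal R := (maximalIdeal 𝒪').comap e
  have hP : P.IsPrime := Ideal.IsPrime.comap e
  obtain ⟨𝔪, h𝔪p, h𝔪⟩ := Ideal.exists_ideal_over_prime_of_isIntegral_of_isDomain
    (S := integralClosure ℤ ℂ) P (by
      intro x hx
      have h0 : (algebraMap R (integralClosure ℤ ℂ)) x = 0 := hx
      have h1 : x = 0 := Subtype.ext h0
      rw [h1]; exact P.zero_mem)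
  have hmem : ∀ (x : 𝒪') (a : integralClosure ℤ ℂ), x ∈ maximalIdeal 𝒪' → (a : ℂ) = j x →
      a ∈ 𝔪 := by
    intro x a hx ha
    have haR : a ∈ R := ⟨x, ha.symm⟩
    have h1 : (⟨a, haR⟩ : R) ∈ P := by
      rw [Ideal.mem_comap]
      have : e ⟨a, haR⟩ = x := hj (by rw [he]; exact ha)
      rw [this]; exact hx
    rw [← h𝔪] at h1
    exact h1
  have hp𝔪 : (p : integralClosure ℤ ℂ) ∈ 𝔪 := hmem (p : 𝒪') _ hp𝒪 (by rw [map_natCast]; norm_cast)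
  refine ⟨𝔪, ?_, hp𝔪, hmem⟩
  -- maximality
  have hc : (𝔪.comap (algebraMap ℤ (integralClosure ℤ ℂ))).IsMaximal := by
    have h1 : (𝔪.comap (algebraMap ℤ (integralClosure ℤ ℂ))).IsPrime := Ideal.IsPrime.comap _
    have h2 : (p : ℤ) ∈ 𝔪.comap (algebraMap ℤ (integralClosure ℤ ℂ)) := by
      rw [Ideal.mem_comap, map_natCast]; exact hp𝔪
    exact h1.isMaximal fun h => by
      rw [h, Ideal.mem_bot] at h2
      exact hp.ne_zero (by exact_mod_cast h2)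
  exact Ideal.isMaximal_of_isIntegral_of_isMaximal_comap 𝔪 hc

variable {𝒪 : Type} [CommRing 𝒪] [IsDomain 𝒪] [IsDiscreteValuationRing 𝒪]
  [IsAdicComplete (maximalIdeal 𝒪) 𝒪] [Finite (ResidueField 𝒪)] [CharZero 𝒪]
variable {p : ℕ} [Fact p.Prime]

/-- **(SC-4, forward)**, general family of operators. -/
theorem isResiduallyModularOfLevel_of_part' {W : WeierstrassCurve ℤ} (hΔ : W.Δ ≠ 0)
    (hp𝒪 : (p : 𝒪) ∈ maximalIdeal 𝒪)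
    (ρbar : ResidualGaloisRep (ResidueField 𝒪)) (habs : ρbar.IsAbsolutelyIrreducible)
    (S : Finset ℕ) (t : ℕ → 𝒪)
    (hρt : ∀ ℓ : ℕ, ℓ.Prime → ℓ ∉ S → ∀ A : ValuationSubring Qbar, A.LiesOverPrime ℓ →
      ∀ σ : Γℚ, A.IsFrobeniusAt σ ℓ → LinearMap.charpoly (ρbar.ρ σ) =
        X ^ 2 - C (residue 𝒪 (t ℓ)) * X + C ((ℓ : ℕ) : ResidueField 𝒪))
    (htW : ∀ ℓ : ℕ, ℓ.Prime → ℓ ∉ S →
      residue 𝒪 (t ℓ) = ((W.apOfModel ℓ : ℤ) : ResidueField 𝒪))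
    {N : ℕ} (hN : N ≠ 0) {F : Set (Module.End 𝒪 (Pairs 𝒪))} (S' : Finset ℕ)
    (hF : ∀ ℓ : ℕ, ℓ.Prime → ℓ ∉ S' →
      heckeT ℓ - algebraMap 𝒪 (Module.End 𝒪 (Pairs 𝒪)) (t ℓ) ∈ F)
    (hne : part (MS (Gamma0 N) 𝒪) F ≠ ⊥) : W.IsResiduallyModularOfLevel p N := by
  classical
  have hN0 : NeZero N := ⟨hN⟩
  set S₁ : Finset ℕ := S ∪ S' ∪ insert p N.primeFactors with hS₁
  have hbad : ∀ r : ℕ, r.Prime → r ∣ N → r ∈ S₁ := fun r hr hrM =>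
    Finset.mem_union_right _ (Finset.mem_insert_of_mem (Nat.mem_primeFactors.2 ⟨hr, hrM, hN⟩))
  have hbad' : ∀ r : ℕ, r.Prime → r ∣ N → r ∈ (↑S₁ : Set ℕ) := fun r hr hrM =>
    Finset.mem_coe.2 (hbad r hr hrM)
  have hSS : ∀ ℓ, ℓ ∉ S₁ → ℓ ∉ S ∧ ℓ ∉ S' := fun ℓ h => by
    rw [hS₁, Finset.mem_union, Finset.mem_union, not_or, not_or] at h
    exact h.1
  obtain ⟨x₀, hx₀, hx₀0⟩ := Submodule.exists_mem_ne_zero_of_ne_bot hne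
  set F₁ : Set (Module.End 𝒪 (Pairs 𝒪)) := {T | ∃ ℓ : ℕ, ℓ.Prime ∧ ℓ ∉ S₁ ∧
    T = heckeT ℓ - algebraMap 𝒪 (Module.End 𝒪 (Pairs 𝒪)) (t ℓ)} with hF₁
  set X : Submodule 𝒪 (Pairs 𝒪) := part (MS (Gamma0 N) 𝒪) F₁ with hXdef
  have hx₀X : x₀ ∈ X := part_mono le_rfl (by
    rintro T ⟨ℓ, hℓ, hℓS, rfl⟩
    exact hF ℓ hℓ (hSS ℓ hℓS).2) hx₀
  have hX : X ≤ MS (Gamma0 N) 𝒪 := part_le
  have hfinMS : Module.Finite 𝒪 (MS (Gamma0 N) 𝒪) := finite_MS 𝒪 (Gamma0 N)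
  have hfin : Module.Finite 𝒪 X := Module.Finite.of_injective (Submodule.inclusion hX)
    (Submodule.inclusion_injective hX)
  have hℓ1 : ∀ ℓ : ℕ, ℓ.Prime → ℓ ∉ S₁ → ¬ ℓ ∣ N := fun ℓ hℓ hℓS h => hℓS (hbad ℓ hℓ h)
  have hcomm : ∀ ℓ : ℕ, ℓ.Prime → ℓ ∉ S₁ → ∀ ℓ' : ℕ, ℓ'.Prime → ℓ' ∉ S₁ →
      ∀ x ∈ MS (Gamma0 N) 𝒪, heckeT ℓ (heckeT ℓ' x) = heckeT ℓ' (heckeT ℓ x) := by
    intro ℓ hℓ _ ℓ' hℓ' _ x hx
    by_cases h : ℓ = ℓ'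
    · rw [h]
    · exact heckeT_comm hℓ.ne_zero hℓ'.ne_zero ((Nat.coprime_primes hℓ hℓ').mpr h)
        (TInv_of_mem hx)
  have hTst : ∀ ℓ : ℕ, ℓ.Prime → ℓ ∉ S₁ → ∀ x ∈ MS (Gamma0 N) 𝒪,
      heckeT ℓ x ∈ MS (Gamma0 N) 𝒪 := fun ℓ hℓ hℓS x hx =>
    heckeT_mem_MS hℓ (hℓ1 ℓ hℓ hℓS) hx
  obtain ⟨j, hj⟩ := exists_embedding_complex 𝒪
  obtain ⟨𝒪', i1, i2, i3, i4, i5, i6, i7, i8, i9, hinj, c, j', hj', hjj, hc, y, hy0, hy, hyW⟩ :=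
    exists_point (M := N) S₁ t X hX (fun c z hc h => Act.part_saturated 𝒪
        (fun c z hc h => Control.MS_sat c z hc h) F₁ c z hc h)
      (fun ℓ hℓ hℓS x hx => by
        refine Control.part_stable (heckeT ℓ) (hTst ℓ hℓ hℓS) ?_ ?_ hx
        · rintro T ⟨ℓ', hℓ', hℓ'S, rfl⟩ x hx
          exact Submodule.sub_mem _ (hTst ℓ' hℓ' hℓ'S x hx) (Submodule.smul_mem _ _ hx)
        · rintro T ⟨ℓ', hℓ', hℓ'S, rfl⟩ x hx
          rw [LinearMap.sub_apply, LinearMap.sub_apply, map_sub, Module.algebraMap_end_apply,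
            Module.algebraMap_end_apply, map_smul, hcomm ℓ hℓ hℓS ℓ' hℓ' hℓ'S x hx])
      (fun ℓ hℓ hℓS x hx => (mem_part.mp hx).2 _ ⟨ℓ, hℓ, hℓS, rfl⟩) x₀ hx₀X hx₀0 j hj
  have hneis : NonEis N (↑S₁ : Set ℕ) (fun ℓ => j' (c ℓ)) :=
    nonEis_of_absIrr hp𝒪 ρbar habs S t hρt j' hj' hc N (Nat.pos_of_ne_zero hN)
  obtain ⟨Cg, hCg0, g, hCM, hg, hgc⟩ := exists_newform_of_mem hbad' hneis hy hy0
  have hp𝒪' : (p : 𝒪') ∈ maximalIdeal 𝒪' := by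
    have h1 := map_nonunit (algebraMap 𝒪 𝒪') (p : 𝒪) hp𝒪
    rwa [map_natCast] at h1
  obtain ⟨𝔪, h𝔪, hp𝔪, hmem⟩ := exists_maximal_integralClosure (Fact.out : p.Prime) hp𝒪' j' hj'
  refine Oldform.isResiduallyModularOfLevel_of_dvd hN hCM
    (of_almost_all hΔ (NeZero.ne Cg) hg.1 h𝔪 hp𝔪 S₁ fun ℓ hℓ hℓS => ?_)
  have hint : IsIntegral ℤ (qCoeff ⇑g ℓ) := EigenCharacter.isIntegral_qCoeff hg.1 hℓ
  refine ⟨⟨qCoeff ⇑g ℓ, hint⟩, rfl, hmem (c ℓ - ((W.apOfModel ℓ : ℤ) : 𝒪')) _ ?_ ?_⟩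
  · rw [← residue_eq_zero_iff, map_sub, hc ℓ hℓ hℓS, htW ℓ hℓ (hSS ℓ hℓS).1, map_intCast,
      map_intCast, sub_self]
  · have h1 := hgc ℓ hℓ fun h => hℓS (Finset.mem_coe.1 h)
    rw [map_sub, map_intCast, ← h1]
    simp

/-- **(SC-4, forward).** -/
theorem isResiduallyModularOfLevel_of_part {W : WeierstrassCurve ℤ} (hΔ : W.Δ ≠ 0)
    (hp𝒪 : (p : 𝒪) ∈ maximalIdeal 𝒪)
    (ρbar : ResidualGaloisRep (ResidueField 𝒪)) (habs : ρbar.IsAbsolutelyIrreducible)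
    (S : Finset ℕ) (t : ℕ → 𝒪)
    (hρt : ∀ ℓ : ℕ, ℓ.Prime → ℓ ∉ S → ∀ A : ValuationSubring Qbar, A.LiesOverPrime ℓ →
      ∀ σ : Γℚ, A.IsFrobeniusAt σ ℓ → LinearMap.charpoly (ρbar.ρ σ) =
        X ^ 2 - C (residue 𝒪 (t ℓ)) * X + C ((ℓ : ℕ) : ResidueField 𝒪))
    (htW : ∀ ℓ : ℕ, ℓ.Prime → ℓ ∉ S →
      residue 𝒪 (t ℓ) = ((W.apOfModel ℓ : ℤ) : ResidueField 𝒪))
    {N : ℕ} (hN : N ≠ 0) {ε : ℤ} {P : Set ℕ} (S' : Finset ℕ)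
    (hP : ∀ ℓ : ℕ, ℓ.Prime → ℓ ∉ S' → ℓ ∈ P) (Q : Set ℕ) (α : ℕ → 𝒪)
    (hne : part (sgnMS 𝒪 ε (Gamma0 N)) (Control.opF P t Q α) ≠ ⊥) :
    W.IsResiduallyModularOfLevel p N := by
  refine isResiduallyModularOfLevel_of_part' hΔ hp𝒪 ρbar habs S t hρt htW hN S'
    (F := Control.opF P t Q α) (fun ℓ hℓ hℓS => Or.inl ⟨ℓ, hP ℓ hℓ hℓS, rfl⟩) fun h => hne ?_
  refine (Submodule.eq_bot_iff _).mpr fun x hx => ?_
  have h1 : x ∈ part (MS (Gamma0 N) 𝒪) (Control.opF P t Q α) :=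
    part_mono (fun x hx => (mem_sgnMS.mp hx).1) le_rfl hx
  rw [h] at h1
  exact (Submodule.mem_bot 𝒪).mp h1

end Fermat.Agent.DR.SC
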