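import Fermat.Agent.DR.SC.Level
import Fermat.Agent.DR.SC.ExistsHDef
import Fermat.Agent.DR.SC.ResModF
import Fermat.Agent.DR.SC.ResModC
import Fermat.Agent.DR.S38.AuxRemove

/-!
# Scalar case: the standing data of the Hecke side for `ρbar = E[p] ⊗ k`

* `tW` : the eigenvalues of `W`;
* `ctx_of` : `Level.Ctx` for `N = (M / v 0) * s`;
* `exists_theta` : the residual character at the level `N * v 0`;
* `finrank_pos_base` : the rank at the level `N * v 0` is positive.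
-/

set_option autoImplicit false
set_option linter.unusedSectionVars false

open Polynomial IsLocalRing CongruenceSubgroup CuspForm

namespace Fermat.Agent.DR.SC

open Fermat.Agent.UDef Fermat.Agent.RT.Wiring Fermat.Agent.RT.Typ Fermat.Agent.RT.TWBase
  Fermat.Agent.RT

local notation "Γℚ" => (AlgebraicClosure ℚ ≃ₐ[ℚ] AlgebraicClosure ℚ)

/-- The eigenvalues of `W`. -/
noncomputable def tW (W : WeierstrassCurve ℤ) (𝒪 : Type) [CommRing 𝒪] : ℕ → 𝒪 :=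
  fun ℓ => ((W.apOfModel ℓ : ℤ) : 𝒪)

section

variable {W : WeierstrassCurve ℤ} (hΔ : W.Δ ≠ 0) {p : ℕ} [hp : Fact p.Prime] (𝒪 : Type)
  [CommRing 𝒪] [IsDomain 𝒪] [IsDiscreteValuationRing 𝒪] [IsAdicComplete (maximalIdeal 𝒪) 𝒪]
  [Finite (ResidueField 𝒪)] [CharZero 𝒪] [Algebra ℤ_[p] 𝒪] [IsLocalHom (algebraMap ℤ_[p] 𝒪)]

theorem residue_tW (ℓ : ℕ) : residue 𝒪 (tW W 𝒪 ℓ) = ((W.apOfModel ℓ : ℤ) : ResidueField 𝒪) := by
  rw [tW, map_intCast]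

/-- `hρt`. -/
theorem charpoly_tW {S : Finset ℕ} (hpS : p ∈ S)
    (hΔS : ∀ r : ℕ, r.Prime → (r : ℤ) ∣ W.Δ → r ∈ S) :
    ∀ ℓ : ℕ, ℓ.Prime → ℓ ∉ S → ∀ A : ValuationSubring (AlgebraicClosure ℚ), A.LiesOverPrime ℓ →
      ∀ σ : Γℚ, A.IsFrobeniusAt σ ℓ → LinearMap.charpoly ((rhoBar W hΔ p 𝒪).ρ σ) =
        X ^ 2 - C (residue 𝒪 (tW W 𝒪 ℓ)) * X + C ((ℓ : ResidueField 𝒪)) := by
  intro ℓ hℓ hℓS A hA σ hσ
  rw [residue_tW]
  exact rhoBar_charpoly_frob hΔ 𝒪 hℓ (fun h => hℓS (h ▸ hpS)) (fun h => hℓS (hΔS ℓ hℓ h)) A hA hσ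

/-- **The standing data** of the scalar case. -/
theorem ctx_of (hp2 : p ≠ 2) (hss : W.IsSemistableModel) (hirr : W.ModRepIsIrreducible p)
    (hp𝒪 : (p : 𝒪) ∈ maximalIdeal 𝒪) {M s : ℕ} (hM : Squarefree M)
    (hmin : ∀ M' : ℕ, M' ∣ M → W.IsResiduallyModularOfLevel p M' → M' = M)
    (hpeu : p ∣ M → ¬ (W.map (Int.castRingHom ℚ)).IsPeuRamifieeAt p p)
    (hs : s.Prime) (hs12 : s % 12 = 11) (hsM : ¬ s ∣ M) (hsp : s ≠ p)
    (hsΔ : W.IsGoodPrimeFor s)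
    (has : ((W.apOfModel s : ℤ) : ZMod p) ^ 2 ≠ ((s : ZMod p) + 1) ^ 2)
    {k : ℕ} {v : Fin (k + 1) → Nat.Primes} (hvinj : Function.Injective v)
    (hvM : ∀ l, (v l : ℕ) ∣ M) (hvp : ∀ l, (v l : ℕ) ≠ p) (hvmin : ∀ l, (v l : ℕ) ∉ Smin W p)
    (hv : ∀ r : ℕ, r.Prime → r ∣ M → r ≠ p → r ∉ Smin W p → ∃ l, (v l : ℕ) = r)
    {S : Finset ℕ} (hpS : p ∈ S) (hsS : s ∈ S)
    (hMS : ∀ r : ℕ, r.Prime → r ∣ M → r ∈ S) (hΔS : ∀ r : ℕ, r.Prime → (r : ℤ) ∣ W.Δ → r ∈ S)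
    {e m' : ℕ} (he : 0 < e) (hqm : (v 0 : ℕ) - 1 = p ^ e * m') (hm' : ¬ p ∣ m') :
    Level.Ctx (tSC M p) p 𝒪 (rhoBar W hΔ p 𝒪) (M / (v 0 : ℕ) * s) v S (Smin W p) (tW W 𝒪)
      e m' := by
  have hq := (v 0).2
  obtain ⟨c, hc⟩ := hvM 0
  have hMq : M / (v 0 : ℕ) = c := by rw [hc, Nat.mul_div_cancel_left _ hq.pos]
  rw [hMq]
  have hc0 : c ≠ 0 := fun h => hM.ne_zero (by rw [hc, h, mul_zero])
  have hcM : c ∣ M := Dvd.intro_left _ hc.symm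
  have hcsq : Squarefree c := hM.squarefree_of_dvd hcM
  have hqc : ¬ (v 0 : ℕ) ∣ c := by
    rintro ⟨d, rfl⟩
    exact hq.not_isUnit (hM _ ⟨d, by rw [hc]; ring⟩)
  have hqs : (v 0 : ℕ) ≠ s := fun h => hsM (h ▸ hvM 0)
  have hsc : ¬ s ∣ c := fun h => hsM (h.trans hcM)
  have hSm : Smin W p ⊆ S := by
    intro r hr
    rcases mem_Smin.mp hr with rfl | h
    · exact hpS
    · have h1 := (mem_Sram hΔ).mp h
      exact hΔS r h1.1 h1.2.1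
  have habs := rhoBar_isAbsolutelyIrreducible hΔ 𝒪 hp2 hss hirr
  have hN0 : c * s ≠ 0 := mul_ne_zero hc0 hs.ne_zero
  refine
    { hp2 := hp2
      hp𝒪 := hp𝒪
      habs := habs
      hN := ?_
      hvN := ?_
      hvinj := hvinj
      hvp := hvp
      hpSmin := p_mem_Smin
      hSmin := hSm
      hvS := fun l => hMS _ (v l).2 (hvM l)
      hvmin := hvmin
      hNS := ?_
      hρt := charpoly_tW hΔ 𝒪 hpS hΔS
      hqm := hqm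
      hm' := hm'
      he := he.ne'
      h3 := ⟨s, hs, by omega, dvd_mul_left s c⟩
      haux := ?_
      hpt := ?_
      hbase := ?_ }
  · rw [Nat.squarefree_mul_iff]
    exact ⟨((Nat.Prime.coprime_iff_not_dvd hs).mpr hsc).symm, hcsq, hs.prime.squarefree⟩
  · intro h
    rcases hq.dvd_mul.mp h with h | h
    · exact hqc h
    · exact hqs ((Nat.prime_dvd_prime_iff_eq hq hs).mp h)
  · intro ℓ hℓ h
    rcases hℓ.dvd_mul.mp h with h | h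
    · exact hMS ℓ hℓ (h.trans hcM)
    · rw [(Nat.prime_dvd_prime_iff_eq hℓ hs).mp h]; exact hsS
  · intro r hr hrN hrS hrv
    rcases hr.dvd_mul.mp hrN with h | h
    · have hrp : r ≠ p := fun h' => hrS (h' ▸ p_mem_Smin)
      obtain ⟨l, hl⟩ := hv r hr (h.trans hcM) hrp hrS
      exact absurd hl.symm (hrv l)
    · rw [(Nat.prime_dvd_prime_iff_eq hr hs).mp h]
      exact noNewAt_aux hΔ 𝒪 hs hsp hsΔ has
  · refine atP_tSC hΔ hp2 hss 𝒪 hM hpeu hN0 ?_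
    rw [hc, Nat.factorization_mul hc0 hs.ne_zero, Nat.factorization_mul hq.ne_zero hc0,
      Finsupp.add_apply, Finsupp.add_apply, hs.factorization, hq.factorization,
      Finsupp.single_eq_of_ne (Ne.symm hsp), Finsupp.single_eq_of_ne (Ne.symm (hvp 0)), add_zero,
      zero_add]
  · by_contra hne
    rw [← Level.part_opF_eq _ _ _ _ (tW W 𝒪)] at hne
    have h1 := isResiduallyModularOfLevel_of_part hΔ hp𝒪 (rhoBar W hΔ p 𝒪) habs S (tW W 𝒪)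
      (charpoly_tW hΔ 𝒪 hpS hΔS) (fun ℓ _ _ => residue_tW 𝒪 ℓ) hN0
      (P := {ℓ | ℓ.Prime ∧ ℓ ∉ (↑S : Set ℕ)}) S
      (fun ℓ hℓ hℓS => And.intro hℓ fun h => hℓS (Finset.mem_coe.mp h)) ∅ (tW W 𝒪) hne
    have h2 := S38.remove_aux hΔ hc0 hs hsc hsp hsΔ has h1
    have h3 := hmin c hcM h2
    have h4 : 1 * c = (v 0 : ℕ) * c := by rw [one_mul, ← hc]; exact h3
    exact hq.one_lt.ne (Nat.eq_of_mul_eq_mul_right (Nat.pos_of_ne_zero hc0) h4)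

/-- The level `N * v 0 = M * s`. -/
theorem level_eq {M s q : ℕ} (hq : 0 < q) (h : q ∣ M) : M / q * s * q = M * s := by
  obtain ⟨c, rfl⟩ := h
  rw [Nat.mul_div_cancel_left _ hq]
  ring

/-- **The residual character** at the level `N * v 0`. -/
theorem exists_theta {M s q : ℕ} [NeZero M] (hs : s.Prime) (hq : q.Prime) (hqM : q ∣ M)
    {S : Finset ℕ} (hsS : s ∈ S) (hMS : ∀ r : ℕ, r.Prime → r ∣ M → r ∈ S)
    (χ₀ : CuspForm.heckeAlgebra M 2 (↑S : Set ℕ) →+* 𝒪)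
    (hχ₀ : ∀ (ℓ : ℕ) (hℓ : ℓ.Prime) (hℓM : ¬ ℓ ∣ M) (hℓS : ℓ ∉ (↑S : Set ℕ)),
      residue 𝒪 (χ₀ (CuspForm.heckeAlgebra.T hℓ hℓM hℓS)) = (W.apOfModel ℓ : ResidueField 𝒪))
    [NeZero (M / q * s * q)] :
    (∃ θ₁ : CuspForm.heckeAlgebra (M / q * s * q) 2 (↑S : Set ℕ) →+* ResidueField 𝒪,
      ∀ (ℓ : ℕ) (hℓ : ℓ.Prime) (hℓN : ¬ ℓ ∣ M / q * s * q) (hℓS : ℓ ∉ (↑S : Set ℕ)),
        residue 𝒪 (tW W 𝒪 ℓ) = θ₁ (CuspForm.heckeAlgebra.T hℓ hℓN hℓS)) ∧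
    0 < Module.finrank 𝒪 (Mb (M / q * s * q) 1 (↑S : Set ℕ) (tW W 𝒪)) := by
  have hlev := level_eq (s := s) hq.pos hqM
  have hMN : M ∣ M / q * s * q := by rw [hlev]; exact dvd_mul_right M s
  have hNS : ∀ r : ℕ, r.Prime → r ∣ M / q * s * q → r ∈ (↑S : Set ℕ) := by
    intro r hr h
    rw [hlev] at h
    rcases hr.dvd_mul.mp h with h | h
    · exact Finset.mem_coe.mpr (hMS r hr h)
    · rw [(Nat.prime_dvd_prime_iff_eq hr hs).mp h]; exact Finset.mem_coe.mpr hsS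
  have hcomp : ∀ (ℓ : ℕ) (hℓ : ℓ.Prime) (hℓM : ¬ ℓ ∣ M) (hℓS : ℓ ∉ (↑S : Set ℕ)),
      residue 𝒪 (tW W 𝒪 ℓ) = residue 𝒪 (χ₀ (CuspForm.heckeAlgebra.T hℓ hℓM hℓS)) :=
    fun ℓ hℓ hℓM hℓS => by rw [residue_tW, hχ₀ ℓ hℓ hℓM hℓS]
  refine ⟨⟨(residue 𝒪).comp (χ₀.comp (chg hMN (subset_refl _) hNS)), fun ℓ hℓ hℓN hℓS => ?_⟩, ?_⟩
  · have hℓM : ¬ ℓ ∣ M := fun h => hℓN (h.trans hMN)
    rw [RingHom.comp_apply, RingHom.comp_apply,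
      chg_T hMN (subset_refl _) hNS hℓ hℓN hℓS hℓM hℓS]
    exact hcomp ℓ hℓ hℓM hℓS
  · rw [← Level.part_opF_eq _ _ _ _ (tW W 𝒪)]
    exact ResModC.finrank_pos_of_dvd hMN (subset_refl _) hNS χ₀ (by norm_num) hcomp

end

end Fermat.Agent.DR.SC
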