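import Fermat.Agent.RT.Wiring.HTWW
import Fermat.Agent.RT.Wiring.HDatum
import Fermat.Agent.RT.DatumGal
import Fermat.Agent.IntStr.Main
import Fermat.Agent.LOC.TauFlat
import Fermat.Agent.TWP.FlatLoc.FrobDec
import Fermat.Agent.TWP.GW.Local
import Fermat.Agent.TWP.Primes
import Fermat.Agent.S30
import Fermat.Agent.S31
import Fermat.Agent.S32

/-!
# Scalar case: the residual representation in the base deformation problem

* `hbar_strict`, `hbar_flat` : `ρbar = E[p] ⊗ k` satisfies `dCond t 𝒪 p Smin Smin`;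
* `flat_of_dvd_padicValInt` : `ρbar` is flat at `p` if `p ∣ v_p(Δ)`;
* `flat_of_level` : `ρbar` is flat at `p` if `E[p]` is modular of a level prime to `p`;
* `scalar_of_frobenius` : `ρbar` is scalar on the decomposition groups at `q` if it is unramified
  at `q` with scalar Frobenius.
-/

set_option autoImplicit false

open Polynomial IsLocalRing Pointwise
open WeierstrassCurve.Affine.Point
open scoped WeierstrassCurve.Affine

namespace Fermat.Agent.DR.SC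

open Fermat.Agent.DefCond Fermat.Agent.UDef Fermat.Agent.RT.Wiring

local notation "Γℚ" => (AlgebraicClosure ℚ ≃ₐ[ℚ] AlgebraicClosure ℚ)

section Res

variable {k : Type} [Field k]

theorem ofResidual_isUnramifiedAt {ρ : ResidualGaloisRep k} {q : ℕ} (h : ρ.IsUnramifiedAt q) :
    (GaloisRepAdic.ofResidualGaloisRep ρ).IsUnramifiedAt q := h

/-- A matrix representation over a field, trivial on inertia and scalar at Frobenius, is scalar on
the decomposition group. -/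
theorem scalar_of_frobenius_model {ρ : ResidualGaloisRep k} {M : GalQ →* Matrix (Fin 2) (Fin 2) k}
    (hM : IsModelR ρ M) {q : ℕ} (hq : q.Prime) {P : ValuationSubring (AlgebraicClosure ℚ)}
    (hP : P.LiesOverPrime q) {φ : Γℚ} (hφ : P.IsFrobeniusAt φ q)
    (hI : ∀ σ ∈ P.inertiaSubgroupIn ℚ, M σ = 1) (hs : ∃ c : k, M φ = c • 1) :
    ∀ σ ∈ P.decompositionSubgroup ℚ, ∃ c : k, M σ = c • 1 := by
  intro d hd
  obtain ⟨L, hL, hLM⟩ : ∃ L : IntermediateField ℚ (AlgebraicClosure ℚ), FiniteDimensional ℚ L ∧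
      ∀ σ : GalQ, (∀ x ∈ L, σ x = x) → M σ = 1 := by
    obtain ⟨L, hL, h⟩ := TWP.locConst_of_isModelR hM
    refine ⟨L, hL, fun σ hσ => ?_⟩
    have h1 := h 1 σ hσ
    simpa using h1
  obtain ⟨n, σ, hσ, hdσ⟩ := TWFlat.exists_frob_mul_inertia hq hP hφ hd L
  obtain ⟨c, hc⟩ := hs
  refine ⟨c ^ n, ?_⟩
  have h3 : M ((φ ^ n * σ)⁻¹ * d) = 1 := by
    apply hLM
    intro x hx
    have h7 := hdσ x hx
    change (φ ^ n * σ)⁻¹ (d x) = x
    rw [h7]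
    exact (φ ^ n * σ).symm_apply_apply x
  have h4 : d = (φ ^ n * σ) * ((φ ^ n * σ)⁻¹ * d) := by group
  rw [h4, map_mul, h3, mul_one, map_mul, map_pow, hI σ hσ, mul_one, hc, _root_.smul_pow, one_pow]

end Res

section

variable {W : WeierstrassCurve ℤ} (hΔ : W.Δ ≠ 0) {p : ℕ} [hp : Fact p.Prime] (𝒪 : Type)
  [CommRing 𝒪] [IsLocalRing 𝒪] [Algebra ℤ_[p] 𝒪] [IsLocalHom (algebraMap ℤ_[p] 𝒪)]

/-- The scalar condition on `E[p]` transported to a model of `ρbar`. -/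
theorem scalar_of_frobenius (hcard : Nat.card (Submodule.torsionBy ℤ
      ((W.map (Int.castRingHom ℚ))⁄(AlgebraicClosure ℚ)).Point p) = p ^ 2)
    (hker : GaloisFactorsThroughFiniteLevel
      (galoisRepModuleEnd (K := AlgebraicClosure ℚ) ℚ (W.map (Int.castRingHom ℚ)) p))
    {M : GalQ →* Matrix (Fin 2) (Fin 2) (ResidueField 𝒪)}
    (hM : IsModelR (rhoBar W hΔ p 𝒪) M) {q : ℕ} (hq : q.Prime)
    (hunr : ((W.map (Int.castRingHom ℚ)).residualGaloisRepOf p hcard hker).IsUnramifiedAt q)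
    (hs : ∀ B : ValuationSubring (AlgebraicClosure ℚ), B.LiesOverPrime q →
      ∀ φ : Γℚ, B.IsFrobeniusAt φ q → ∃ c : ZMod p,
        ((W.map (Int.castRingHom ℚ)).residualGaloisRepOf p hcard hker).ρ φ =
          c • (1 : Module.End (ZMod p)
            ((W.map (Int.castRingHom ℚ)).residualGaloisRepOf p hcard hker).V))
    {P : ValuationSubring (AlgebraicClosure ℚ)} (hP : P.LiesOverPrime q) :
    ∀ σ ∈ P.decompositionSubgroup ℚ, ∃ c : ResidueField 𝒪, M σ = c • 1 := by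
  set ρ0 := (W.map (Int.castRingHom ℚ)).residualGaloisRepOf p hcard hker with hρ0
  obtain ⟨Mb, hMb⟩ := exists_modelR ρ0
  obtain ⟨C0, hC0, hconj⟩ := hM.exists_conj (hMb.baseChangeAlong (zmodToResidue p 𝒪))
    (rhoBar_isEquiv hΔ 𝒪 hcard hker (zmodToResidue p 𝒪))
  have key : ∀ σ : Γℚ, (∃ c : ZMod p, ρ0.ρ σ = c • (1 : Module.End (ZMod p) ρ0.V)) →
      ∀ c : ZMod p, ρ0.ρ σ = c • (1 : Module.End (ZMod p) ρ0.V) →
      M σ = zmodToResidue p 𝒪 c • 1 := by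
    intro σ _ c hc
    have h1 : Mb σ = c • 1 := by
      obtain ⟨b, hb⟩ := hMb
      rw [← hb, hc, map_smul]
      congr 1
      exact LinearMap.toMatrix_one b
    have h2 : (mapRep (zmodToResidue p 𝒪) Mb) σ = zmodToResidue p 𝒪 c • 1 := by
      rw [mapRep_apply, h1]
      ext i j
      rw [Matrix.map_apply, Matrix.smul_apply, Matrix.smul_apply, smul_eq_mul, smul_eq_mul,
        map_mul, Matrix.one_apply, Matrix.one_apply]
      split_ifs <;> simp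
    have h3 := hconj σ
    rw [h2] at h3
    apply hC0.mul_left_cancel
    rw [h3]
    simp
  obtain ⟨φ, hφ⟩ := FrobExists.exists_isFrobeniusAt P hq hP
  refine scalar_of_frobenius_model hM hq hP hφ ?_ ?_
  · intro σ hσ
    have h1 := hunr P hP σ hσ
    have h2 := key σ ⟨1, by rw [h1, one_smul]⟩ 1 (by rw [h1, one_smul])
    rw [h2, map_one, one_smul]
  · obtain ⟨c, hc⟩ := hs P hP φ hφ
    exact ⟨_, key φ ⟨c, hc⟩ c hc⟩

/-- `ρbar` is flat at `p` if `p ∣ v_p(Δ)`. -/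
theorem flat_of_dvd_padicValInt [Finite (ResidueField 𝒪)] (hp2 : p ≠ 2)
    (hss : W.IsSemistableModel) (hdvd : p ∣ padicValInt p W.Δ) :
    (GaloisRepAdic.ofResidualGaloisRep (rhoBar W hΔ p 𝒪)).IsFlatAt p := by
  have hcard := hcard_of (W := W) (p := p) hΔ
  have hker := hker_of (W := W) (p := p) hΔ
  have h1 := LOC.TauTorsion.residual_isFlatAt W hΔ hp.out hp2 (hss p hp.out) hdvd hcard hker
  set ρ0 := (W.map (Int.castRingHom ℚ)).residualGaloisRepOf p hcard hker with hρ0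
  have hk : Finite (ResidueField (ResidueField 𝒪)) :=
    Finite.of_surjective (residue (ResidueField 𝒪)) residue_surjective
  have hloc : IsLocalHom (zmodToResidue p 𝒪 : ZMod p →+* ResidueField 𝒪) := inferInstance
  have h2 := isFlatAt_baseChange (zmodToResidue p 𝒪) hloc _ hk h1
  obtain ⟨Mb, hMb⟩ := exists_modelR ρ0
  obtain ⟨M, hM⟩ := exists_modelR (rhoBar W hΔ p 𝒪)
  obtain ⟨C0, hC0, hconj⟩ := (hMb.baseChangeAlong (zmodToResidue p 𝒪)).exists_conj hM (by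
    obtain ⟨e⟩ := rhoBar_isEquiv hΔ 𝒪 hcard hker (zmodToResidue p 𝒪)
    exact ⟨⟨e.toLinearEquiv.symm, fun σ y => e.toLinearEquiv.injective (by
      rw [LinearEquiv.apply_symm_apply, e.map_apply, LinearEquiv.apply_symm_apply])⟩⟩)
  obtain ⟨e⟩ := (hMb.toAdic.baseChangeAlong (zmodToResidue p 𝒪) hloc).isEquiv hM.toAdic C0 hC0
    hconj
  exact isFlatAt_of_isEquiv e h2

/-- The part of the deformation condition which does not concern the place `p`. -/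
theorem hbar_aux (hss : W.IsSemistableModel) :
    (GaloisRepAdic.ofResidualGaloisRep (rhoBar W hΔ p 𝒪)).DetIsCyclotomic p ∧
    (∀ q : ℕ, q.Prime → q ∉ Smin W p →
      (GaloisRepAdic.ofResidualGaloisRep (rhoBar W hΔ p 𝒪)).IsUnramifiedAt q) ∧
    (∀ q ∈ Smin W p, q.Prime → q ≠ p →
      (GaloisRepAdic.ofResidualGaloisRep (rhoBar W hΔ p 𝒪)).IsUnipotentOnInertiaAt q) := by
  refine ⟨rhoBar_det hΔ 𝒪, fun q hq hqS => ?_, fun q _ hq hqp => ?_⟩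
  · have hqp : q ≠ p := fun h => hqS (h ▸ p_mem_Smin)
    refine ofResidual_isUnramifiedAt ?_
    by_contra h
    exact hqS ((mem_Smin_iff hΔ 𝒪 hss q hq hqp).mpr h)
  · refine RT.Wiring.isUnipotentOnInertiaAt_of_isEquiv
      (residual_isEquiv_bc (rhoE W hΔ p 𝒪)) ?_
    exact isUnipotentOnInertiaAt_bc _ _ (rhoE_isUnipotentOnInertiaAt hΔ 𝒪 hss hq hqp)

/-- `hbar` in the flat case. -/
theorem hbar_flat (hss : W.IsSemistableModel)
    (h : (GaloisRepAdic.ofResidualGaloisRep (rhoBar W hΔ p 𝒪)).IsFlatAt p) :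
    dCond .flat 𝒪 p (Smin W p) (Smin W p)
      (GaloisRepAdic.ofResidualGaloisRep (rhoBar W hΔ p 𝒪)) :=
  ⟨⟨(hbar_aux hΔ 𝒪 hss).1, h, (hbar_aux hΔ 𝒪 hss).2.1⟩, (hbar_aux hΔ 𝒪 hss).2.2⟩

/-- `hbar` in the strict case. -/
theorem hbar_strict (hss : W.IsSemistableModel) (hbad : (p : ℤ) ∣ W.Δ) :
    dCond .strict 𝒪 p (Smin W p) (Smin W p)
      (GaloisRepAdic.ofResidualGaloisRep (rhoBar W hΔ p 𝒪)) := by
  refine ⟨⟨(hbar_aux hΔ 𝒪 hss).1, ?_, (hbar_aux hΔ 𝒪 hss).2.1⟩, (hbar_aux hΔ 𝒪 hss).2.2⟩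
  have h1 : (rhoE W hΔ p 𝒪).IsStrictOrdinaryAt p := rhoE_isStrictOrdinaryAt hΔ 𝒪 hss hbad
  have h2 := isStrictOrdinaryAt_bc (residue 𝒪) inferInstance h1
  obtain ⟨e⟩ := residual_isEquiv_bc (rhoE W hΔ p 𝒪)
  rw [isStrictOrdinaryAt_iff] at h2 ⊢
  refine ⟨h2.1, fun P hP => ?_⟩
  obtain ⟨b, hb, hs⟩ := h2.2 P hP
  exact ⟨_, ordBasis_equiv e hb, strictBasis_equiv e hs⟩

end

section Level

variable {W : WeierstrassCurve ℤ} (hΔ : W.Δ ≠ 0) {p : ℕ} [hp : Fact p.Prime] (𝒪 : Type)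
  [CommRing 𝒪] [IsDomain 𝒪] [IsDiscreteValuationRing 𝒪] [IsAdicComplete (maximalIdeal 𝒪) 𝒪]
  [Finite (ResidueField 𝒪)] [CharZero 𝒪] [Algebra ℤ_[p] 𝒪] [IsLocalHom (algebraMap ℤ_[p] 𝒪)]

/-- `ρbar` is flat at `p` if `E[p]` is modular of a level prime to `p`. -/
theorem flat_of_level (hp2 : p ≠ 2) (hss : W.IsSemistableModel) (hirr : W.ModRepIsIrreducible p)
    (hp𝒪 : (p : 𝒪) ∈ maximalIdeal 𝒪) {N : ℕ} [NeZero N] (hpN : ¬ p ∣ N) {S : Finset ℕ}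
    (hpS : p ∈ S) (hNS : ∀ q : ℕ, q.Prime → q ∣ N → q ∈ S)
    (hΔS : ∀ q : ℕ, q.Prime → (q : ℤ) ∣ W.Δ → q ∈ S)
    (χ₀ : CuspForm.heckeAlgebra N 2 (↑S : Set ℕ) →+* 𝒪)
    (hχ₀ : ∀ (ℓ : ℕ) (hℓ : ℓ.Prime) (hℓN : ¬ ℓ ∣ N) (hℓS : ℓ ∉ (↑S : Set ℕ)),
      residue 𝒪 (χ₀ (CuspForm.heckeAlgebra.T hℓ hℓN hℓS)) = (W.apOfModel ℓ : ResidueField 𝒪)) :
    (GaloisRepAdic.ofResidualGaloisRep (rhoBar W hΔ p 𝒪)).IsFlatAt p := by
  have hfact : Fact (CuspForm.HasIntegralStructure N 2) := ⟨IntStr.hasIntegralStructure N 2⟩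
  have habs := rhoBar_isAbsolutelyIrreducible hΔ 𝒪 hp2 hss hirr
  let θ : CuspForm.heckeAlgebra N 2 (↑S : Set ℕ) →+* ResidueField 𝒪 := (residue 𝒪).comp χ₀
  have hfrob : ∀ (ℓ : ℕ) (hℓ : ℓ.Prime) (hℓN : ¬ ℓ ∣ N) (hℓS : ℓ ∉ (↑S : Set ℕ)),
      ∀ A : ValuationSubring (AlgebraicClosure ℚ), A.LiesOverPrime ℓ →
        ∀ σ : Γℚ, A.IsFrobeniusAt σ ℓ → LinearMap.charpoly ((rhoBar W hΔ p 𝒪).ρ σ) =
          X ^ 2 - C (θ (CuspForm.heckeAlgebra.T hℓ hℓN hℓS)) * X + C ((ℓ : ResidueField 𝒪)) := by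
    intro ℓ hℓ hℓN hℓS A hA σ hσ
    have hℓp : ℓ ≠ p := fun h => hℓS (Finset.mem_coe.mpr (h ▸ hpS))
    have hgood : W.IsGoodPrimeFor ℓ := fun h => hℓS (Finset.mem_coe.mpr (hΔS ℓ hℓ h))
    rw [rhoBar_charpoly_frob hΔ 𝒪 hℓ hℓp hgood A hA hσ]
    have h1 : θ (CuspForm.heckeAlgebra.T hℓ hℓN hℓS) = ((W.apOfModel ℓ : ℤ) : ResidueField 𝒪) :=
      hχ₀ ℓ hℓ hℓN hℓS
    rw [h1]
  obtain ⟨d, -, hdet⟩ := RT.DatumGal.exists_datum_of_S30 hp2 N S hpS hNS 𝒪 hp𝒪 θ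
    (RingHom.id (ResidueField 𝒪)) (RingHom.id (ResidueField 𝒪)) (rhoBar W hΔ p 𝒪) habs
    (fun ℓ hℓ hℓN hℓS A hA σ hσ => by rw [hfrob ℓ hℓ hℓN hℓS A hA σ hσ])
    CMP.Density.frobDensity S30.result
  have hc : dCond .flat 𝒪 p S ∅ d.ρ :=
    ⟨⟨hdet, S32.result hp.out hp2 hp𝒪 hpN hpS hNS d, fun q hq hqS =>
      S31.result hp.out hp𝒪 hpS hNS d q hq hqS⟩, fun q hq => absurd hq (Finset.notMem_empty q)⟩
  exact (dCond_ofResidual_of_datum d (datum_residual_isEquiv d hNS habs hfrob) hc).1.2.1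

end Level

end Fermat.Agent.DR.SC
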