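import Fermat.Agent.RT.TWBasic

/-!
# SC-2 (a): the `𝒪[Δ]`-rank of `M'` is the `𝒪`-rank of `M0`
-/

set_option autoImplicit false
set_option linter.unusedSectionVars false

open Matrix Matrix.SpecialLinearGroup CongruenceSubgroup IsLocalRing
open scoped MatrixGroups OnePoint

namespace Fermat.Agent.DR.SC

section abstract_rank

variable {𝒪 X Δ : Type*} [CommRing 𝒪] [AddCommGroup X] [Module 𝒪 X] [Group Δ]

/-- The invariants of a free `𝒪[Δ]`-module. -/
theorem exists_basis_invariants [Fintype Δ] {ι : Type*} [Fintype ι] (D : Δ →* Module.End 𝒪 X)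
    (b : Module.Basis (Δ × ι) 𝒪 X) (hb : ∀ x k, D x (b (1, k)) = b (x, k))
    (Y : Submodule 𝒪 X) (hY : ∀ x, x ∈ Y ↔ ∀ δ, D δ x = x) :
    ∃ C : Module.Basis ι 𝒪 Y, ∀ i, ((C i : Y) : X) = ∑ δ, b (δ, i) := by
  classical
  have hD : ∀ δ x k, D δ (b (x, k)) = b (δ * x, k) := by
    intro δ x k
    rw [← hb x k, ← Module.End.mul_apply, ← map_mul, hb]
  -- coordinates of invariant vectors
  have hc : ∀ x ∈ Y, ∀ δ i, b.repr x (δ, i) = b.repr x (1, i) := by
    intro x hx δ i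
    have h1 := (hY x).mp hx δ
    have h2 : ∀ y : X, b.repr (D δ y) (δ, i) = b.repr y (1, i) := by
      intro y
      have h3 : (Finsupp.lapply (δ, i) ∘ₗ b.repr.toLinearMap) ∘ₗ D δ =
          Finsupp.lapply (1, i) ∘ₗ b.repr.toLinearMap := by
        apply b.ext
        rintro ⟨ε, j⟩
        simp only [LinearMap.comp_apply, hD, LinearEquiv.coe_coe, Module.Basis.repr_self,
          Finsupp.lapply_apply, Finsupp.single_apply, Prod.mk.injEq, mul_eq_left]
      exact LinearMap.congr_fun h3 y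
    rw [← h2 x, h1]
  let v : ι → Y := fun i => ⟨∑ δ, b (δ, i), (hY _).mpr fun δ => by
    rw [map_sum]
    simp only [hD]
    exact Fintype.sum_equiv (Equiv.mulLeft δ) _ _ fun _ => rfl⟩
  have hv : ∀ (c : ι → 𝒪), ((∑ i, c i • v i : Y) : X) = ∑ x : Δ × ι, c x.2 • b x := by
    intro c
    rw [Fintype.sum_prod_type, Finset.sum_comm, Submodule.coe_sum]
    refine Finset.sum_congr rfl fun i _ => ?_
    rw [Submodule.coe_smul, Finset.smul_sum]
  have hrv : ∀ (c : ι → 𝒪) (δ : Δ) (i : ι),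
      b.repr ((∑ i, c i • v i : Y) : X) (δ, i) = c i := by
    intro c δ i
    rw [hv]
    exact congrFun (b.repr_sum_self (fun x : Δ × ι => c x.2)) (δ, i)
  have hli : LinearIndependent 𝒪 v := by
    rw [Fintype.linearIndependent_iff]
    intro g hg k
    have := hrv g 1 k
    rw [hg] at this
    simpa using this.symm
  have hsp : ⊤ ≤ Submodule.span 𝒪 (Set.range v) := by
    rintro y -
    have hy : y = ∑ i, b.repr (y : X) (1, i) • v i := by
      apply Subtype.ext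
      apply b.repr.injective
      ext ⟨δ, i⟩
      rw [hrv, hc _ y.2]
    rw [hy]
    exact Submodule.sum_mem _ fun i _ => Submodule.smul_mem _ _
      (Submodule.subset_span (Set.mem_range_self i))
  exact ⟨Module.Basis.mk hli hsp, fun i => by rw [Module.Basis.mk_apply]⟩

theorem card_eq_finrank_invariants [Nontrivial 𝒪] [Finite Δ] {ι : Type*} [Finite ι]
    (D : Δ →* Module.End 𝒪 X) (b : Module.Basis (Δ × ι) 𝒪 X)
    (hb : ∀ x k, D x (b (1, k)) = b (x, k))
    (Y : Submodule 𝒪 X) (hY : ∀ x, x ∈ Y ↔ ∀ δ, D δ x = x) :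
    Module.Free 𝒪 Y ∧ Nat.card ι = Module.finrank 𝒪 Y := by
  have := Fintype.ofFinite Δ
  have := Fintype.ofFinite ι
  obtain ⟨C, -⟩ := exists_basis_invariants D b hb Y hY
  exact ⟨Module.Free.of_basis C, by rw [Module.finrank_eq_card_basis C, Nat.card_eq_fintype_card]⟩

end abstract_rank

section tw

open Fermat.Agent.LR Fermat.Agent.LR.PS Fermat.Agent.RT Fermat.Agent.RT.TwistH
  Fermat.Agent.RT.GroupAlg Fermat.Agent.RT.Dict Fermat.Agent.RT.Loc Fermat.Agent.RT.GR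
  Fermat.Agent.RT.TWS Fermat.Agent.RT.TWS.TWP

variable {p N r : ℕ} {W : TWP p N r} [hp : Fact p.Prime]
variable {𝒪 : Type*} [CommRing 𝒪] [IsDomain 𝒪] [IsDiscreteValuationRing 𝒪]
  [IsAdicComplete (maximalIdeal 𝒪) 𝒪] [Finite (ResidueField 𝒪)]
variable {S I : Set ℕ} {ε : ℤ} {t α : ℕ → 𝒪}

/-- `M0` = the invariants of the diamonds in `M'`. -/
theorem mem_M0_iff_dia (hG : W.Good S I) (x : W.M' ε S t I α) :
    (x : Pairs 𝒪) ∈ W.M0 ε S t I α ↔ ∀ δ, dia' hG ε t α δ x = x := by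
  rw [mem_M0_iff hG, mem_Gamma0_iff_D hG.hyp (M'_le_MS x.2)]
  constructor
  · rintro ⟨-, h⟩ δ
    exact Subtype.ext (h δ)
  · intro h
    exact ⟨x.2, fun δ => congrArg Subtype.val (h δ)⟩

/-- **SC-2 (a)**: the `𝒪[Δ]`-rank of `M'` equals the `𝒪`-rank of `M0`. -/
theorem card_eq_finrank_M0 (hG : W.Good S I) {ι : Type*}
    (b : Module.Basis (W.Δ × ι) 𝒪 (W.M' ε S t I α))
    (hb : ∀ (x : W.Δ) (k : ι), dia' hG ε t α x (b (1, k)) = b (x, k)) :
    Nat.card ι = Module.finrank 𝒪 (W.M0 ε S t I α) := by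
  have hfin := finite_M' (𝒪 := 𝒪) (ε := ε) (t := t) (α := α) hG
  have h1 : Finite (W.Δ × ι) := Module.Finite.finite_basis b
  have h2 : Finite ι := Finite.prod_right W.Δ
  have h3 : Finite W.Δ := TWP.instFinite W
  let Y : Submodule 𝒪 (W.M' ε S t I α) := (W.M0 ε S t I α).comap (W.M' ε S t I α).subtype
  obtain ⟨-, h4⟩ := card_eq_finrank_invariants (dia' hG ε t α) b hb Y (fun x => by
    rw [← mem_M0_iff_dia hG x]; rfl)
  rw [h4]
  exact (Submodule.comapSubtypeEquivOfLe (M0_le hG)).finrank_eq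

end tw

end Fermat.Agent.DR.SC
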