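import Fermat.Agent.RT.TypeRing
import Fermat.Agent.RT.TWSetup

/-!
# SC-5: the type of the Hecke algebra at the level `N·V.Q²`

`N` squarefree, `V : TWP p N r`. The arithmetic hypotheses of `RT.Typ.exists_surjective` at the
level `N * V.Q ^ 2`.
-/

set_option autoImplicit false

open Polynomial IsLocalRing CongruenceSubgroup ModularFormClass CuspForm

namespace Fermat.Agent.DR.SC.TypeV

open Fermat.Agent.RT.TWS Fermat.Agent.RT.Wiring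
open Fermat.Agent.RT.Typ hiding Inputs

local notation "Γℚ" => (AlgebraicClosure ℚ ≃ₐ[ℚ] AlgebraicClosure ℚ)

variable {p N r : ℕ} (V : TWP p N r)

theorem sq_dvd_of_not_dvd_Q {q : ℕ} (hq : q.Prime) (hqV : ∀ i, q ≠ V.q i)
    (h : q ^ 2 ∣ N * V.Q ^ 2) : q ^ 2 ∣ N := by
  refine Nat.Coprime.dvd_of_dvd_mul_right (k := q ^ 2) (m := N) (n := V.Q ^ 2) ?_ h
  refine Nat.Coprime.pow 2 2 ((Nat.Prime.coprime_iff_not_dvd hq).mpr fun h' => ?_)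
  obtain ⟨i, hi⟩ := (V.prime_dvd_Q_iff hq).mp h'
  exact hqV i hi

theorem dvd_of_not_dvd_Q {q : ℕ} (hq : q.Prime) (hqV : ∀ i, q ≠ V.q i)
    (h : q ∣ N * V.Q ^ 2) : q ∣ N := by
  refine (hq.dvd_mul.mp h).resolve_right fun h' => ?_
  obtain ⟨i, hi⟩ := (V.prime_dvd_Q_iff hq).mp (hq.dvd_of_dvd_pow h')
  exact hqV i hi

theorem not_sq_dvd {q : ℕ} (hN : Squarefree N) (hq : q.Prime) (hqV : ∀ i, q ≠ V.q i) :
    ¬ q ^ 2 ∣ N * V.Q ^ 2 := fun h => by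
  have h1 := sq_dvd_of_not_dvd_Q V hq hqV h
  rw [pow_two] at h1
  exact hq.one_lt.ne' (Nat.isUnit_iff.mp (hN q h1))

theorem dvd_level_iff (hp : p.Prime) : p ∣ N * V.Q ^ 2 ↔ p ∣ N :=
  ⟨dvd_of_not_dvd_Q V hp fun i h => V.ne i h.symm, fun h => h.mul_right _⟩

theorem atP {k : Type} [Field k] {ρbar : ResidualGaloisRep k} {t : PType} (hp : p.Prime)
    (hN : Squarefree N) (h : AtP t p N ρbar) : AtP t p (N * V.Q ^ 2) ρbar := by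
  have h1 : ¬ p ^ 2 ∣ N * V.Q ^ 2 := not_sq_dvd V hN hp fun i h => V.ne i h.symm
  cases t with
  | flat =>
    intro h'
    exact h ((dvd_level_iff V hp).mp h')
  | ord =>
    obtain ⟨ha, -, hc⟩ := h
    exact ⟨ha.mul_right _, h1, hc⟩
  | strict =>
    obtain ⟨ha, -, hc, hd⟩ := h
    exact ⟨ha.mul_right _, h1, hc, hd⟩

theorem hunr {k : Type} [Field k] {ρbar : ResidualGaloisRep k} (hN : Squarefree N)
    {S₁ : Finset ℕ} (hV : ∀ i, V.q i ∈ S₁)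
    (haux : ∀ q : ℕ, q.Prime → q ∣ N → q ∉ S₁ → NoNewAt ρbar q) :
    ∀ q : ℕ, q.Prime → q ∣ N * V.Q ^ 2 → q ∉ S₁ → ¬ q ^ 2 ∣ N * V.Q ^ 2 ∧ NoNewAt ρbar q := by
  intro q hq hqN hqS
  have hqV : ∀ i, q ≠ V.q i := fun i h => hqS (h ▸ hV i)
  exact ⟨not_sq_dvd V hN hq hqV, haux q hq (dvd_of_not_dvd_Q V hq hqV hqN) hqS⟩

theorem huni (hN : Squarefree N) {Sm : Finset ℕ} (hV : ∀ i, V.q i ∉ Sm) :
    ∀ q ∈ Sm, q.Prime → q ≠ p → ¬ q ^ 2 ∣ N * V.Q ^ 2 := fun q hqS hq _ =>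
  not_sq_dvd V hN hq fun i h => hV i (h ▸ hqS)

section

variable [hpf : Fact p.Prime] {S : Finset ℕ} (hpS : p ∈ S)
  {𝒪 : Type} [CommRing 𝒪] [IsDomain 𝒪] [IsDiscreteValuationRing 𝒪]
  [IsAdicComplete (maximalIdeal 𝒪) 𝒪] [Finite (ResidueField 𝒪)] [CharZero 𝒪]
  (hp𝒪 : (p : 𝒪) ∈ maximalIdeal 𝒪)
  {ρbar : ResidualGaloisRep (ResidueField 𝒪)} (habs : ρbar.IsAbsolutelyIrreducible)
  [NeZero (N * V.Q ^ 2)] [Fact (HasIntegralStructure (N * V.Q ^ 2) 2)]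
  (hNS : ∀ q : ℕ, q.Prime → q ∣ N * V.Q ^ 2 → q ∈ S)
  {θ : heckeAlgebra (N * V.Q ^ 2) 2 (↑S : Set ℕ) →+* ResidueField 𝒪}
  (hρbar : ResAttached θ ρbar)

include hpS hNS hp𝒪 habs hρbar in
/-- **SC-5 TYPE**: the surjection from the deformation ring to the Hecke algebra of level
`N·V.Q²`. `S₁` contains all `V.q i`; at the primes of `N` outside `S₁` there are no new forms. -/
theorem exists_surjective_V (I : RT.Typ.Inputs) (hp2 : p ≠ 2) (t : PType) (hN : Squarefree N)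
    (S₁ Sm : Finset ℕ) (hpS₁ : p ∈ S₁) (hV : ∀ i, V.q i ∈ S₁) (hV' : ∀ i, V.q i ∉ Sm)
    (haux : ∀ q : ℕ, q.Prime → q ∣ N → q ∉ S₁ → NoNewAt ρbar q) (hpt : AtP t p N ρbar)
    (D : GaloisRep.DeformationRingData 𝒪 ρbar (dCond t 𝒪 p S₁ Sm)) :
    ∃ (d : HeckeGaloisRepDatum (N * V.Q ^ 2) (↑S : Set ℕ) 𝒪 θ
        (heckeLocal (N * V.Q ^ 2) (↑S : Set ℕ) 𝒪 θ))
      (φ : D.R →ₐ[𝒪] heckeLocal (N * V.Q ^ 2) (↑S : Set ℕ) 𝒪 θ)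
      (hφ : IsLocalHom (φ : D.R →+* heckeLocal (N * V.Q ^ 2) (↑S : Set ℕ) 𝒪 θ)),
      d.π = heckeLocal.π (N * V.Q ^ 2) (↑S : Set ℕ) 𝒪 θ ∧ dCond t 𝒪 p S₁ Sm d.ρ ∧
      Function.Surjective φ ∧
      (D.ρ.baseChangeAlong (φ : D.R →+* heckeLocal (N * V.Q ^ 2) (↑S : Set ℕ) 𝒪 θ)
        hφ).IsEquiv d.ρ ∧
      ∀ (ℓ : ℕ) (hℓ : ℓ.Prime) (hℓN : ¬ ℓ ∣ N * V.Q ^ 2) (hℓS : ℓ ∉ (↑S : Set ℕ)),
        ∀ A : ValuationSubring (AlgebraicClosure ℚ), A.LiesOverPrime ℓ →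
          ∀ σ : Γℚ, A.IsFrobeniusAt σ ℓ → φ (D.ρ.trace σ) =
            heckeLocal.π (N * V.Q ^ 2) (↑S : Set ℕ) 𝒪 θ (heckeAlgebra.T hℓ hℓN hℓS) :=
  RT.Typ.exists_surjective hpS hNS hp𝒪 habs hρbar I hp2 t S₁ Sm hpS₁ (hunr V hN hV haux)
    (huni V hN hV') (atP V hpf.out hN hpt) D

end

end Fermat.Agent.DR.SC.TypeV
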