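import Fermat.Agent.IH.PairInst
import Fermat.Agent.DR.SC.Action
import Fermat.Agent.DR.SC.TypeV
import Fermat.Agent.DR.SC.Rank
import Fermat.Agent.DR.SC.Vanish
import Fermat.Agent.RT.TWBase

/-!
# SC-10: `PairHecke` at every Taylor–Wiles level (helper82)

* `LevelData` : the Taylor–Wiles level attached to a `TWSet` and the scalar prime, the action of
  the deformation ring and all its properties, but the supports;
* `exists_levelData`;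
* `exists_pairHecke_of_supports`.
-/

set_option autoImplicit false
set_option linter.unusedSectionVars false
set_option linter.style.haveILetI false

noncomputable section

open Matrix Matrix.SpecialLinearGroup CongruenceSubgroup IsLocalRing CuspForm Polynomial
open scoped MatrixGroups OnePoint

namespace Fermat.Agent.DR.SC.Level

open Fermat.Agent.LR Fermat.Agent.LR.PS Fermat.Agent.RT Fermat.Agent.RT.TwistH
  Fermat.Agent.RT.GroupAlg Fermat.Agent.RT.Dict Fermat.Agent.RT.Loc Fermat.Agent.RT.GR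
  Fermat.Agent.RT.MSHecke Fermat.Agent.RT.HeckeLocalFields Fermat.Agent.RT.TWS
  Fermat.Agent.RT.TWS.TWP Fermat.Agent.UDef Fermat.Agent.CMP.S58Assembly
  Fermat.Agent.RT.TWBase Fermat.Agent.RT.Wiring Fermat.Agent.DR.SC.RankB
  Fermat.Agent.RT.Control Fermat.Agent.IH

local notation "Qbar" => AlgebraicClosure ℚ
local notation "Γℚ" => (AlgebraicClosure ℚ ≃ₐ[ℚ] AlgebraicClosure ℚ)

section numbers

variable {𝒪 : Type} [CommRing 𝒪] [IsDomain 𝒪] [IsDiscreteValuationRing 𝒪]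
  {p : ℕ} [hp : Fact p.Prime]

theorem isUnit_two (hp2 : p ≠ 2) (hp𝒪 : (p : 𝒪) ∈ maximalIdeal 𝒪) : IsUnit (2 : 𝒪) := by
  by_contra h
  have h2 : (2 : 𝒪) ∈ maximalIdeal 𝒪 := h
  have hc : Nat.Coprime 2 p := (Nat.coprime_primes Nat.prime_two hp.out).mpr (Ne.symm hp2)
  obtain ⟨a, b, hab⟩ := (Nat.isCoprime_iff_coprime.mpr hc)
  have h3 : (1 : 𝒪) = (a : 𝒪) * 2 + (b : 𝒪) * (p : 𝒪) := by
    have := congrArg (fun z : ℤ => (z : 𝒪)) hab
    push_cast at this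
    exact this.symm
  have h4 : (1 : 𝒪) ∈ maximalIdeal 𝒪 := by
    rw [h3]
    exact Ideal.add_mem _ (Ideal.mul_mem_left _ _ h2) (Ideal.mul_mem_left _ _ hp𝒪)
  exact h4 isUnit_one

theorem dvd_sub_one_of_pow {ϖ ω : 𝒪} (hp𝒪 : (p : 𝒪) ∈ maximalIdeal 𝒪) (hϖ : Prime ϖ) {e : ℕ}
    (hω : ω ^ p ^ e = 1) : ϖ ∣ ω - 1 := by
  have hirr : Irreducible ϖ := hϖ.irreducible
  have hc : CharP (ResidueField 𝒪) p := by
    refine (CharP.charP_iff_prime_eq_zero hp.out).mpr ?_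
    rw [← map_natCast (residue 𝒪)]
    exact (residue_eq_zero_iff _).mpr hp𝒪
  have h1 : (residue 𝒪 ω - 1) ^ p ^ e = 0 := by
    rw [sub_pow_char_pow, one_pow, ← map_pow, hω, map_one, sub_self]
  have h2 : residue 𝒪 (ω - 1) = 0 := by
    rw [map_sub, map_one]
    exact pow_eq_zero_iff (pow_ne_zero _ hp.out.ne_zero) |>.mp h1
  rw [residue_eq_zero_iff, hirr.maximalIdeal_eq, Ideal.mem_span_singleton] at h2
  exact h2

end numbers

variable {p : ℕ} [hp : Fact p.Prime] {𝒪 : Type} [CommRing 𝒪] [IsDomain 𝒪]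
  [IsDiscreteValuationRing 𝒪] [IsAdicComplete (maximalIdeal 𝒪) 𝒪] [Finite (ResidueField 𝒪)]
  [CharZero 𝒪] {ρbar : ResidualGaloisRep (ResidueField 𝒪)}

/-- The localised module at the base level does not depend on `α`. -/
theorem part_opF_eq (N : ℕ) (ε : ℤ) (S : Set ℕ) (t α : ℕ → 𝒪) :
    part (sgnMS 𝒪 ε (Gamma0 N)) (opF {ℓ | ℓ.Prime ∧ ℓ ∉ S} t ∅ α) = Mb N ε S t := by
  rw [Mb, fam_eq_opF (u := α)]

/-- lifts of the eigenvalues -/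
theorem exists_alpha {r : ℕ} (q : Fin r → ℕ) (hq : Function.Injective q)
    (a : Fin r → ResidueField 𝒪) : ∃ α : ℕ → 𝒪, ∀ i, residue 𝒪 (α (q i)) = a i := by
  classical
  have h : ∀ ℓ : ℕ, ∃ x : 𝒪, ∀ i, q i = ℓ → residue 𝒪 x = a i := by
    intro ℓ
    by_cases hℓ : ∃ i, q i = ℓ
    · obtain ⟨i, hi⟩ := hℓ
      obtain ⟨x, hx⟩ := residue_surjective (R := 𝒪) (a i)
      refine ⟨x, fun j hj => ?_⟩
      rw [hq (hj.trans hi.symm)]
      exact hx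
    · exact ⟨0, fun i hi => absurd ⟨i, hi⟩ hℓ⟩
  choose α hα using h
  exact ⟨α, fun i => hα _ i rfl⟩

/-- The standing data of the scalar case, in level `N q`, `q = v 0`. -/
structure Ctx (ty : PType) (p : ℕ) [Fact p.Prime] (𝒪 : Type) [CommRing 𝒪] [IsDomain 𝒪]
    [IsDiscreteValuationRing 𝒪] [IsAdicComplete (maximalIdeal 𝒪) 𝒪]
    (ρbar : ResidualGaloisRep (ResidueField 𝒪)) (N : ℕ) {k : ℕ} (v : Fin (k + 1) → Nat.Primes)
    (S Smin : Finset ℕ) (t : ℕ → 𝒪) (e m' : ℕ) : Prop where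
  hp2 : p ≠ 2
  hp𝒪 : (p : 𝒪) ∈ maximalIdeal 𝒪
  habs : ρbar.IsAbsolutelyIrreducible
  hN : Squarefree N
  hvN : ¬ (v 0 : ℕ) ∣ N
  hvinj : Function.Injective v
  hvp : ∀ l, (v l : ℕ) ≠ p
  hpSmin : p ∈ Smin
  hSmin : Smin ⊆ S
  hvS : ∀ l, (v l : ℕ) ∈ S
  hvmin : ∀ l, (v l : ℕ) ∉ Smin
  hNS : ∀ ℓ : ℕ, ℓ.Prime → ℓ ∣ N → ℓ ∈ S
  hρt : ∀ ℓ : ℕ, ℓ.Prime → ℓ ∉ S → ∀ A : ValuationSubring Qbar, A.LiesOverPrime ℓ →
    ∀ σ : Γℚ, A.IsFrobeniusAt σ ℓ → LinearMap.charpoly (ρbar.ρ σ) =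
      X ^ 2 - C (residue 𝒪 (t ℓ)) * X + C ((ℓ : ResidueField 𝒪))
  hqm : (v 0 : ℕ) - 1 = p ^ e * m'
  hm' : ¬ p ∣ m'
  he : e ≠ 0
  /-- an auxiliary prime killing the elements of order 3 -/
  h3 : ∃ s : ℕ, s.Prime ∧ s % 3 = 2 ∧ s ∣ N
  /-- at the primes of `N` outside `Smin` and the `v l` there are no new forms -/
  haux : ∀ r : ℕ, r.Prime → r ∣ N → r ∉ Smin → (∀ l, r ≠ v l) → Typ.NoNewAt ρbar r
  hpt : Typ.AtP ty p N ρbar
  /-- the localisation vanishes without `q` -/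
  hbase : Mb N 1 (↑S : Set ℕ) t = ⊥

section ctx

variable {ty : PType} {N : ℕ} {k : ℕ} {v : Fin (k + 1) → Nat.Primes} {S Smin : Finset ℕ}
  {t : ℕ → 𝒪} {e m' : ℕ} (X : Ctx ty p 𝒪 ρbar N v S Smin t e m')

include X

/-- The level `V`. -/
def lev {n r : ℕ} (Q : TW.TWSet ρbar p S n r) : TWP p N (r + 1) :=
  ofTWSetCons Q N (X.hSmin X.hpSmin) X.hNS (v 0).2 (X.hvS 0) X.hvN (X.hvp 0) hp.out X.he X.hqm
    X.hm'

theorem lev_q_zero {n r : ℕ} (Q : TW.TWSet ρbar p S n r) : (lev X Q).q 0 = v 0 := rfl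

theorem lev_q_succ {n r : ℕ} (Q : TW.TWSet ρbar p S n r) (i : Fin r) :
    (lev X Q).q i.succ = Q.q i := rfl

theorem lev_a_zero {n r : ℕ} (Q : TW.TWSet ρbar p S n r) : (lev X Q).a 0 = e := rfl

theorem lev_a_succ {n r : ℕ} (Q : TW.TWSet ρbar p S n r) (i : Fin r) :
    (lev X Q).a i.succ = Q.a i := rfl

theorem good_lev {n r : ℕ} (Q : TW.TWSet ρbar p S n r) :
    (lev X Q).Good (↑S : Set ℕ) (Set.range Q.q) where
  hN := X.hN.ne_zero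
  hp2 := X.hp2
  hS ℓ hℓ h := Finset.mem_coe.mpr (X.hNS ℓ hℓ h)
  hI := by
    rintro _ ⟨i, rfl⟩
    exact ⟨Q.prime i, ((lev X Q).dvd_Q i.succ).mul_left _⟩

theorem isSQ_lev {n r : ℕ} (Q : TW.TWSet ρbar p S n r) :
    IsSQ (lev X Q) (↑S : Set ℕ) (↑(S ∪ Finset.univ.image Q.q) : Set ℕ) := by
  intro ℓ hℓ
  rw [Finset.mem_coe, Finset.mem_coe, Finset.mem_union, (lev X Q).prime_dvd_Q_iff hℓ,
    Finset.mem_image]
  constructor
  · rintro (h | ⟨i, -, rfl⟩)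
    · exact Or.inl h
    · exact Or.inr ⟨i.succ, rfl⟩
  · rintro (h | ⟨i, hi⟩)
    · exact Or.inl h
    · revert hi
      refine Fin.cases (fun hi => Or.inl ?_) (fun i hi => Or.inr ⟨i, Finset.mem_univ i, hi.symm⟩) i
      rw [hi]
      exact X.hvS 0

theorem lev_level_ne_zero {n r : ℕ} (Q : TW.TWSet ρbar p S n r) :
    N * (lev X Q).Q ^ 2 ≠ 0 :=
  mul_ne_zero X.hN.ne_zero (pow_ne_zero 2 (lev X Q).Q_ne_zero)

theorem dvd_lev {n r : ℕ} (Q : TW.TWSet ρbar p S n r) :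
    N * (v 0 : ℕ) ∣ N * (lev X Q).Q ^ 2 := by
  refine Nat.mul_dvd_mul_left N ?_
  have h : (v 0 : ℕ) ∣ (lev X Q).Q := (lev X Q).dvd_Q 0
  exact h.trans (dvd_pow_self _ two_ne_zero)

theorem mem_SQ_of_dvd {n r : ℕ} (Q : TW.TWSet ρbar p S n r) (q : ℕ) (hq : q.Prime)
    (h : q ∣ N * (lev X Q).Q ^ 2) : q ∈ S ∪ Finset.univ.image Q.q := by
  by_contra hc
  exact not_dvd_sq_of_IsSQ (good_lev X Q) (isSQ_lev X Q) hq
    (fun h' => hc (Finset.mem_coe.mp h')) h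

/-- the eigenvalues at the Taylor–Wiles primes -/
theorem twAt {n r : ℕ} (Q : TW.TWSet ρbar p S n r) {α : ℕ → 𝒪}
    (hα : ∀ i, residue 𝒪 (α (Q.q i)) = Q.α i) (i : Fin r) :
    TWAt ρbar ((lev X Q).q i.succ) (α ((lev X Q).q i.succ)) :=
  ⟨Q.P i, Q.liesOver i, Q.φ i, Q.isFrobenius i, Q.β i, by
    rw [lev_q_succ, hα]; exact Q.α_ne_β i, by
    rw [lev_q_succ, hα]; exact Q.charpoly i⟩

/-- **The rank.** -/
theorem card_eq (I : Typ.Inputs) {n r : ℕ} (Q : TW.TWSet ρbar p S n r) {α : ℕ → 𝒪}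
    (hα : ∀ i, residue 𝒪 (α (Q.q i)) = Q.α i) (ι : Type)
    (b : Module.Basis ((lev X Q).Δ × ι) 𝒪 ((lev X Q).M' 1 (↑S : Set ℕ) t (Set.range Q.q) α))
    (hb : ∀ x k, dia' (good_lev X Q) 1 t α x (b (1, k)) = b (x, k)) :
    Nat.card ι = Module.finrank 𝒪 (Mb (N * (v 0 : ℕ)) 1 (↑S : Set ℕ) t) := by
  rw [card_eq_finrank_M0 (good_lev X Q) b hb]
  have h := finrank_M0_cons I.s30 I.s35 X.hp𝒪 ρbar X.habs S (X.hSmin X.hpSmin) t X.hρt (lev X Q)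
    (fun ℓ hℓ h => by
      rcases (Nat.Prime.dvd_mul hℓ).mp h with h | h
      · exact X.hNS ℓ hℓ h
      · rw [(Nat.prime_dvd_prime_iff_eq hℓ (v 0).2).mp h]; exact X.hvS 0)
    (fun i => Q.not_mem i) (α := α) (twAt X Q hα) 1
  rw [part_opF_eq] at h
  exact h

/-- **`U_q² = D ψ(q)`** on the module of level `N q`. -/
theorem heckeU_heckeU (I : Typ.Inputs) {n r : ℕ} (Q : TW.TWSet ρbar p S n r) {α : ℕ → 𝒪}
    (hα : ∀ i, residue 𝒪 (α (Q.q i)) = Q.α i) {x : Pairs 𝒪}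
    (hx : x ∈ (lev X Q).tail.M' 1 (↑S : Set ℕ) t (Set.range Q.q) α) :
    heckeU (v 0 : ℕ) (heckeU (v 0 : ℕ) x) =
      D (N * (v 0 : ℕ)) (lev X Q).tail.Q (lev X Q).tail.ψ
        (TraceH.dq (lev X Q).tail.Q (v 0 : ℕ) (lev X Q).tail.ψ) x :=
  Vanish.heckeU_heckeU_tail I.s30 I.s35 X.hp𝒪 ρbar X.habs S (X.hSmin X.hpSmin) t X.hρt
    (isUnit_two X.hp2 X.hp𝒪) (Or.inr X.h3) (lev X Q) (good_lev X Q) (X.hvS 0)
    (fun i => Q.not_mem i) (twAt X Q hα) (by rw [part_opF_eq]; exact X.hbase) hx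

end ctx

end Fermat.Agent.DR.SC.Level
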