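import Fermat.Agent.DR.SC.Scalar
import Fermat.Agent.DR.SC.ExistsH
import Fermat.Agent.RT.TypeInputs
import Fermat.Agent.S36

/-!
# The scalar case of S38
-/

set_option autoImplicit false

namespace Fermat.Agent.DR.SC

/-- **The scalar case.** -/
theorem scalarGen : DR.S38.ScalarGen := scalarGen_of (existsH RT.Typ.inputs S36.result)

end Fermat.Agent.DR.SC
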