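import Mathlib

/-!
# The pair of modules attached to a free module over `𝒪[Δ₁ × Δ₂]`

`X` is an `𝒪`-module with an action `D` of `Δ₁ × Δ₂`, free over the group ring in the sense that
`D δ (b i)` is an `𝒪`-basis.  For a character `χ : Δ₁ → 𝒪ˣ` let `X_χ` be the `χ`-isotypic
submodule.  We show that `X_χ` is free over `𝒪[Δ₂]` (same rank for all `χ`), and that `X_χ` and
`X_χ'` are canonically isomorphic modulo `ϖ` if `χ ≡ χ'` modulo `ϖ`.
-/

set_option autoImplicit false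
set_option linter.unusedSectionVars false

namespace Fermat.Agent.DR.SC

variable {𝒪 X : Type*} [CommRing 𝒪] [AddCommGroup X] [Module 𝒪 X]
  {Δ₁ Δ₂ : Type*} [CommGroup Δ₁] [CommGroup Δ₂] [Fintype Δ₁] [Fintype Δ₂]
  (D : Δ₁ × Δ₂ →* Module.End 𝒪 X)

/-- The `χ`-isotypic submodule. -/
def isoSub (χ : Δ₁ →* 𝒪ˣ) : Submodule 𝒪 X where
  carrier := {x | ∀ δ : Δ₁, D (δ, 1) x = (χ δ : 𝒪) • x}
  zero_mem' := fun δ => by rw [map_zero, smul_zero]
  add_mem' := fun {x y} hx hy δ => by rw [map_add, hx, hy, smul_add]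
  smul_mem' := fun c x hx δ => by rw [map_smul, hx, smul_comm]

theorem mem_isoSub {χ : Δ₁ →* 𝒪ˣ} {x : X} :
    x ∈ isoSub D χ ↔ ∀ δ : Δ₁, D (δ, 1) x = (χ δ : 𝒪) • x := Iff.rfl

/-- The averaging operator. -/
noncomputable def avg (χ : Δ₁ →* 𝒪ˣ) : Module.End 𝒪 X :=
  ∑ δ : Δ₁, ((χ δ⁻¹ : 𝒪ˣ) : 𝒪) • D (δ, 1)

theorem avg_apply (χ : Δ₁ →* 𝒪ˣ) (x : X) :
    avg D χ x = ∑ δ : Δ₁, ((χ δ⁻¹ : 𝒪ˣ) : 𝒪) • D (δ, 1) x := by
  simp [avg]

variable {D}

theorem D_avg (χ : Δ₁ →* 𝒪ˣ) (τ : Δ₁) (x : X) :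
    D (τ, 1) (avg D χ x) = (χ τ : 𝒪) • avg D χ x := by
  rw [avg_apply, map_sum, Finset.smul_sum]
  refine Fintype.sum_equiv (Equiv.mulLeft τ) _ _ fun δ => ?_
  rw [map_smul, Equiv.coe_mulLeft, smul_smul, ← Module.End.mul_apply, ← map_mul, Prod.mk_mul_mk,
    one_mul]
  congr 1
  rw [mul_inv_rev, map_mul, Units.val_mul, mul_comm (χ δ⁻¹ : 𝒪), ← mul_assoc, ← Units.val_mul,
    ← map_mul, mul_inv_cancel, map_one, Units.val_one, one_mul]

theorem avg_mem (χ : Δ₁ →* 𝒪ˣ) (x : X) : avg D χ x ∈ isoSub D χ := fun τ => D_avg χ τ x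

theorem avg_D (χ : Δ₁ →* 𝒪ˣ) (τ : Δ₁) (x : X) :
    avg D χ (D (τ, 1) x) = (χ τ : 𝒪) • avg D χ x := by
  have h : avg D χ (D (τ, 1) x) = D (τ, 1) (avg D χ x) := by
    rw [avg_apply, avg_apply, map_sum]
    refine Finset.sum_congr rfl fun δ _ => ?_
    rw [map_smul, ← Module.End.mul_apply, ← Module.End.mul_apply, ← map_mul, ← map_mul,
      Prod.mk_mul_mk, Prod.mk_mul_mk, mul_comm δ]
  rw [h, D_avg]

/-- operators commuting with `Δ₁` commute with the averaging operator -/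
theorem avg_comm {T : Module.End 𝒪 X} (hT : ∀ (δ : Δ₁) (x : X), T (D (δ, 1) x) = D (δ, 1) (T x))
    (χ : Δ₁ →* 𝒪ˣ) (x : X) : avg D χ (T x) = T (avg D χ x) := by
  rw [avg_apply, avg_apply, map_sum]
  exact Finset.sum_congr rfl fun δ _ => by rw [map_smul, hT]

variable {ι : Type*} {b : ι → X} (B : Module.Basis (ι × (Δ₁ × Δ₂)) 𝒪 X)

/-- Coordinates of a translate. -/
theorem repr_D (hB : ∀ i δ, B (i, δ) = D δ (b i)) (τ : Δ₁ × Δ₂) (x : X) (i : ι) (δ : Δ₁ × Δ₂) :
    B.repr (D τ x) (i, δ) = B.repr x (i, τ⁻¹ * δ) := by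
  classical
  have hlin : ((Finsupp.lapply (i, δ)).comp (B.repr.toLinearMap.comp (D τ))) =
      ((Finsupp.lapply (i, τ⁻¹ * δ)).comp B.repr.toLinearMap : X →ₗ[𝒪] 𝒪) := by
    refine B.ext fun ⟨j, ε⟩ => ?_
    simp only [LinearMap.comp_apply, Finsupp.lapply_apply, LinearEquiv.coe_coe]
    have h1 : D τ (B (j, ε)) = B (j, τ * ε) := by
      rw [hB, hB, map_mul, Module.End.mul_apply]
    rw [h1, B.repr_self, B.repr_self]
    by_cases h : (j, τ * ε) = (i, δ)
    · have h2 : (j, ε) = (i, τ⁻¹ * δ) := by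
        obtain ⟨rfl, rfl⟩ := Prod.mk.inj h
        rw [inv_mul_cancel_left]
      rw [h, h2, Finsupp.single_eq_same, Finsupp.single_eq_same]
    · have h2 : (j, ε) ≠ (i, τ⁻¹ * δ) := by
        intro h3
        apply h
        obtain ⟨rfl, h4⟩ := Prod.mk.inj h3
        rw [h4, mul_inv_cancel_left]
      rw [Finsupp.single_eq_of_ne' h, Finsupp.single_eq_of_ne' h2]
  exact LinearMap.congr_fun hlin x

/-- the coordinates over `𝒪[Δ₂]` after specialisation of `Δ₁` along `χ` -/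
noncomputable def spec (χ : Δ₁ →* 𝒪ˣ) (x : X) (k : ι × Δ₂) : 𝒪 :=
  ∑ δ : Δ₁, (χ δ : 𝒪) * B.repr x (k.1, (δ, k.2))

variable [Fintype ι]

theorem avg_eq_sum (hB : ∀ i δ, B (i, δ) = D δ (b i)) (χ : Δ₁ →* 𝒪ˣ) (x : X) :
    avg D χ x = ∑ k : ι × Δ₂, spec B χ x k • avg D χ (B (k.1, (1, k.2))) := by
  conv_lhs => rw [← B.sum_repr x, map_sum]
  rw [Fintype.sum_prod_type]
  conv_lhs =>
    enter [2, i]
    rw [Fintype.sum_prod_type, Finset.sum_comm]
  rw [Fintype.sum_prod_type]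
  refine Finset.sum_congr rfl fun i _ => Finset.sum_congr rfl fun τ _ => ?_
  rw [spec, Finset.sum_smul]
  refine Finset.sum_congr rfl fun δ _ => ?_
  have h1 : B (i, (δ, τ)) = D (δ, 1) (B (i, (1, τ))) := by
    rw [hB, hB, ← Module.End.mul_apply, ← map_mul, Prod.mk_mul_mk, mul_one, one_mul]
  rw [map_smul, h1, avg_D, smul_smul, mul_comm]

theorem repr_avg (hB : ∀ i δ, B (i, δ) = D δ (b i)) (χ : Δ₁ →* 𝒪ˣ) (x : X) (k : ι × Δ₂) :
    B.repr (avg D χ x) (k.1, (1, k.2)) = spec B χ x k := by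
  rw [avg_apply, map_sum, Finsupp.finsetSum_apply, spec]
  refine Fintype.sum_equiv (Equiv.inv Δ₁) _ _ fun δ => ?_
  rw [map_smul, Finsupp.smul_apply, repr_D B hB, smul_eq_mul]
  simp

/-- every element of the isotypic submodule is an average -/
theorem eq_avg_of_mem (hB : ∀ i δ, B (i, δ) = D δ (b i)) {χ : Δ₁ →* 𝒪ˣ} {x : X}
    (hx : x ∈ isoSub D χ) :
    x = ∑ k : ι × Δ₂, B.repr x (k.1, (1, k.2)) • avg D χ (B (k.1, (1, k.2))) := by
  classical
  apply B.repr.injective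
  ext ⟨i, δ, τ⟩
  have h0 : B.repr x (i, (δ, τ)) = ((χ δ⁻¹ : 𝒪ˣ) : 𝒪) * B.repr x (i, (1, τ)) := by
    have h1 := repr_D B hB (δ⁻¹, 1) x i (1, τ)
    rw [hx δ⁻¹, map_smul, Finsupp.smul_apply, smul_eq_mul] at h1
    rw [h1]
    simp
  have h2 : ∀ y ∈ isoSub D χ, B.repr y (i, (δ, τ)) = ((χ δ⁻¹ : 𝒪ˣ) : 𝒪) * B.repr y (i, (1, τ)) := by
    intro y hy
    have h1 := repr_D B hB (δ⁻¹, 1) y i (1, τ)
    rw [hy δ⁻¹, map_smul, Finsupp.smul_apply, smul_eq_mul] at h1
    rw [h1]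
    simp
  rw [h0, h2 _ (Submodule.sum_mem _ fun k _ => Submodule.smul_mem _ _ (avg_mem χ _))]
  congr 1
  rw [map_sum, Finsupp.finsetSum_apply, Finset.sum_eq_single (i, τ)]
  · rw [map_smul, Finsupp.smul_apply, smul_eq_mul]
    have h3 := repr_avg B hB χ (B (i, (1, τ))) (i, τ)
    change B.repr (avg D χ (B (i, (1, τ)))) (i, (1, τ)) = _ at h3
    rw [h3, spec, Finset.sum_eq_single 1]
    · rw [map_one, Units.val_one, one_mul, B.repr_self, Finsupp.single_eq_same, mul_one]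
    · intro ε _ hε
      rw [B.repr_self, Finsupp.single_eq_of_ne (by
        intro h; apply hε; simpa using congrArg (fun t => t.2.1) h), mul_zero]
    · intro h; exact absurd (Finset.mem_univ _) h
  · rintro ⟨j, σ⟩ _ hj
    rw [map_smul, Finsupp.smul_apply, smul_eq_mul]
    have h3 := repr_avg B hB χ (B (j, (1, σ))) (i, τ)
    change B.repr (avg D χ (B (j, (1, σ)))) (i, (1, τ)) = _ at h3
    rw [h3, spec, Finset.sum_eq_zero, mul_zero]
    intro ε _
    rw [B.repr_self, Finsupp.single_eq_of_ne (by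
      intro h
      apply hj
      have h4 : i = j := congrArg (fun t => t.1) h
      have h5 : τ = σ := congrArg (fun t => t.2.2) h
      rw [h4, h5]), mul_zero]
  · intro h; exact absurd (Finset.mem_univ _) h

/-- The `𝒪`-basis of the isotypic submodule. -/
theorem exists_basis_isoSub (hB : ∀ i δ, B (i, δ) = D δ (b i)) (χ : Δ₁ →* 𝒪ˣ) :
    ∃ C : Module.Basis (ι × Δ₂) 𝒪 (isoSub D χ),
      (∀ i τ, ((C (i, τ) : isoSub D χ) : X) = D (1, τ) (avg D χ (b i))) ∧
      (∀ k, ((C k : isoSub D χ) : X) = avg D χ (B (k.1, (1, k.2)))) ∧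
      ∀ (x : isoSub D χ) k, C.repr x k = B.repr (x : X) (k.1, (1, k.2)) := by
  classical
  let v : ι × Δ₂ → isoSub D χ := fun k => ⟨avg D χ (B (k.1, (1, k.2))), avg_mem χ _⟩
  have hli : LinearIndependent 𝒪 v := by
    rw [Fintype.linearIndependent_iff]
    intro g hg k
    have h1 : (∑ k, g k • avg D χ (B (k.1, (1, k.2))) : X) = 0 := by
      have := congrArg (Submodule.subtype _) hg
      simpa [v] using this
    have h2 := congrArg (fun y => B.repr y (k.1, (1, k.2))) h1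
    simp only [map_sum, Finsupp.finsetSum_apply, map_smul, Finsupp.smul_apply, smul_eq_mul,
      map_zero, Finsupp.zero_apply] at h2
    rw [Finset.sum_eq_single k] at h2
    · rw [repr_avg B hB χ, spec, Finset.sum_eq_single 1] at h2
      · simpa using h2
      · intro ε _ hε
        rw [B.repr_self, Finsupp.single_eq_of_ne (by
          intro h; apply hε; simpa using congrArg (fun t => t.2.1) h), mul_zero]
      · intro h; exact absurd (Finset.mem_univ _) h
    · intro j _ hj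
      rw [repr_avg B hB χ, spec, Finset.sum_eq_zero, mul_zero]
      intro ε _
      rw [B.repr_self, Finsupp.single_eq_of_ne (by
        intro h
        apply hj
        have h4 : k.1 = j.1 := congrArg (fun t => t.1) h
        have h5 : k.2 = j.2 := congrArg (fun t => t.2.2) h
        exact (Prod.ext h4 h5).symm), mul_zero]
    · intro h; exact absurd (Finset.mem_univ _) h
  have hsp : ⊤ ≤ Submodule.span 𝒪 (Set.range v) := by
    rintro ⟨x, hx⟩ -
    have h1 : (⟨x, hx⟩ : isoSub D χ) = ∑ k : ι × Δ₂, B.repr x (k.1, (1, k.2)) • v k := by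
      apply Subtype.ext
      have := eq_avg_of_mem B hB hx
      simpa [v] using this
    rw [h1]
    exact Submodule.sum_mem _ fun k _ => Submodule.smul_mem _ _ (Submodule.subset_span ⟨k, rfl⟩)
  let C := Module.Basis.mk hli hsp
  have hC : ∀ k, C k = v k := fun k => Module.Basis.mk_apply hli hsp k
  refine ⟨C, fun i τ => ?_, fun k => by rw [hC], fun x k => ?_⟩
  · rw [hC]
    change avg D χ (B (i, (1, τ))) = _
    have h1 : B (i, (1, τ)) = D (1, τ) (b i) := hB _ _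
    rw [h1]
    refine avg_comm (fun δ x => ?_) χ (b i)
    rw [← Module.End.mul_apply, ← Module.End.mul_apply, ← map_mul, ← map_mul, Prod.mk_mul_mk,
      Prod.mk_mul_mk, one_mul, mul_one, one_mul, mul_one]
  · have h1 : x = ∑ k : ι × Δ₂, B.repr (x : X) (k.1, (1, k.2)) • C k := by
      apply Subtype.ext
      have := eq_avg_of_mem B hB x.2
      simpa [hC, v] using this
    conv_lhs => rw [h1]
    rw [map_sum, Finsupp.finsetSum_apply, Finset.sum_eq_single k]
    · simp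
    · intro j _ hj
      rw [map_smul, Finsupp.smul_apply, C.repr_self, Finsupp.single_eq_of_ne hj.symm, smul_zero]
    · intro h; exact absurd (Finset.mem_univ _) h

/-- **The comparison modulo `ϖ`.** -/
theorem exists_compare (hB : ∀ i δ, B (i, δ) = D δ (b i)) (χ χ' : Δ₁ →* 𝒪ˣ) (ϖ : 𝒪)
    (hχ : ∀ δ, ϖ ∣ ((χ δ : 𝒪) - (χ' δ : 𝒪))) :
    ∃ θ : isoSub D χ ≃ₗ[𝒪] isoSub D χ',
      ∀ T : Module.End 𝒪 X, (∀ (δ : Δ₁) (x : X), T (D (δ, 1) x) = D (δ, 1) (T x)) →
        ∀ (x y : isoSub D χ), T (x : X) = y → ∃ z ∈ isoSub D χ', T (θ x : X) = θ y + ϖ • z := by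
  classical
  obtain ⟨C, -, hC, hCr⟩ := exists_basis_isoSub B hB χ
  obtain ⟨C', -, hC', hCr'⟩ := exists_basis_isoSub B hB χ'
  let θ : isoSub D χ ≃ₗ[𝒪] isoSub D χ' := C.equiv C' (Equiv.refl _)
  have hθ : ∀ k, θ (C k) = C' k := fun k => by
    simp [θ]
  have hθr : ∀ x k, C'.repr (θ x) k = C.repr x k := by
    intro x k
    conv_lhs => rw [← C.sum_repr x]
    simp only [map_sum, map_smul, hθ]
    rw [Finsupp.finsetSum_apply, Finset.sum_eq_single k]
    · simp
    · intro j _ hj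
      rw [Finsupp.smul_apply, C'.repr_self, Finsupp.single_eq_of_ne hj.symm, smul_zero]
    · intro h; exact absurd (Finset.mem_univ _) h
  refine ⟨θ, fun T hT x y hxy => ?_⟩
  -- it is enough to treat basis vectors
  have key : ∀ k, ∃ z ∈ isoSub D χ', ∀ y : isoSub D χ, T (C k : X) = y →
      T (θ (C k) : X) = θ y + ϖ • z := by
    intro k
    choose t ht using hχ
    refine ⟨-∑ l : ι × Δ₂, (∑ δ : Δ₁, t δ * B.repr (T (B (k.1, (1, k.2)))) (l.1, (δ, l.2))) •
      avg D χ' (B (l.1, (1, l.2))), neg_mem (Submodule.sum_mem _ fun l _ =>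
        Submodule.smul_mem _ _ (avg_mem χ' _)), fun y hy => ?_⟩
    have h1 : T (θ (C k) : X) = avg D χ' (T (B (k.1, (1, k.2)))) := by
      rw [hθ, hC', avg_comm hT]
    have h2 : (y : X) = avg D χ (T (B (k.1, (1, k.2)))) := by
      rw [← hy, hC, avg_comm hT]
    have h3 : ∀ l, C.repr y l = spec B χ (T (B (k.1, (1, k.2)))) l := by
      intro l
      rw [hCr, h2, repr_avg B hB]
    have h4 : (θ y : X) = ∑ l : ι × Δ₂, spec B χ (T (B (k.1, (1, k.2)))) l •
        avg D χ' (B (l.1, (1, l.2))) := by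
      have h5 : θ y = ∑ l : ι × Δ₂, spec B χ (T (B (k.1, (1, k.2)))) l • C' l := by
        conv_lhs => rw [← C'.sum_repr (θ y)]
        exact Finset.sum_congr rfl fun l _ => by rw [hθr, h3]
      rw [h5]
      simp [hC']
    rw [h1, h4, avg_eq_sum B hB, smul_neg, Finset.smul_sum, ← sub_eq_add_neg,
      ← Finset.sum_sub_distrib]
    refine Finset.sum_congr rfl fun l _ => ?_
    rw [smul_smul, ← sub_smul]
    congr 1
    rw [spec, spec, Finset.mul_sum, ← Finset.sum_sub_distrib]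
    refine Finset.sum_congr rfl fun δ _ => ?_
    have := ht δ
    have h6 : (χ δ : 𝒪) = χ' δ + ϖ * t δ := by rw [← this]; ring
    rw [h6]
    ring
  choose z hz hz' using key
  have hstab : ∀ k, T (C k : X) ∈ isoSub D χ := fun k δ => by
    rw [← hT, (C k).2 δ, map_smul]
  refine ⟨∑ k, C.repr x k • z k, Submodule.sum_mem _ fun k _ => Submodule.smul_mem _ _ (hz k), ?_⟩
  have hcoe : ∀ (S : Submodule 𝒪 X) (f : ι × Δ₂ → 𝒪) (v : ι × Δ₂ → S),
      ((∑ k, f k • v k : S) : X) = ∑ k, f k • (v k : X) := by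
    intro S f v
    simp
  have hx : (x : X) = ∑ k, C.repr x k • (C k : X) := by
    rw [← hcoe, C.sum_repr x]
  have hy : y = ∑ k, C.repr x k • (⟨T (C k : X), hstab k⟩ : isoSub D χ) := by
    apply Subtype.ext
    rw [← hxy, hx, map_sum]
    simp
  have hθx : (θ x : X) = ∑ k, C.repr x k • (θ (C k) : X) := by
    have : θ x = ∑ k, C.repr x k • θ (C k) := by
      have h := congrArg θ (C.sum_repr x).symm
      rw [map_sum] at h
      simpa only [map_smul] using h
    rw [this, hcoe]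
  have hθy : (θ y : X) = ∑ k, C.repr x k •
      (θ (⟨T (C k : X), hstab k⟩ : isoSub D χ) : X) := by
    have h := congrArg θ hy
    rw [map_sum] at h
    simp only [map_smul] at h
    rw [h, hcoe]
  rw [hθx, map_sum, hθy, Finset.smul_sum, ← Finset.sum_add_distrib]
  simp only [map_smul]
  refine Finset.sum_congr rfl fun k _ => ?_
  rw [hz' k ⟨T (C k : X), hstab k⟩ rfl, smul_add, smul_comm]

end Fermat.Agent.DR.SC
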