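import Fermat.Agent.DR.SC.ExistsHDef
import Fermat.Agent.DR.SC.Base
import Fermat.Agent.DR.SC.Enum
import Fermat.Agent.DR.S38.Statement

/-!
# The scalar case of S38 from the Hecke side

`scalarGen_of : ExistsH → ScalarGen`.
-/

set_option autoImplicit false

open Polynomial IsLocalRing
open WeierstrassCurve.Affine.Point
open scoped WeierstrassCurve.Affine

namespace Fermat.Agent.DR.SC

open Fermat.Agent.UDef Fermat.Agent.RT.Wiring Fermat.Agent.IH Fermat.Agent.DR.S38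

/-- The ramification criterion for `E[p]` at `q ≠ p`. -/
theorem residual_isUnramifiedAt_iff {W : WeierstrassCurve ℤ} (hΔ : W.Δ ≠ 0) {p : ℕ} [hp : Fact p.Prime]
    (hcard : Nat.card (Submodule.torsionBy ℤ
      ((W.map (Int.castRingHom ℚ))⁄(AlgebraicClosure ℚ)).Point p) = p ^ 2)
    (hker : GaloisFactorsThroughFiniteLevel
      (galoisRepModuleEnd (K := AlgebraicClosure ℚ) ℚ (W.map (Int.castRingHom ℚ)) p))
    (hss : W.IsSemistableModel) {q : ℕ} (hq : q.Prime) (hqp : q ≠ p) :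
    ((W.map (Int.castRingHom ℚ)).residualGaloisRepOf p hcard hker).IsUnramifiedAt q ↔
      p ∣ padicValInt q W.Δ := by
  have hqp' : ¬ q ∣ p := fun h => hqp ((Nat.prime_dvd_prime_iff_eq hq hp.out).mp h)
  have h0 := LOC.galoisRepUnramifiedAt_iff W hΔ hq (hss q hq) hqp'
    (FrobExists.exists_liesOverPrime (AlgebraicClosure ℚ) hq)
  rw [← h0]
  constructor
  · intro h A hA σ hσ x
    exact LinearMap.congr_fun (h A hA σ hσ) x
  · intro h A hA σ hσ
    exact LinearMap.ext fun x => h A hA σ hσ x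

/-- **The scalar case from the Hecke side.** -/
theorem scalarGen_of (hH : ExistsH) : ScalarGen := by
  intro p hp hp2 W hΔ hss hcard hker hirr M q hsq hq hqp hqM hpeu hunr hres hmin hsc
  classical
  have hM0 : M ≠ 0 := hsq.ne_zero
  have iM : NeZero M := ⟨hM0⟩
  -- the auxiliary prime
  have hD : M * p * W.Δ.natAbs ≠ 0 :=
    mul_ne_zero (mul_ne_zero hM0 hp.out.ne_zero) (Int.natAbs_ne_zero.mpr hΔ)
  obtain ⟨s, hs, hs12, hsD, has⟩ := auxExists p hp2 W hΔ hss hirr _ hD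
  have hsM : ¬ s ∣ M := fun h => hsD ((h.mul_right p).mul_right _)
  have hsp : s ≠ p := fun h => hsD ((Dvd.intro_left M (h ▸ rfl)).mul_right _)
  have hsΔ : W.IsGoodPrimeFor s := fun h => hsD ((Int.natCast_dvd.mp h).mul_left _)
  -- the set of scalar primes
  have hiff : ∀ r : ℕ, r.Prime → r ≠ p → (r ∉ Smin W p ↔
      ((W.map (Int.castRingHom ℚ)).residualGaloisRepOf p hcard hker).IsUnramifiedAt r) := by
    intro r hr hrp
    rw [residual_isUnramifiedAt_iff hΔ hcard hker hss hr hrp, mem_Smin, mem_Sram hΔ]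
    constructor
    · intro h
      by_contra h'
      apply h
      refine Or.inr ⟨hr, ?_, hrp, h'⟩
      by_contra hrΔ
      rw [padicValInt.eq_zero_of_not_dvd hrΔ] at h'
      exact h' (dvd_zero p)
    · rintro h (h' | h')
      · exact hrp h'
      · exact h'.2.2.2 h
  let Sg : Finset ℕ := M.primeFactors.filter fun r => r ≠ p ∧ r ∉ Smin W p
  have hmem : ∀ r, r ∈ Sg ↔ (r.Prime ∧ r ∣ M) ∧ r ≠ p ∧ r ∉ Smin W p := by
    intro r
    rw [Finset.mem_filter, Nat.mem_primeFactors]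
    tauto
  have hqSg : q ∈ Sg := (hmem q).mpr ⟨⟨hq, hqM⟩, hqp, (hiff q hq hqp).mpr hunr⟩
  obtain ⟨k, v, hvinj, hv0, hvSg, hvall⟩ := Enum.exists_enum (fun r hr => ((hmem r).mp hr).1.1) hqSg
  have hscv : ∀ l, IsScalar ((W.map (Int.castRingHom ℚ)).residualGaloisRepOf p hcard hker)
      (v l : ℕ) := by
    intro l
    obtain ⟨⟨h1, h2⟩, h3, h4⟩ := (hmem _).mp (hvSg l)
    exact hsc _ h1 h2 h3 ((hiff _ h1 h3).mp h4)
  obtain ⟨-, e, m', he, hqm, hm'⟩ := Enum.exists_pow_mul hp.out (v 0).2 (hscv 0).1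
  -- the finite set of bad primes
  let S : Finset ℕ := {p, s} ∪ M.primeFactors ∪ W.Δ.natAbs.primeFactors
  have hmemS : ∀ r, r ∈ S ↔ ((r = p ∨ r = s) ∨ (r.Prime ∧ r ∣ M)) ∨
      (r.Prime ∧ (r : ℤ) ∣ W.Δ) := by
    intro r
    have h1 := Int.natAbs_ne_zero.mpr hΔ
    rw [Finset.mem_union, Finset.mem_union, Finset.mem_insert, Finset.mem_singleton,
      Nat.mem_primeFactors, Nat.mem_primeFactors, ← Int.natCast_dvd]
    tauto
  have hpS : p ∈ S := (hmemS p).mpr (Or.inl (Or.inl (Or.inl rfl)))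
  have hsS : s ∈ S := (hmemS s).mpr (Or.inl (Or.inl (Or.inr rfl)))
  have hMS : ∀ r : ℕ, r.Prime → r ∣ M → r ∈ S := fun r hr h =>
    (hmemS r).mpr (Or.inl (Or.inr ⟨hr, h⟩))
  have hΔS : ∀ r : ℕ, r.Prime → (r : ℤ) ∣ W.Δ → r ∈ S := fun r hr h =>
    (hmemS r).mpr (Or.inr ⟨hr, h⟩)
  have hSp : ∀ r ∈ S, r.Prime := by
    intro r hr
    rcases (hmemS r).mp hr with ((rfl | rfl) | h) | h
    · exact hp.out
    · exact hs
    · exact h.1
    · exact h.1
  have hSm : Smin W p ⊆ S := by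
    intro r hr
    rcases mem_Smin.mp hr with rfl | h
    · exact hpS
    · have h1 := (mem_Sram hΔ).mp h
      exact hΔS r h1.1 h1.2.1
  -- the base ring
  obtain ⟨𝒪, i1, i2, i3, i4, i5, i6, i7, i8, i9, -, hp𝒪, hζ, ⟨ω, hω⟩, χ₀, hχ₀⟩ :=
    exists_base_mu p W hres S hpS hΔS e
  obtain ⟨ϖ, hϖ⟩ := IsDiscreteValuationRing.exists_prime 𝒪
  obtain ⟨d, hd, H⟩ := hH p hp2 W hΔ hss hirr 𝒪 hp𝒪 hζ M s hsq hres hmin hpeu hs hs12 hsM hsp hsΔ
    has k v hvinj (fun l => ((hmem _).mp (hvSg l)).1.2) (fun l => ((hmem _).mp (hvSg l)).2.1)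
    (fun l => ((hmem _).mp (hvSg l)).2.2)
    (fun r hr hrM hrp hrS => hvall r ((hmem r).mpr ⟨⟨hr, hrM⟩, hrp, hrS⟩))
    (fun l => (hscv l).1) S hSp hpS hsS hMS hΔS χ₀ hχ₀ ϖ hϖ ω e m' hω he hqm hm'
  exact false_of_H hΔ 𝒪 hss hp2 hirr hp𝒪 hζ hcard hker S hSm v hvinj
    (fun l => hMS _ (v l).2 ((hmem _).mp (hvSg l)).1.2) (fun l => ((hmem _).mp (hvSg l)).2.1)
    (fun l => (hiff _ (v l).2 ((hmem _).mp (hvSg l)).2.1).mp ((hmem _).mp (hvSg l)).2.2)
    (fun l => (hscv l).1) (fun l => (hscv l).2) (tSC_ne_ord M p)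
    (hbar_tSC hΔ hp2 hss hirr 𝒪 hp𝒪 hpeu id hpS hMS hΔS χ₀ hχ₀) hϖ hω hqm hm' hd H

end Fermat.Agent.DR.SC
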