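import Fermat.Agent.IH.PairHecke
import Fermat.Agent.TWP.Assembly
import Fermat.Agent.TWP.GW.Uncond
import Fermat.Agent.DR.SC.Hbar

/-!
# Scalar case: all the Selmer inputs for `ρbar = E[p] ⊗ k`

`false_of_H` : the contradiction in the scalar case from the Hecke side only.
-/

set_option autoImplicit false
set_option linter.style.haveILetI false

open Polynomial IsLocalRing Pointwise
open WeierstrassCurve.Affine.Point
open scoped WeierstrassCurve.Affine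

namespace Fermat.Agent.DR.SC

open Fermat.Agent.DefCond Fermat.Agent.UDef Fermat.Agent.RT.Wiring Fermat.Agent.IH
open Fermat.Agent.RT.TW (TWSet)
open Fermat.Agent.RT.TWInertia (Data)
open Fermat.Agent.TWP (adjHyp_of_isModelR locConst_of_isModelR)
open Fermat.Agent.TWP.GW (locConst_iff charP_of_det algebraMap_cycloChar)

local notation "Γℚ" => (AlgebraicClosure ℚ ≃ₐ[ℚ] AlgebraicClosure ℚ)

section

variable {W : WeierstrassCurve ℤ} (hΔ : W.Δ ≠ 0) {p : ℕ} [hp : Fact p.Prime] (𝒪 : Type)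
  [CommRing 𝒪] [IsLocalRing 𝒪] [Algebra ℤ_[p] 𝒪] [IsLocalHom (algebraMap ℤ_[p] 𝒪)]

/-- If `E[p]` is unramified at `q` then so is `ρbar`. -/
theorem rhoBar_isUnramifiedAt_of (hcard : Nat.card (Submodule.torsionBy ℤ
      ((W.map (Int.castRingHom ℚ))⁄(AlgebraicClosure ℚ)).Point p) = p ^ 2)
    (hker : GaloisFactorsThroughFiniteLevel
      (galoisRepModuleEnd (K := AlgebraicClosure ℚ) ℚ (W.map (Int.castRingHom ℚ)) p)) {q : ℕ}
    (hunr : ((W.map (Int.castRingHom ℚ)).residualGaloisRepOf p hcard hker).IsUnramifiedAt q) :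
    (rhoBar W hΔ p 𝒪).IsUnramifiedAt q := by
  have e := rhoBar_isEquiv hΔ 𝒪 hcard hker (zmodToResidue p 𝒪)
  have e' : (((W.map (Int.castRingHom ℚ)).residualGaloisRepOf p hcard hker).baseChangeAlong
      (zmodToResidue p 𝒪)).IsEquiv (rhoBar W hΔ p 𝒪) := by
    obtain ⟨e⟩ := e
    exact ⟨⟨e.toLinearEquiv.symm, fun σ y => e.toLinearEquiv.injective (by
      rw [LinearEquiv.apply_symm_apply, e.map_apply, LinearEquiv.apply_symm_apply])⟩⟩
  exact DR.ResidualCompare.isUnramifiedAt_of_isEquiv e' (isUnramifiedAt_baseChangeAlong _ _ hunr)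

end

section main

variable {W : WeierstrassCurve ℤ} (hΔ : W.Δ ≠ 0) {p : ℕ} [hp : Fact p.Prime] (𝒪 : Type)
  [CommRing 𝒪] [IsDomain 𝒪] [IsDiscreteValuationRing 𝒪] [IsAdicComplete (maximalIdeal 𝒪) 𝒪]
  [Finite (ResidueField 𝒪)] [CharZero 𝒪] [Algebra ℤ_[p] 𝒪] [IsLocalHom (algebraMap ℤ_[p] 𝒪)]

/-- **The contradiction in the scalar case** for `ρbar = E[p] ⊗ k`, from the Hecke side. -/
theorem false_of_H (hss : W.IsSemistableModel) (hp2 : p ≠ 2) (hirr : W.ModRepIsIrreducible p)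
    (hp𝒪 : (p : 𝒪) ∈ maximalIdeal 𝒪) (hζ : ∃ ζ : ResidueField 𝒪, IsPrimitiveRoot ζ (p ^ 2 - 1))
    (hcard : Nat.card (Submodule.torsionBy ℤ
      ((W.map (Int.castRingHom ℚ))⁄(AlgebraicClosure ℚ)).Point p) = p ^ 2)
    (hker : GaloisFactorsThroughFiniteLevel
      (galoisRepModuleEnd (K := AlgebraicClosure ℚ) ℚ (W.map (Int.castRingHom ℚ)) p))
    (S : Finset ℕ) (hSm : Smin W p ⊆ S)
    {k : ℕ} (v : Fin (k + 1) → Nat.Primes) (hvinj : Function.Injective v)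
    (hvS : ∀ l, (v l : ℕ) ∈ S) (hvp : ∀ l, (v l : ℕ) ≠ p)
    (hunr : ∀ l, ((W.map (Int.castRingHom ℚ)).residualGaloisRepOf p hcard hker).IsUnramifiedAt
      (v l : ℕ))
    (hv1 : ∀ l, ((v l : ℕ) : ZMod p) = 1)
    (hs : ∀ l, ∀ B : ValuationSubring (AlgebraicClosure ℚ), B.LiesOverPrime (v l : ℕ) →
      ∀ φ : Γℚ, B.IsFrobeniusAt φ (v l : ℕ) → ∃ c : ZMod p,
        ((W.map (Int.castRingHom ℚ)).residualGaloisRepOf p hcard hker).ρ φ =
          c • (1 : Module.End (ZMod p)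
            ((W.map (Int.castRingHom ℚ)).residualGaloisRepOf p hcard hker).V))
    {t : PType} (ht : t ≠ .ord)
    (hbar : dCond t 𝒪 p (Smin W p) (Smin W p)
      (GaloisRepAdic.ofResidualGaloisRep (rhoBar W hΔ p 𝒪)))
    {ϖ : 𝒪} (hϖ : Prime ϖ) {ω : 𝒪} {e m' : ℕ} (hω : IsPrimitiveRoot ω (p ^ e))
    (hqm : (v 0 : ℕ) - 1 = p ^ e * m') (hm' : ¬ p ∣ m') {d : ℕ} (hd : 0 < d)
    (H : ∀ (r n : ℕ) (Q : TWSet (rhoBar W hΔ p 𝒪) p S n r)
      (DQ : GaloisRep.DeformationRingData 𝒪 (rhoBar W hΔ p 𝒪)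
        (dCond t 𝒪 p (Smin W p ∪ (Finset.univ.image (fun l => (v l : ℕ)) ∪
          Finset.univ.image Q.q)) (Smin W p)))
      (T : ∀ i, Data DQ.ρ (Q.P i) (Q.φ i) (p ^ Q.a i)),
      (∀ i, residue DQ.R (T i).A = ResidueField.map (algebraMap 𝒪 DQ.R) (Q.α i) ∧
        residue DQ.R (T i).D = ResidueField.map (algebraMap 𝒪 DQ.R) (Q.β i)) →
      Nonempty (PairHecke t 𝒪 p (rhoBar W hΔ p 𝒪) (Smin W p) v ϖ d Q DQ T)) : False := by
  obtain ⟨Mbar, hM⟩ := exists_modelR (rhoBar W hΔ p 𝒪)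
  have habs := rhoBar_isAbsolutelyIrreducible hΔ 𝒪 hp2 hss hirr
  have hdet := rhoBar_det hΔ (p := p) 𝒪
  have hsplit := rhoBar_split hΔ (p := p) 𝒪 hζ
  have hcp : CharP (ResidueField 𝒪) p := charP_of_det hdet
  let alg : Algebra (ZMod p) (ResidueField 𝒪) := ZMod.algebra (ResidueField 𝒪) p
  have h2 : (2 : ResidueField 𝒪) ≠ 0 := TWP.Wiring.two_ne_zero_of_charP (p := p) hp2
  refine false_of_pairHecke hp2 hp𝒪 hM
    (adjHyp_of_isModelR hM h2 habs (rhoBar_HTW W hΔ hss p hp2 hirr 𝒪)) habs hdet hsplit S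
    (Smin W p) p_mem_Smin hSm (mem_Smin_iff hΔ 𝒪 hss) v hvinj hvS ?_ ?_ ?_
    (TWP.GW.gwInput hp2 h2 (algebraMap_cycloChar hM hdet)) (TWP.LocalTW.twBound h2 Mbar)
    (TWP.LocalMin.minBound p (locConst_iff.mp (locConst_of_isModelR hM)))
    (TWP.LocalOrd.ord_input hp2 hp𝒪 hM) (TWFlat.hasLocal_flat hp2 hM hdet hsplit) ht hbar hϖ hω
    hqm hm' hd H
  · intro l h
    exact ((mem_Smin_iff hΔ 𝒪 hss _ (v l).2 (hvp l)).mp h)
      (rhoBar_isUnramifiedAt_of hΔ 𝒪 hcard hker (hunr l))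
  · intro l
    have h1 : (((v l : ℕ) - 1 : ℕ) : ZMod p) = 0 := by
      rw [Nat.cast_sub (v l).2.one_lt.le, hv1 l, Nat.cast_one, sub_self]
    exact (ZMod.natCast_eq_zero_iff _ _).mp h1
  · intro l σ hσ
    exact scalar_of_frobenius hΔ 𝒪 hcard hker hM (v l).2 (hunr l) (hs l)
      (TWP.GW.primeLocalPlace_liesOverPrime (v l)) σ hσ

end main

end Fermat.Agent.DR.SC
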