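import Fermat.Agent.DR.SC.Points
import Fermat.Agent.RT.Components
import Fermat.Agent.RT.Reduced
import Fermat.Agent.RT.PointEmb
import Fermat.Agent.LR.Basic

/-!
# From a nonzero operator to a complex eigensymbol

`exists_point`: `A` a finite reduced `𝒪`-algebra acting on a finite module `X ⊆ Pairs 𝒪`; if `f : A`
does not kill `x : X` there are a complete DVR `𝒪'` finite over `𝒪`, `y : A → 𝒪'` with `y f ≠ 0`,
an embedding `j : 𝒪' → ℂ` and a nonzero `z` in the complex span of `X` with `a z = j (y a) z`.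
-/

set_option autoImplicit false
set_option linter.unusedSectionVars false

noncomputable section

open TensorProduct IsLocalRing
open Fermat.Agent.LR

namespace Fermat.Agent.DR.SC.Supp

/-- The complex span of (the image of) `X`. -/
def cspan {𝒪 X : Type*} [CommRing 𝒪] (m : 𝒪 →+* ℂ) (ι : X → Pairs 𝒪) : Submodule ℂ (Pairs ℂ) :=
  Submodule.span ℂ (Set.range fun x => mapCoeff m (ι x))

/-- Linear relations pass to the complex span. -/
theorem cspan_induction {𝒪 X : Type*} [CommRing 𝒪] {m : 𝒪 →+* ℂ} {ι : X → Pairs 𝒪}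
    {B C : Pairs ℂ →ₗ[ℂ] Pairs ℂ} (h : ∀ x, B (mapCoeff m (ι x)) = C (mapCoeff m (ι x)))
    {z : Pairs ℂ} (hz : z ∈ cspan m ι) : B z = C z := by
  refine Submodule.span_induction (p := fun z _ => B z = C z) ?_ ?_ ?_ ?_ hz
  · rintro _ ⟨x, rfl⟩; exact h x
  · rw [map_zero, map_zero]
  · intro a b _ _ ha hb; rw [map_add, map_add, ha, hb]
  · intro c a _ ha; rw [map_smul, map_smul, ha]

/-- `K ⊗ A` is reduced for `A` reduced. -/
theorem isReduced_frac_tensor (𝒪 A : Type) [CommRing 𝒪] [IsDomain 𝒪] [CommRing A] [Algebra 𝒪 A]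
    [IsReduced A] : IsReduced (FractionRing 𝒪 ⊗[𝒪] A) := by
  have : IsLocalization (Algebra.algebraMapSubmonoid A (nonZeroDivisors 𝒪))
      (A ⊗[𝒪] FractionRing 𝒪) := inferInstance
  have h1 : IsReduced (A ⊗[𝒪] FractionRing 𝒪) :=
    isReduced_localizationPreserves (Algebra.algebraMapSubmonoid A (nonZeroDivisors 𝒪))
      (A ⊗[𝒪] FractionRing 𝒪) inferInstance
  exact isReduced_of_injective (Algebra.TensorProduct.comm 𝒪 (FractionRing 𝒪) A)
    (Algebra.TensorProduct.comm 𝒪 (FractionRing 𝒪) A).injective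

section

variable {𝒪 : Type} [CommRing 𝒪] [IsDomain 𝒪] [IsDiscreteValuationRing 𝒪]
  [IsAdicComplete (maximalIdeal 𝒪) 𝒪] [Finite (ResidueField 𝒪)] [CharZero 𝒪]
variable {A : Type} [CommRing A] [Algebra 𝒪 A] [Module.Finite 𝒪 A] [IsReduced A]
variable {X : Type} [AddCommGroup X] [Module 𝒪 X] [Module.Finite 𝒪 X]

/-- pairs as functions of one variable -/
def uncurryP (ι : X →ₗ[𝒪] Pairs 𝒪) : X →ₗ[𝒪] (Cusp × Cusp → 𝒪) where
  toFun x := fun s => ι x s.1 s.2
  map_add' x y := by funext s; simp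
  map_smul' c x := by funext s; simp

theorem uncurryP_injective {ι : X →ₗ[𝒪] Pairs 𝒪} (hι : Function.Injective ι) :
    Function.Injective (uncurryP ι) := by
  intro x y h
  apply hι
  funext a b
  exact congrFun h (a, b)

omit [IsReduced A] in
/-- **From an associated prime to a complex eigensymbol.** -/
theorem exists_point_of_prime (Φ : A →ₐ[𝒪] Module.End 𝒪 X) (ι : X →ₗ[𝒪] Pairs 𝒪)
    (hι : Function.Injective ι) (P : Ideal A) (hPp : P.IsPrime) (x : X)
    (hPx : ∀ a, a ∈ P ↔ Φ a x = 0) :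
    ∃ (𝒪' : Type) (_ : CommRing 𝒪') (_ : IsDomain 𝒪') (_ : IsDiscreteValuationRing 𝒪')
      (_ : IsAdicComplete (maximalIdeal 𝒪') 𝒪') (_ : Finite (ResidueField 𝒪'))
      (_ : CharZero 𝒪') (_ : Algebra 𝒪 𝒪') (_ : Module.Finite 𝒪 𝒪') (_ : Module.Free 𝒪 𝒪')
      (_ : IsLocalHom (algebraMap 𝒪 𝒪')),
      Function.Injective (algebraMap 𝒪 𝒪') ∧ ∃ (y : A →ₐ[𝒪] 𝒪') (j : 𝒪' →+* ℂ),
        Function.Injective j ∧ RingHom.ker y = P ∧ ∃ z : Pairs ℂ, z ≠ 0 ∧
          z ∈ cspan (j.comp (algebraMap 𝒪 𝒪')) ι ∧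
          ∀ (a : A) (B : Pairs ℂ →ₗ[ℂ] Pairs ℂ),
            (∀ x : X, B (mapCoeff (j.comp (algebraMap 𝒪 𝒪')) (ι x)) =
              mapCoeff (j.comp (algebraMap 𝒪 𝒪')) (ι (Φ a x))) → B z = j (y a) • z := by
  -- torsion-freeness
  have htfP : ∀ (c : 𝒪) (z : Pairs 𝒪), c • z = 0 → c = 0 ∨ z = 0 := by
    intro c z h
    by_cases hc : c = 0
    · exact Or.inl hc
    · refine Or.inr ?_
      funext a b
      have h1 := congrFun (congrFun h a) b
      exact (mul_eq_zero.mp h1).resolve_left hc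
  have htfX : ∀ (c : 𝒪) (z : X), c • z = 0 → c = 0 ∨ z = 0 := by
    intro c z h
    rcases htfP c (ι z) (by rw [← map_smul, h, map_zero]) with h1 | h1
    · exact Or.inl h1
    · exact Or.inr (hι (by rw [h1, map_zero]))
  have itf : Module.IsTorsionFree 𝒪 X := Module.isTorsionFree_iff_smul_eq_zero.mpr fun {c z} =>
    htfX c z
  have inA : IsNoetherianRing A := IsNoetherianRing.of_finite 𝒪 A
  let _ : Module A X := Module.compHom X Φ.toRingHom
  have hsm : ∀ (t : A) (x : X), t • x = Φ t x := fun _ _ => rfl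
  have ist : IsScalarTower 𝒪 A X := ⟨fun c t x => by
    rw [hsm, hsm, map_smul]; rfl⟩
  have hP : P ∈ associatedPrimes A X := by
    show IsAssociatedPrime P X
    rw [isAssociatedPrime_iff]
    refine ⟨hPp, x, ?_⟩
    ext a
    rw [Submodule.mem_colon_singleton, Submodule.mem_bot, hsm]
    exact hPx a
  obtain ⟨𝒪', i1, i2, i3, i4, i5, i6, i7, i8, i9, i10, hinj, φ, hφ⟩ :=
    RT.Components.exists_dvr_of_isPrime 𝒪 A P (comap_eq_bot_of_associated (M := X) hP)
  obtain ⟨j, hj⟩ := RT.Point.exists_embedding_complex 𝒪'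
  refine ⟨𝒪', i1, i2, i3, i4, i5, i6, i7, i8, i9, i10, hinj, φ, j, hj, hφ, ?_⟩
  let _ : Algebra 𝒪 ℂ := (j.comp (algebraMap 𝒪 𝒪')).toAlgebra
  have ifs : FaithfulSMul 𝒪 ℂ := (faithfulSMul_iff_algebraMap_injective 𝒪 ℂ).mpr (hj.comp hinj)
  let χ : A →ₐ[𝒪] ℂ := { j.comp (φ : A →+* 𝒪') with
    commutes' := fun c => by
      show j (φ (algebraMap 𝒪 A c)) = _
      rw [AlgHom.commutes]; rfl }
  have hχ : ∀ t : A, χ t = j (φ t) := fun _ => rfl
  have hker : RingHom.ker (χ : A →+* ℂ) = P := by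
    rw [← hφ]
    ext t
    rw [RingHom.mem_ker, RingHom.mem_ker]
    show j (φ t) = 0 ↔ φ t = 0
    rw [map_eq_zero_iff j hj]
  obtain ⟨v, hv0, hv⟩ := exists_eigenvector (𝒪 := 𝒪) (T := A) (M := X) χ (by rw [hker]; exact hP)
  let E : ℂ ⊗[𝒪] X →ₗ[ℂ] (Cusp × Cusp → ℂ) := extFun (K := ℂ) (uncurryP ι)
  have hE : Function.Injective E := extFun_injective _ (uncurryP_injective hι)
  let F : ℂ ⊗[𝒪] X →ₗ[ℂ] Pairs ℂ := (LinearEquiv.curry ℂ ℂ Cusp Cusp).toLinearMap ∘ₗ E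
  have hF : ∀ (c : ℂ) (x : X), F (c ⊗ₜ x) = c • mapCoeff (j.comp (algebraMap 𝒪 𝒪')) (ι x) :=
    fun c x => rfl
  have hFinj : Function.Injective F := (LinearEquiv.curry ℂ ℂ Cusp Cusp).injective.comp hE
  refine ⟨F v, fun h => hv0 (hFinj (by rw [h, map_zero])), ?_, fun a B hB => ?_⟩
  · have h1 : ∀ w : ℂ ⊗[𝒪] X, F w ∈ cspan (j.comp (algebraMap 𝒪 𝒪')) ι := by
      intro w
      induction w using TensorProduct.induction_on with
      | zero => rw [map_zero]; exact Submodule.zero_mem _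
      | add a b ha hb => rw [map_add]; exact Submodule.add_mem _ ha hb
      | tmul c x => rw [hF]; exact Submodule.smul_mem _ _ (Submodule.subset_span ⟨x, rfl⟩)
    exact h1 v
  · have h1 : ∀ w : ℂ ⊗[𝒪] X, B (F w) = F ((Algebra.lsmul 𝒪 𝒪 X a).lTensor ℂ w) := by
      intro w
      induction w using TensorProduct.induction_on with
      | zero => simp
      | add u w hu hw => rw [map_add, map_add, map_add, map_add, hu, hw]
      | tmul c x =>
        rw [hF, map_smul, hB, LinearMap.lTensor_tmul, hF]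
        rfl
    rw [h1, hv, map_smul]
    rfl

/-- **From a nonzero operator to a complex eigensymbol.** -/
theorem exists_point (Φ : A →ₐ[𝒪] Module.End 𝒪 X) (ι : X →ₗ[𝒪] Pairs 𝒪)
    (hι : Function.Injective ι) (f : A) (x : X) (hfx : Φ f x ≠ 0) :
    ∃ (𝒪' : Type) (_ : CommRing 𝒪') (_ : IsDomain 𝒪') (_ : IsDiscreteValuationRing 𝒪')
      (_ : IsAdicComplete (maximalIdeal 𝒪') 𝒪') (_ : Finite (ResidueField 𝒪'))
      (_ : CharZero 𝒪') (_ : Algebra 𝒪 𝒪') (_ : Module.Finite 𝒪 𝒪') (_ : Module.Free 𝒪 𝒪')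
      (_ : IsLocalHom (algebraMap 𝒪 𝒪')),
      Function.Injective (algebraMap 𝒪 𝒪') ∧ ∃ (y : A →ₐ[𝒪] 𝒪') (j : 𝒪' →+* ℂ),
        Function.Injective j ∧ y f ≠ 0 ∧ ∃ z : Pairs ℂ, z ≠ 0 ∧
          z ∈ cspan (j.comp (algebraMap 𝒪 𝒪')) ι ∧
          ∀ (a : A) (B : Pairs ℂ →ₗ[ℂ] Pairs ℂ),
            (∀ x : X, B (mapCoeff (j.comp (algebraMap 𝒪 𝒪')) (ι x)) =
              mapCoeff (j.comp (algebraMap 𝒪 𝒪')) (ι (Φ a x))) → B z = j (y a) • z := by
  -- torsion-freeness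
  have htfP : ∀ (c : 𝒪) (z : Pairs 𝒪), c • z = 0 → c = 0 ∨ z = 0 := by
    intro c z h
    by_cases hc : c = 0
    · exact Or.inl hc
    · refine Or.inr ?_
      funext a b
      have h1 := congrFun (congrFun h a) b
      exact (mul_eq_zero.mp h1).resolve_left hc
  have htfX : ∀ (c : 𝒪) (z : X), c • z = 0 → c = 0 ∨ z = 0 := by
    intro c z h
    rcases htfP c (ι z) (by rw [← map_smul, h, map_zero]) with h1 | h1
    · exact Or.inl h1
    · exact Or.inr (hι (by rw [h1, map_zero]))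
  have itf : Module.IsTorsionFree 𝒪 X := Module.isTorsionFree_iff_smul_eq_zero.mpr fun {c z} =>
    htfX c z
  -- the image
  let T := A ⧸ RingHom.ker Φ
  let Ψ : T →ₐ[𝒪] Module.End 𝒪 X := Ideal.kerLiftAlg Φ
  have hΨ : ∀ a : A, Ψ (Ideal.Quotient.mk _ a) = Φ a := fun a => rfl
  have hΨinj : Function.Injective Ψ := Ideal.kerLiftAlg_injective Φ
  have ifT : Module.Finite 𝒪 T := Module.Finite.of_surjective (Ideal.Quotient.mkₐ 𝒪 _).toLinearMap
    (Ideal.Quotient.mkₐ_surjective 𝒪 (RingHom.ker Φ))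
  have itT : Module.IsTorsionFree 𝒪 T := by
    refine Module.isTorsionFree_iff_smul_eq_zero.mpr fun {c t} h => ?_
    by_cases hc : c = 0
    · exact Or.inl hc
    · refine Or.inr (hΨinj ?_)
      rw [map_zero]
      refine LinearMap.ext fun x => ?_
      have h1 : c • Ψ t x = 0 := by
        rw [← LinearMap.smul_apply, ← map_smul, h, map_zero]; rfl
      exact (htfX _ _ h1).resolve_left hc
  have irT : IsReduced T :=
    RT.Reduced.isReduced_of_surjective_of_isReduced_baseChange 𝒪 (FractionRing 𝒪) A T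
      (isReduced_frac_tensor 𝒪 A) (Ideal.Quotient.mkₐ 𝒪 _)
      (Ideal.Quotient.mkₐ_surjective 𝒪 (RingHom.ker Φ))
  have inT : IsNoetherianRing T := IsNoetherianRing.of_finite 𝒪 T
  let _ : Module T X := Module.compHom X Ψ.toRingHom
  have hsm : ∀ (t : T) (x : X), t • x = Ψ t x := fun _ _ => rfl
  have ist : IsScalarTower 𝒪 T X := ⟨fun c t x => by
    rw [hsm, hsm, map_smul]; rfl⟩
  have iint : Algebra.IsIntegral 𝒪 T := Algebra.IsIntegral.of_finite 𝒪 T
  -- the associated prime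
  obtain ⟨P, hP, hfP⟩ : ∃ P ∈ associatedPrimes T X, Ideal.Quotient.mk _ f ∉ P := by
    by_contra hcon
    push Not at hcon
    exact hfx (smul_eq_zero_of_forall_associated (𝒪 := 𝒪) (T := T) hcon x)
  have hPp : P.IsPrime := hP.1
  obtain ⟨𝒪', i1, i2, i3, i4, i5, i6, i7, i8, i9, i10, hinj, φ, hφ⟩ :=
    RT.Components.exists_dvr_of_isPrime 𝒪 T P (comap_eq_bot_of_associated (M := X) hP)
  obtain ⟨j, hj⟩ := RT.Point.exists_embedding_complex 𝒪'
  refine ⟨𝒪', i1, i2, i3, i4, i5, i6, i7, i8, i9, i10, hinj,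
    φ.comp (Ideal.Quotient.mkₐ 𝒪 _), j, hj, ?_, ?_⟩
  · intro h
    exact hfP (by rw [← hφ]; exact h)
  let _ : Algebra 𝒪 ℂ := (j.comp (algebraMap 𝒪 𝒪')).toAlgebra
  have hal : ∀ c : 𝒪, algebraMap 𝒪 ℂ c = j (algebraMap 𝒪 𝒪' c) := fun _ => rfl
  have ifs : FaithfulSMul 𝒪 ℂ := (faithfulSMul_iff_algebraMap_injective 𝒪 ℂ).mpr (hj.comp hinj)
  let χ : T →ₐ[𝒪] ℂ := { j.comp (φ : T →+* 𝒪') with
    commutes' := fun c => by
      show j (φ (algebraMap 𝒪 T c)) = _
      rw [AlgHom.commutes]; rfl }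
  have hχ : ∀ t : T, χ t = j (φ t) := fun _ => rfl
  have hker : RingHom.ker (χ : T →+* ℂ) = P := by
    rw [← hφ]
    ext t
    rw [RingHom.mem_ker, RingHom.mem_ker]
    show j (φ t) = 0 ↔ φ t = 0
    rw [map_eq_zero_iff j hj]
  obtain ⟨v, hv0, hv⟩ := exists_eigenvector (𝒪 := 𝒪) (T := T) (M := X) χ (by rw [hker]; exact hP)
  let E : ℂ ⊗[𝒪] X →ₗ[ℂ] (Cusp × Cusp → ℂ) := extFun (K := ℂ) (uncurryP ι)
  have hE : Function.Injective E := extFun_injective _ (uncurryP_injective hι)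
  let F : ℂ ⊗[𝒪] X →ₗ[ℂ] Pairs ℂ := (LinearEquiv.curry ℂ ℂ Cusp Cusp).toLinearMap ∘ₗ E
  have hF : ∀ (c : ℂ) (x : X), F (c ⊗ₜ x) = c • mapCoeff (j.comp (algebraMap 𝒪 𝒪')) (ι x) :=
    fun c x => rfl
  have hFinj : Function.Injective F := (LinearEquiv.curry ℂ ℂ Cusp Cusp).injective.comp hE
  refine ⟨F v, fun h => hv0 (hFinj (by rw [h, map_zero])), ?_, fun a B hB => ?_⟩
  · have h1 : ∀ w : ℂ ⊗[𝒪] X, F w ∈ cspan (j.comp (algebraMap 𝒪 𝒪')) ι := by
      intro w
      induction w using TensorProduct.induction_on with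
      | zero => rw [map_zero]; exact Submodule.zero_mem _
      | add a b ha hb => rw [map_add]; exact Submodule.add_mem _ ha hb
      | tmul c x => rw [hF]; exact Submodule.smul_mem _ _ (Submodule.subset_span ⟨x, rfl⟩)
    exact h1 v
  · have h1 : ∀ w : ℂ ⊗[𝒪] X, B (F w) =
        F ((Algebra.lsmul 𝒪 𝒪 X (Ideal.Quotient.mk (RingHom.ker Φ) a : T)).lTensor ℂ w) := by
      intro w
      induction w using TensorProduct.induction_on with
      | zero => simp
      | add u w hu hw => rw [map_add, map_add, map_add, map_add, hu, hw]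
      | tmul c x =>
        rw [hF, map_smul, hB, LinearMap.lTensor_tmul, hF]
        rfl
    rw [h1, hv, map_smul]
    rfl

end

end Fermat.Agent.DR.SC.Supp
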