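import Fermat.Agent.DR.SC.SuppAlg
import Fermat.Agent.RT.PointSC
import Fermat.Agent.RT.PointRep
import Fermat.Agent.RT.TwistHInj
import Fermat.Agent.RT.TwistHNew
import Fermat.Agent.Petersson.Reduced
import Fermat.Agent.IntStr.HeckeFinite
import Fermat.Agent.RT.HeckeLocalFields

/-!
# Points of the Hecke module at level `Γ_H` and newforms

`exists_newform_point`: for an associated prime `P` of the Hecke module `X` of symbols of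
level `GammaH N₁ Q₁ ψ₁`, there is a point `y : heckeLocal → 𝒪'`, `ker y = P`, a newform `g` with
the same eigenvalues, and a diamond-eigensymbol `w` in the complex span of `X` whose twist is a
nonzero eigensymbol of level `Γ₀(N₁ Q₁²)`.
-/

set_option autoImplicit false
set_option linter.unusedSectionVars false

noncomputable section

open Matrix Matrix.SpecialLinearGroup CongruenceSubgroup IsLocalRing CuspForm ModularFormClass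
open scoped MatrixGroups OnePoint

namespace Fermat.Agent.DR.SC.Supp

open Fermat.Agent.LR Fermat.Agent.LR.PS Fermat.Agent.RT Fermat.Agent.RT.TwistH
  Fermat.Agent.RT.Point Fermat.Agent.Newform

section cspan

variable {𝒪 X : Type*} [CommRing 𝒪] [AddCommGroup X] [Module 𝒪 X]

theorem mapCoeff_smul' {𝒪 R : Type*} [CommRing 𝒪] [CommRing R] (m : 𝒪 →+* R) (c : 𝒪)
    (x : Pairs 𝒪) : mapCoeff m (c • x) = m c • mapCoeff m x := by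
  funext a b
  show m (c * x a b) = m c * m (x a b)
  rw [map_mul]

theorem finite_cspan [Module.Finite 𝒪 X] (m : 𝒪 →+* ℂ) (ι : X →ₗ[𝒪] Pairs 𝒪) :
    Module.Finite ℂ (cspan m ι) := by
  obtain ⟨s, hs⟩ := (Module.finite_def (R := 𝒪) (M := X)).mp inferInstance
  have h1 : cspan m ι ≤ Submodule.span ℂ ((fun x => mapCoeff m (ι x)) '' (s : Set X)) := by
    refine Submodule.span_le.mpr ?_
    rintro _ ⟨x, rfl⟩
    have hx : x ∈ Submodule.span 𝒪 (s : Set X) := by rw [hs]; trivial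
    refine Submodule.span_induction (p := fun x _ => mapCoeff m (ι x) ∈
      Submodule.span ℂ ((fun x => mapCoeff m (ι x)) '' (s : Set X))) ?_ ?_ ?_ ?_ hx
    · intro x hx; exact Submodule.subset_span ⟨x, hx, rfl⟩
    · rw [map_zero, map_zero]; exact Submodule.zero_mem _
    · intro a b _ _ ha hb; rw [map_add, map_add]; exact Submodule.add_mem _ ha hb
    · intro c a _ ha; rw [map_smul, mapCoeff_smul']; exact Submodule.smul_mem _ _ ha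
  have h2 : Module.Finite ℂ (Submodule.span ℂ ((fun x => mapCoeff m (ι x)) '' (s : Set X))) :=
    Module.Finite.span_of_finite ℂ (s.finite_toSet.image _)
  exact Submodule.finiteDimensional_of_le h1

theorem cspan_le (m : 𝒪 →+* ℂ) (ι : X → Pairs 𝒪) {V : Submodule ℂ (Pairs ℂ)}
    (h : ∀ x, mapCoeff m (ι x) ∈ V) : cspan m ι ≤ V := by
  refine Submodule.span_le.mpr ?_
  rintro _ ⟨x, rfl⟩
  exact h x

theorem map_mem_cspan {m : 𝒪 →+* ℂ} {ι : X → Pairs 𝒪} (B : Pairs ℂ →ₗ[ℂ] Pairs ℂ)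
    (h : ∀ x, B (mapCoeff m (ι x)) ∈ cspan m ι) {w : Pairs ℂ} (hw : w ∈ cspan m ι) :
    B w ∈ cspan m ι :=
  cspan_le m ι (V := (cspan m ι).comap B) h hw

end cspan

theorem mapCoeff_D {R R' : Type*} [CommRing R] [CommRing R'] (f : R →+* R') {N Q : ℕ}
    {Δ : Type*} [CommGroup Δ] {ψ : (ZMod Q)ˣ →* Δ} (δ : Δ) (x : Pairs R) :
    mapCoeff f (D N Q ψ δ x) = D N Q ψ δ (mapCoeff f x) := rfl

theorem mapCoeff_TH {R R' : Type*} [CommRing R] [CommRing R'] (f : R →+* R') {N Q : ℕ}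
    {Δ : Type*} [CommGroup Δ] {ψ : (ZMod Q)ˣ →* Δ} (ℓ : ℕ) (x : Pairs R) :
    mapCoeff f (TH N Q ψ ℓ x) = TH N Q ψ ℓ (mapCoeff f x) := by
  rw [TH_apply, TH_apply, map_add, mapCoeff_heckeU]
  rfl

section dia

variable {N Q : ℕ} {Δ : Type*} [CommGroup Δ] {ψ : (ZMod Q)ˣ →* Δ}

/-- A common eigenvector of the diamond operators. -/
theorem exists_dia_eigenvector (H : TwHyp N Q ψ) (V : Submodule ℂ (Pairs ℂ))
    [FiniteDimensional ℂ V] (hV : V ≤ MS (GammaH N Q ψ) ℂ)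
    (hD : ∀ δ, ∀ w ∈ V, D N Q ψ δ w ∈ V) (hV0 : V ≠ ⊥) :
    ∃ w ∈ V, w ≠ 0 ∧ ∃ χ : Δ →* ℂ, ∀ δ, D N Q ψ δ w = χ δ • w := by
  let A : Set (Module.End ℂ V) := Set.range fun δ => (D N Q ψ δ : Pairs ℂ →ₗ[ℂ] Pairs ℂ).restrict (hD δ)
  have hnt : Nontrivial V := Submodule.nontrivial_iff_ne_bot.2 hV0
  obtain ⟨v, -, hv0, hvA⟩ := exists_common_eigenvector A (by
    rintro _ ⟨δ, rfl⟩ _ ⟨ε, rfl⟩
    refine LinearMap.ext fun x => Subtype.ext ?_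
    show D N Q ψ δ (D N Q ψ ε (x : Pairs ℂ)) = D N Q ψ ε (D N Q ψ δ (x : Pairs ℂ))
    rw [D_D H (hV x.2), D_D H (hV x.2), mul_comm]) ⊤ top_ne_bot (fun _ _ _ _ => trivial)
  have h1 : ∀ δ, ∃ c : ℂ, D N Q ψ δ (v : Pairs ℂ) = c • (v : Pairs ℂ) := by
    intro δ
    obtain ⟨c, hc⟩ := hvA _ ⟨δ, rfl⟩
    exact ⟨c, congrArg Subtype.val hc⟩
  choose c hc using h1
  have hv0' : (v : Pairs ℂ) ≠ 0 := fun h => hv0 (Subtype.ext h)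
  refine ⟨v, v.2, hv0', ⟨⟨c, ?_⟩, ?_⟩, hc⟩
  · have h2 := hc 1
    rw [D_one H (hV v.2)] at h2
    have h3 : (c 1 - 1) • (v : Pairs ℂ) = 0 := by rw [sub_smul, one_smul, ← h2, sub_self]
    exact sub_eq_zero.mp ((smul_eq_zero.mp h3).resolve_right hv0')
  · intro δ ε
    have h2 := hc (δ * ε)
    rw [← D_D H (hV v.2), hc ε, map_smul, hc δ, smul_smul] at h2
    have h3 : (c (δ * ε) - c δ * c ε) • (v : Pairs ℂ) = 0 := by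
      rw [sub_smul, ← h2, mul_comm, sub_self]
    exact sub_eq_zero.mp ((smul_eq_zero.mp h3).resolve_right hv0')

/-- the twist of a diamond-eigensymbol does not vanish. -/
theorem Tw_ne_zero (H : TwHyp N Q ψ) [NeZero Q] {w : Pairs ℂ} (hw : w ∈ MS (GammaH N Q ψ) ℂ)
    (hw0 : w ≠ 0) {χ : Δ →* ℂ} (hχ : ∀ δ, D N Q ψ δ w = χ δ • w) : Tw N Q ψ w ≠ 0 := by
  intro h
  refine hw0 (Tw_injective H (nTor_of_charZero ℂ) (hInv_of_mem hw) fun ε => ?_)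
  rw [hχ, map_smul, h, smul_zero]

end dia

section main

variable {𝒪 : Type} [CommRing 𝒪] [IsDomain 𝒪] [IsDiscreteValuationRing 𝒪]
  [IsAdicComplete (maximalIdeal 𝒪) 𝒪] [Finite (ResidueField 𝒪)] [CharZero 𝒪]

/-- `X` is a module of symbols of level `GammaH N₁ Q₁ ψ₁`, stable under diamonds, on which
`heckeLocal M SQ 𝒪 θ` acts through the twisted operators. -/
structure HMod (𝒪 : Type) [CommRing 𝒪] [IsDomain 𝒪] [IsDiscreteValuationRing 𝒪]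
    [IsAdicComplete (maximalIdeal 𝒪) 𝒪] (N₁ Q₁ : ℕ) {Δ₁ : Type*} [CommGroup Δ₁]
    (ψ₁ : (ZMod Q₁)ˣ →* Δ₁) (M : ℕ) [NeZero M] (SQ : Finset ℕ)
    [Fact (HasIntegralStructure M 2)]
    (θ : heckeAlgebra M 2 (↑SQ : Set ℕ) →+* ResidueField 𝒪) (X : Type) [AddCommGroup X]
    [Module 𝒪 X] where
  hSM : ∀ ℓ : ℕ, ℓ.Prime → ℓ ∣ M → ℓ ∈ SQ
  hSN : ∀ ℓ : ℕ, ℓ.Prime → ℓ ∣ N₁ * Q₁ → ℓ ∈ SQ
  Φ : heckeLocal M (↑SQ : Set ℕ) 𝒪 θ →ₐ[𝒪] Module.End 𝒪 X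
  ι : X →ₗ[𝒪] Pairs 𝒪
  inj : Function.Injective ι
  mem : ∀ x, ι x ∈ MS (GammaH N₁ Q₁ ψ₁) 𝒪
  hΦ : ∀ (ℓ : ℕ) (hℓ : ℓ.Prime) (hℓM : ¬ ℓ ∣ M) (hℓS : ℓ ∉ (↑SQ : Set ℕ)) (x : X),
    ι (Φ (heckeLocal.π M (↑SQ : Set ℕ) 𝒪 θ (heckeAlgebra.T hℓ hℓM hℓS)) x) =
      TH N₁ Q₁ ψ₁ ℓ (ι x)
  hD : ∀ (δ : Δ₁) (x : X), ∃ x' : X, ι x' = D N₁ Q₁ ψ₁ δ (ι x)

variable {N₁ Q₁ : ℕ} {Δ₁ : Type*} [CommGroup Δ₁] {ψ₁ : (ZMod Q₁)ˣ →* Δ₁}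
variable {M : ℕ} [NeZero M] {SQ : Finset ℕ} [Fact (HasIntegralStructure M 2)]
variable {θ : heckeAlgebra M 2 (↑SQ : Set ℕ) →+* ResidueField 𝒪}
variable {X : Type} [AddCommGroup X] [Module 𝒪 X] [Module.Finite 𝒪 X]

/-- **Newforms behind the points of a Hecke module.** -/
theorem exists_newform_point (H : TwHyp N₁ Q₁ ψ₁) [NeZero Q₁] (W : HMod 𝒪 N₁ Q₁ ψ₁ M SQ θ X)
    (P : Ideal (heckeLocal M (↑SQ : Set ℕ) 𝒪 θ)) (hPp : P.IsPrime) (x : X)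
    (hPx : ∀ a, a ∈ P ↔ W.Φ a x = 0) :
    ∃ (𝒪' : Type) (_ : CommRing 𝒪') (_ : IsDomain 𝒪') (_ : IsDiscreteValuationRing 𝒪')
      (_ : IsAdicComplete (maximalIdeal 𝒪') 𝒪') (_ : Finite (ResidueField 𝒪'))
      (_ : CharZero 𝒪') (_ : Algebra 𝒪 𝒪') (_ : Module.Finite 𝒪 𝒪') (_ : Module.Free 𝒪 𝒪')
      (_ : IsLocalHom (algebraMap 𝒪 𝒪')),
      Function.Injective (algebraMap 𝒪 𝒪') ∧
      ∃ (y : heckeLocal M (↑SQ : Set ℕ) 𝒪 θ →ₐ[𝒪] 𝒪') (j : 𝒪' →+* ℂ),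
        Function.Injective j ∧ RingHom.ker y = P ∧
        ∃ (L : ℕ) (_ : NeZero L) (g : CuspForm (Gamma0 L) 2), L ∣ M ∧ g.IsNewform ∧
          (∀ (ℓ : ℕ) (hℓ : ℓ.Prime) (hℓM : ¬ ℓ ∣ M) (hℓS : ℓ ∉ (↑SQ : Set ℕ)),
            qCoeff ⇑g ℓ = j (y (heckeLocal.π M (↑SQ : Set ℕ) 𝒪 θ (heckeAlgebra.T hℓ hℓM hℓS)))) ∧
          ∃ w : Pairs ℂ, w ∈ cspan (j.comp (algebraMap 𝒪 𝒪')) W.ι ∧ w ≠ 0 ∧
            w ∈ MS (GammaH N₁ Q₁ ψ₁) ℂ ∧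
            (∃ χ : Δ₁ →* ℂ, ∀ δ, D N₁ Q₁ ψ₁ δ w = χ δ • w) ∧
            Tw N₁ Q₁ ψ₁ w ∈ eigMS (N₁ * Q₁ ^ 2) (↑SQ : Set ℕ) (qCoeff ⇑g) ∧
            Tw N₁ Q₁ ψ₁ w ≠ 0 := by
  obtain ⟨𝒪', i1, i2, i3, i4, i5, i6, i7, i8, i9, i10, hinj, y, j, hj, hyf, z, hz0, hz, hzB⟩ :=
    exists_point_of_prime W.Φ W.ι W.inj P hPp x hPx
  obtain ⟨L, iL, g, hLM, hg, hga⟩ := Point.exists_newform j
    ((y : heckeLocal M (↑SQ : Set ℕ) 𝒪 θ →+* 𝒪').comp (heckeLocal.π M (↑SQ : Set ℕ) 𝒪 θ))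
  have hga' : ∀ (ℓ : ℕ) (hℓ : ℓ.Prime) (hℓM : ¬ ℓ ∣ M) (hℓS : ℓ ∉ (↑SQ : Set ℕ)),
      qCoeff ⇑g ℓ = j (y (heckeLocal.π M (↑SQ : Set ℕ) 𝒪 θ (heckeAlgebra.T hℓ hℓM hℓS))) :=
    fun ℓ hℓ hℓM hℓS => hga ℓ hℓ hℓM hℓS
  refine ⟨𝒪', i1, i2, i3, i4, i5, i6, i7, i8, i9, i10, hinj, y, j, hj, hyf, L, iL, g, hLM, hg,
    hga', ?_⟩
  set m := j.comp (algebraMap 𝒪 𝒪') with hm
  have hle : cspan m W.ι ≤ MS (GammaH N₁ Q₁ ψ₁) ℂ :=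
    cspan_le m W.ι fun x => mapCoeff_mem m (W.mem x)
  have hnd : ∀ ℓ : ℕ, ℓ.Prime → ℓ ∉ (↑SQ : Set ℕ) → ¬ ℓ ∣ N₁ * Q₁ := fun ℓ hℓ hℓS h =>
    hℓS (Finset.mem_coe.mpr (W.hSN ℓ hℓ h))
  have hndM : ∀ ℓ : ℕ, ℓ.Prime → ℓ ∉ (↑SQ : Set ℕ) → ¬ ℓ ∣ M := fun ℓ hℓ hℓS h =>
    hℓS (Finset.mem_coe.mpr (W.hSM ℓ hℓ h))
  -- the eigenspace
  let V : Submodule ℂ (Pairs ℂ) :=
    { carrier := {w | w ∈ cspan m W.ι ∧ ∀ ℓ : ℕ, ℓ.Prime → ℓ ∉ (↑SQ : Set ℕ) →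
        TH N₁ Q₁ ψ₁ ℓ w = qCoeff ⇑g ℓ • w}
      add_mem' := fun {a b} ha hb => ⟨Submodule.add_mem _ ha.1 hb.1, fun ℓ hℓ hS => by
        rw [map_add, ha.2 ℓ hℓ hS, hb.2 ℓ hℓ hS, smul_add]⟩
      zero_mem' := ⟨Submodule.zero_mem _, fun ℓ _ _ => by rw [map_zero, smul_zero]⟩
      smul_mem' := fun c a ha => ⟨Submodule.smul_mem _ _ ha.1, fun ℓ hℓ hS => by
        rw [map_smul, ha.2 ℓ hℓ hS, smul_comm]⟩ }
  have hVle : V ≤ cspan m W.ι := fun w hw => hw.1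
  have hfd : FiniteDimensional ℂ (cspan m W.ι) := finite_cspan m W.ι
  have hfV : FiniteDimensional ℂ V := Submodule.finiteDimensional_of_le hVle
  have hzV : z ∈ V := by
    refine ⟨hz, fun ℓ hℓ hℓS => ?_⟩
    rw [hga' ℓ hℓ (hndM ℓ hℓ hℓS) hℓS]
    refine hzB _ _ fun x => ?_
    rw [← mapCoeff_TH, W.hΦ]
  obtain ⟨w, hwV, hw0, χ, hχ⟩ := exists_dia_eigenvector H V (hVle.trans hle) (by
    intro δ w hw
    refine ⟨?_, fun ℓ hℓ hℓS => ?_⟩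
    · refine map_mem_cspan _ (fun x => ?_) hw.1
      obtain ⟨x', hx'⟩ := W.hD δ x
      rw [← mapCoeff_D, ← hx']
      exact Submodule.subset_span ⟨x', rfl⟩
    · rw [← D_TH H hℓ (hnd ℓ hℓ hℓS) (hInv_of_mem (hle hw.1)), hw.2 ℓ hℓ hℓS, map_smul])
    (fun h => hz0 (by rw [h] at hzV; exact (Submodule.mem_bot ℂ).mp hzV))
  have hwMS := hle (hVle hwV)
  refine ⟨w, hVle hwV, hw0, hwMS, ⟨χ, hχ⟩, ⟨Tw_mem H hwMS, fun ℓ hℓ hℓS => ?_⟩,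
    Tw_ne_zero H hwMS hw0 hχ⟩
  rw [heckeT_Tw H hℓ (hnd ℓ hℓ hℓS) (hInv_of_mem hwMS), hwV.2 ℓ hℓ hℓS, map_smul]

end main

end Fermat.Agent.DR.SC.Supp
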