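import Fermat.Agent.RT.TwistH

/-!
# Trace and Atkin–Lehner operator at an auxiliary prime `q` on `MS (GammaH (N q) Q ψ)`

`q ∤ NQ`. For `y ∈ MS (GammaH (N q) Q ψ)`:

* `W y = wOp (D ψ(q)⁻¹ y)` preserves `MS (GammaH (N q) Q ψ)`, commutes with all operators and
  `W² = D ψ(q)⁻¹`;
* `trH y = y + U_q (W y) ∈ MS (GammaH N Q ψ)`.

Consequence (`heckeU_heckeU_of_trace`): if `trH` vanishes on `y` and `W y`, then
`U_q² y = D ψ(q) y`.
-/

set_option autoImplicit false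

open Matrix Matrix.SpecialLinearGroup CongruenceSubgroup
open scoped MatrixGroups OnePoint

noncomputable section

namespace Fermat.Agent.DR.SC.TraceH

open Fermat.Agent.LR Fermat.Agent.LR.PS Fermat.Agent.RT Fermat.Agent.RT.TwistH
open ModularCurve.Period

variable {R : Type*} [CommRing R]
variable {N Q q : ℕ} {Δ : Type*} [CommGroup Δ] {ψ : (ZMod Q)ˣ →* Δ}

/-- standing hypotheses -/
structure Hyp (N Q q : ℕ) {Δ : Type*} [CommGroup Δ] (ψ : (ZMod Q)ˣ →* Δ) : Prop where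
  tw : TwHyp (N * q) Q ψ
  prime : q.Prime
  hqN : ¬ q ∣ N

theorem level_eq (N Q q : ℕ) : N * Q * q = N * q * Q := by ring

variable (H : Hyp N Q q ψ)
include H

theorem Hyp.tw0 : TwHyp N Q ψ :=
  ⟨fun h => H.tw.hN (by rw [h, zero_mul]), H.tw.cop.coprime_mul_right, H.tw.sqf, H.tw.surj,
    H.tw.odd⟩

theorem Hyp.copQ : q.Coprime Q := H.tw.cop.coprime_mul_left

theorem Hyp.hqNQ : ¬ q ∣ N * Q := by
  intro h
  rcases H.prime.dvd_mul.mp h with h | h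
  · exact H.hqN h
  · exact H.prime.one_lt.ne' (Nat.Coprime.eq_one_of_dvd H.copQ h)

theorem Hyp.cop : Nat.Coprime q (N * Q) := (Nat.Prime.coprime_iff_not_dvd H.prime).mpr H.hqNQ

theorem Hyp.q0 : q ≠ 0 := H.prime.ne_zero

omit H in
/-- `ψ(q)` -/
def dq (Q q : ℕ) {Δ : Type*} [CommGroup Δ] (ψ : (ZMod Q)ˣ →* Δ) : Δ :=
  if h : q.Coprime Q then ψ (ZMod.unitOfCoprime q h) else 1

theorem dq_eq : dq Q q ψ = ψ (ZMod.unitOfCoprime q H.copQ) := by rw [dq, dif_pos H.copQ]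

omit H in
theorem mem_of_mem' {γ : SL(2, ℤ)} (h : γ ∈ Gamma0 (N * q * Q)) : γ ∈ Gamma0 (N * Q) :=
  Gamma0_mono ⟨q, (level_eq N Q q).symm⟩ h

omit H in
theorem mem_swap {γ : SL(2, ℤ)} : γ ∈ Gamma0 (N * Q * q) ↔ γ ∈ Gamma0 (N * q * Q) := by
  rw [level_eq]

/-! ### the Atkin–Lehner operator -/

omit H in
theorem alGamma_lr {M q Q : ℕ} (h : Nat.Coprime q M) :
    ((alGamma M q 1 1 : ℤ) : ZMod Q) = (q : ZMod Q) := by
  obtain ⟨a, c, hac, h1⟩ := exists_alGamma h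
  rw [h1]; simp [mkSL]

theorem isUnit_q : IsUnit ((q : ℕ) : ZMod Q) := (ZMod.isUnit_iff_coprime q Q).mpr H.copQ

/-- `w` normalises `Γ₀(NqQ)`, and does not change the lower right entry mod `Q`. -/
theorem wMat_mulH {γ : SL(2, ℤ)} (hγ : γ ∈ Gamma0 (N * q * Q)) :
    ∃ γ' ∈ Gamma0 (N * q * Q), wMat (N * Q) q * toQ γ = toQ γ' * wMat (N * Q) q ∧
      ((γ' 1 1 : ℤ) : ZMod Q) = ((γ 1 1 : ℤ) : ZMod Q) := by
  obtain ⟨γ', h1, h2⟩ := wMat_mul H.q0 H.cop (mem_swap.mpr hγ)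
  refine ⟨γ', mem_swap.mp h1, h2, ?_⟩
  obtain ⟨a, c, -, hw⟩ := val_wMat H.q0 H.cop
  have h3 := congrFun (congrFun (congrArg (fun m : GL (Fin 2) ℚ =>
    (m : Matrix (Fin 2) (Fin 2) ℚ)) h2) 1) 1
  simp only [val_mul', Matrix.mul_apply, Fin.sum_univ_two, toQ_entry, hw] at h3
  simp only [Matrix.of_apply, Matrix.cons_val', Matrix.cons_val_zero, Matrix.cons_val_one,
    Matrix.cons_val_fin_one] at h3
  have h4 : ((N * Q : ℕ) : ℤ) * c * q * γ 0 1 + q * γ 1 1 = γ' 1 0 * 1 + γ' 1 1 * q := by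
    exact_mod_cast h3
  have h5 := congrArg (Int.cast : ℤ → ZMod Q) h4
  have h6 : ((γ' 1 0 : ℤ) : ZMod Q) = 0 := (ZMod.intCast_zmod_eq_zero_iff_dvd _ _).mpr
    ((Int.natCast_dvd_natCast.mpr ((dvd_mul_left Q N).mul_right q)).trans
      (mem_Gamma0_iff.mp h1))
  push_cast at h5
  rw [h6] at h5
  simp only [ZMod.natCast_self, mul_zero, zero_mul, zero_add] at h5
  rw [mul_comm] at h5
  exact ((isUnit_q H).mul_right_cancel h5).symm

theorem slash_wOp {x : Pairs R} (hx : HInv (N * q) Q ψ x) (γ : Gamma0 (N * q * Q)) :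
    slash (toQ (γ : SL(2, ℤ))) (wOp (N * Q) q x) =
      wOp (N * Q) q (TwistH.D (N * q) Q ψ (dia (N * q) Q ψ γ) x) := by
  obtain ⟨γ', h1, h2, h3⟩ := wMat_mulH H γ.2
  rw [wOp_apply, wOp_apply, ← slash_mul, h2, slash_mul, hx.slash_eq H.tw ⟨γ', h1⟩]
  congr 3
  rw [dia_eq, dia_eq]
  congr 1
  exact dQ_eq (by rw [dQ_val, ← h3])

theorem HInv_wOp {x : Pairs R} (hx : HInv (N * q) Q ψ x) :
    HInv (N * q) Q ψ (wOp (N * Q) q x) := by
  intro γ hγ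
  rw [slash_wOp H hx, hγ, hx.D_one H.tw]

theorem D_wOp {x : Pairs R} (hx : HInv (N * q) Q ψ x) (δ : Δ) :
    TwistH.D (N * q) Q ψ δ (wOp (N * Q) q x) = wOp (N * Q) q (TwistH.D (N * q) Q ψ δ x) := by
  rw [D_apply δ (wOp (N * Q) q x), slash_wOp H hx, dia_gam H.tw]

theorem wOp_wOpH {x : Pairs R} (hx : HInv (N * q) Q ψ x) :
    wOp (N * Q) q (wOp (N * Q) q x) = TwistH.D (N * q) Q ψ (dq Q q ψ) x := by
  obtain ⟨γ, h1, h2⟩ := wMat_sq (N := N * Q) H.q0 H.cop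
  rw [wOp_apply, wOp_apply, ← slash_mul,
    slash_congr (by exact_mod_cast H.q0) h2, dq_eq H]
  refine hx.slash_eq' H.tw (mem_swap.mp h1) _ ?_
  obtain ⟨a, c, -, hw⟩ := val_wMat H.q0 H.cop
  have h3 := congrFun (congrFun h2 1) 1
  simp only [val_mul', Matrix.mul_apply, Fin.sum_univ_two, hw, Matrix.smul_apply, toQ_entry] at h3
  simp only [Matrix.of_apply, Matrix.cons_val', Matrix.cons_val_zero, Matrix.cons_val_one,
    Matrix.cons_val_fin_one, smul_eq_mul, mul_one] at h3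
  have hq0 : (q : ℚ) ≠ 0 := by exact_mod_cast H.q0
  have h4 : ((N * Q : ℕ) : ℚ) * c + q = ((γ 1 1 : ℤ) : ℚ) := by
    have : (q : ℚ) * (((N * Q : ℕ) : ℚ) * c + q) = q * ((γ 1 1 : ℤ) : ℚ) := by
      rw [← h3]; ring
    exact mul_left_cancel₀ hq0 this
  have h5 : ((N * Q : ℕ) : ℤ) * c + q = γ 1 1 := by exact_mod_cast h4
  rw [← h5, ZMod.coe_unitOfCoprime]
  push_cast
  simp

/-- `A w = g (w B')` for suitable upper triangular `A, B, B'`. -/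
theorem exists_triMat_wMat {M : ℕ} (hcop : Nat.Coprime q M) (hQM : Q ∣ M)
    {a b d a' b' b'' d' : ℤ} (had : a * d ≠ 0)
    (had' : a' * d' ≠ 0) (hqd : ¬ (q : ℤ) ∣ d') {g' : SL(2, ℤ)} (hg' : g' ∈ Gamma0 M)
    (h1 : triMat a b d * toQ (alGamma M q) = toQ g' * triMat a' b' d')
    (hb : b' ≡ q * b'' [ZMOD d']) :
    ∃ g ∈ Gamma0 (M * q), triMat a b d * wMat M q = toQ g * (wMat M q * triMat a' b'' d') ∧
      ((g 1 1 : ℤ) : ZMod Q) * (q : ZMod Q) = ((g' 1 1 : ℤ) : ZMod Q) := by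
  have hq := H.prime
  have hq0 : q ≠ 0 := H.q0
  obtain ⟨k, hk⟩ := hb.symm.dvd
  -- `B δ = T^k δ B'`
  have e1 : triMat a' b' d' * diagMat q =
      toQ (ModularGroup.T ^ k) * diagMat q * triMat a' b'' d' := by
    apply Units.ext
    rw [val_mul', val_mul', val_mul', val_toQ_T_zpow, val_diagMat hq0, val_triMat _ had',
      val_triMat _ had']
    have hk' : (b' : ℚ) = q * b'' + d' * k := by
      have : b' = q * b'' + d' * k := by linarith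
      exact_mod_cast this
    ext i j
    fin_cases i <;> fin_cases j <;> simp [Matrix.mul_apply, Fin.sum_univ_two]
    · ring
    · rw [hk']; ring
  set g : SL(2, ℤ) := g' * ModularGroup.T ^ k * (alGamma M q)⁻¹ with hg
  have e2 : triMat a b d * wMat M q = toQ g * (wMat M q * triMat a' b'' d') := by
    calc triMat a b d * wMat M q = (triMat a b d * toQ (alGamma M q)) * diagMat q := by
          rw [wMat]; group
      _ = toQ g' * (triMat a' b' d' * diagMat q) := by rw [h1]; group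
      _ = toQ g' * (toQ (ModularGroup.T ^ k) * diagMat q * triMat a' b'' d') := by rw [e1]
      _ = toQ g * (wMat M q * triMat a' b'' d') := by
          have e3 : toQ (alGamma M q)⁻¹ = (toQ (alGamma M q))⁻¹ := map_inv _ _
          rw [hg, wMat, toQ_mul, toQ_mul, e3]; group
  have hgN : g ∈ Gamma0 M :=
    mul_mem (mul_mem hg' (T_zpow_mem_Gamma0 M k)) (inv_mem (alGamma_mem M q))
  have hgq : (q : ℤ) ∣ g 1 0 := by
    obtain ⟨u, c, -, hw⟩ := val_wMat hq0 hcop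
    have h2 := congrArg (fun m : GL (Fin 2) ℚ => (m : Matrix (Fin 2) (Fin 2) ℚ) 1 1) e2
    simp only [val_mul', val_toQ, hw, val_triMat _ had, val_triMat _ had'] at h2
    simp [Matrix.mul_apply, Fin.sum_univ_two] at h2
    have h3 : d * q = (g 1 0 * (u * q) + g 1 1 * (M * c * q)) * b'' +
        (g 1 0 + g 1 1 * q) * d' := by
      have h2' : ((d * q : ℤ) : ℚ) = (((g 1 0 * (u * q) + g 1 1 * (M * c * q)) * b'' +
        (g 1 0 + g 1 1 * q) * d' : ℤ) : ℚ) := by push_cast; linear_combination h2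
      exact_mod_cast h2'
    have h4 : (q : ℤ) ∣ g 1 0 * d' := by
      refine ⟨d - (g 1 0 * u + g 1 1 * (M * c)) * b'' - g 1 1 * d', ?_⟩
      linear_combination -h3
    exact (Int.Prime.dvd_mul' hq h4).resolve_right hqd
  have hgNq : g ∈ Gamma0 (M * q) := by
    rw [mem_Gamma0_iff]
    push_cast
    exact IsCoprime.mul_dvd (Nat.isCoprime_iff_coprime.mpr hcop.symm) (mem_Gamma0_iff.mp hgN) hgq
  refine ⟨g, hgNq, e2, ?_⟩
  -- the lower right entry: `g α = g' T^k`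
  have h5 : g * alGamma M q = g' * ModularGroup.T ^ k := by rw [hg]; group
  have h6' := congrFun (congrFun (congrArg (fun m : SL(2, ℤ) =>
    (toQ m : Matrix (Fin 2) (Fin 2) ℚ)) h5) 1) 1
  simp only [toQ_mul, val_mul', Matrix.mul_apply, Fin.sum_univ_two, toQ_entry,
    ModularGroup.coe_T_zpow] at h6'
  have h6 : g 1 0 * alGamma M q 0 1 + g 1 1 * alGamma M q 1 1 = g' 1 0 * k + g' 1 1 := by
    simp only [Matrix.of_apply, Matrix.cons_val', Matrix.cons_val_zero, Matrix.cons_val_one,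
      Matrix.cons_val_fin_one, Int.cast_one, mul_one] at h6'
    exact_mod_cast h6'
  have h7 := congrArg (Int.cast : ℤ → ZMod Q) h6
  have hz : ∀ {γ : SL(2, ℤ)}, γ ∈ Gamma0 M → ((γ 1 0 : ℤ) : ZMod Q) = 0 := fun {γ} h =>
    (ZMod.intCast_zmod_eq_zero_iff_dvd _ _).mpr
      ((Int.natCast_dvd_natCast.mpr hQM).trans (mem_Gamma0_iff.mp h))
  push_cast at h7
  rw [hz hgN, hz hg', alGamma_lr hcop] at h7
  simpa using h7

theorem TH_wOp {ℓ : ℕ} (hℓ : ℓ.Prime) (hℓN : ¬ ℓ ∣ N * q * Q) {y : Pairs R}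
    (hy : HInv (N * q) Q ψ y) :
    TH (N * q) Q ψ ℓ (wOp (N * Q) q y) = wOp (N * Q) q (TH (N * q) Q ψ ℓ y) := by
  have : Fact ℓ.Prime := ⟨hℓ⟩
  have hq := H.prime
  have hℓ0 : (ℓ : ℤ) ≠ 0 := by exact_mod_cast hℓ.ne_zero
  have hℓq : ℓ ≠ q := fun h => hℓN (h ▸ (dvd_mul_left q N).mul_right Q)
  have hℓNQ : ¬ ℓ ∣ N * Q := fun h => hℓN (h.trans ⟨q, (level_eq N Q q).symm⟩)
  have hℓQ : ℓ.Coprime Q := (Nat.Prime.coprime_iff_not_dvd hℓ).mpr fun h => hℓN (h.mul_left _)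
  have hcop : Nat.Coprime q ℓ := (Nat.coprime_primes hq hℓ).mpr (Ne.symm hℓq)
  obtain ⟨u, hu⟩ := (ZMod.isUnit_iff_coprime q ℓ).mpr hcop
  have hqℓ : ¬ (q : ℤ) ∣ ℓ := by
    rw [Int.natCast_dvd_natCast, Nat.prime_dvd_prime_iff_eq hq hℓ]; exact Ne.symm hℓq
  have hq1 : ¬ (q : ℤ) ∣ 1 := by
    intro h
    exact hq.one_lt.ne' (by exact_mod_cast Int.eq_one_of_dvd_one (by positivity) h)
  rw [TH_eq_sum H.tw hℓQ, TH_eq_sum H.tw hℓQ, map_sum]
  simp only [D_wOp H hy]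
  rw [← Equiv.sum_comp ((MulAction.toPerm (redMat ℓ (alGamma (N * Q) q))).trans
    (onePointPerm (Units.mulLeft u⁻¹)))
    (fun s => slash (heckeRepQ ℓ s) (wOp (N * Q) q
      (TwistH.D (N * q) Q ψ (wN ψ ℓ * (ψ (lrU hℓQ s))⁻¹) y)))]
  refine Finset.sum_congr rfl fun s _ => ?_
  rw [wOp_apply, wOp_apply, ← slash_mul, ← slash_mul]
  obtain ⟨g', hg', h1, h2⟩ := heckeRepQ_mul' (Q := Q) hℓNQ (dvd_mul_left Q N)
    (alGamma (N * Q) q) (mem_Gamma0_iff.mp (alGamma_mem (N * Q) q)) s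
  have hg'' := mem_Gamma0_iff.mpr hg'
  rw [alGamma_lr H.cop] at h2
  symm
  simp only [Equiv.trans_apply, MulAction.toPerm_apply]
  generalize redMat ℓ (alGamma (N * Q) q) • s = t at h1 h2 ⊢
  -- common treatment
  have key : ∀ (t' : OnePoint (ZMod ℓ)) (g : SL(2, ℤ)), g ∈ Gamma0 (N * Q * q) →
      heckeRepQ ℓ s * wMat (N * Q) q = toQ g * (wMat (N * Q) q * heckeRepQ ℓ t') →
      ((g 1 1 : ℤ) : ZMod Q) * (q : ZMod Q) = ((g' 1 1 : ℤ) : ZMod Q) → lrU hℓQ t' = lrU hℓQ t →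
      slash (heckeRepQ ℓ s * wMat (N * Q) q)
          (TwistH.D (N * q) Q ψ (wN ψ ℓ * (ψ (lrU hℓQ s))⁻¹) y) =
        slash (wMat (N * Q) q * heckeRepQ ℓ t')
          (TwistH.D (N * q) Q ψ (wN ψ ℓ * (ψ (lrU hℓQ t'))⁻¹) y) := by
    intro t' g hg e hgg ht'
    have hgu : ((g 1 1 : ℤ) : ZMod Q) = ((lrU hℓQ s * (lrU hℓQ t')⁻¹ : (ZMod Q)ˣ) : ZMod Q) := by
      have h3 : ((lrE ℓ s : ℕ) : ZMod Q) = ((g 1 1 : ℤ) : ZMod Q) * ((lrE ℓ t : ℕ) : ZMod Q) := by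
        rw [← hgg] at h2
        refine (isUnit_q H).mul_right_cancel ?_
        rw [h2]; ring
      rw [← lrU_val hℓQ, ← lrU_val hℓQ, ← ht'] at h3
      rw [Units.val_mul, h3, mul_assoc, Units.mul_inv, mul_one]
    rw [e, slash_mul, (hy.D _).slash_eq' H.tw (mem_swap.mp hg) _ hgu, hy.D_D H.tw]
    congr 2
    rw [map_mul, map_inv]
    have hcomm : ∀ a b c : Δ, a * b⁻¹ * (c * a⁻¹) = c * b⁻¹ := fun a b c => by
      rw [mul_comm c a⁻¹, ← mul_assoc, mul_comm a b⁻¹, mul_assoc b⁻¹, mul_inv_cancel, mul_one,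
        mul_comm]
    rw [hcomm]
  have hs : ∃ a b d : ℤ, a * d ≠ 0 ∧ heckeRepQ ℓ s = triMat a b d := by
    induction s using OnePoint.rec with
    | infty => exact ⟨ℓ, 0, 1, by simpa using hℓ0, rfl⟩
    | coe j => exact ⟨1, j.val, ℓ, by simpa using hℓ0, rfl⟩
  obtain ⟨a, b, d, had, hs⟩ := hs
  have h1' := h1
  rw [hs] at h1'
  induction t using OnePoint.rec with
  | infty =>
    obtain ⟨g, hg, e, hgg⟩ := exists_triMat_wMat (a' := ℓ) (b' := 0) (b'' := 0) (d' := 1) H H.cop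
      (dvd_mul_left Q N) had (by simpa using hℓ0) hq1 hg'' h1' (by simp)
    rw [← hs] at e
    exact key ∞ g hg e hgg rfl
  | coe j =>
    obtain ⟨g, hg, e, hgg⟩ := exists_triMat_wMat (a' := 1) (b' := j.val)
      (b'' := ((u⁻¹ * j : ZMod ℓ)).val) (d' := ℓ) H H.cop
      (dvd_mul_left Q N) had (by simpa using hℓ0) hqℓ hg'' h1' (by
        rw [← ZMod.intCast_eq_intCast_iff, Int.cast_mul, Int.cast_natCast, Int.cast_natCast,
          Int.cast_natCast, ZMod.natCast_zmod_val, ZMod.natCast_zmod_val, ← hu,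
          Units.mul_inv_cancel_left])
    rw [← hs] at e
    exact key _ g hg e hgg rfl

theorem heckeU_wOpH {r : ℕ} (hr : r.Prime) (hrN : r ∣ N * Q)
    {y : Pairs R} (hy : HInv (N * q) Q ψ y) :
    heckeU r (wOp (N * Q) q y) = wOp (N * Q) q (heckeU r y) := by
  have : NeZero r := ⟨hr.ne_zero⟩
  have hq := H.prime
  have hr0 : (r : ℤ) ≠ 0 := by exact_mod_cast hr.ne_zero
  have hrq : q ≠ r := fun h => H.hqNQ (h ▸ hrN)
  have hcop : Nat.Coprime q r := (Nat.coprime_primes hq hr).mpr hrq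
  obtain ⟨u, hu⟩ := (ZMod.isUnit_iff_coprime q r).mpr hcop
  have hqr : ¬ (q : ℤ) ∣ r := by
    rw [Int.natCast_dvd_natCast, Nat.prime_dvd_prime_iff_eq hq hr]; exact hrq
  have hα := mem_Gamma0_iff.mp (alGamma_mem (N * Q) q)
  obtain ⟨π, hπ⟩ := heckeMat_mul_of_dvd (q := r) (alGamma (N * Q) q)
    ((Int.natCast_dvd_natCast.mpr hrN).trans hα)
  rw [wOp_apply, wOp_apply, heckeU_eq_sum_zmod, heckeU_eq_sum_zmod, map_sum]
  rw [← Equiv.sum_comp (π.trans (Units.mulLeft u⁻¹))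
    (fun s : ZMod r => slash (heckeMat r (s.val : ℤ)) (slash (wMat (N * Q) q) y))]
  refine Finset.sum_congr rfl fun s _ => ?_
  rw [← slash_mul, ← slash_mul]
  obtain ⟨g', hg', h1⟩ := hπ s
  have hg'' : g' ∈ Gamma0 (N * Q) := by
    rw [mem_Gamma0_iff, hg']; exact Dvd.dvd.mul_left hα _
  symm
  obtain ⟨g, hg, e, hgg⟩ := exists_triMat_wMat (a := 1) (b := s.val) (d := r) (a' := 1)
    (b' := (π s).val) (b'' := ((u⁻¹ * π s : ZMod r)).val) (d' := r) H H.cop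
    (dvd_mul_left Q N) (by simpa using hr0) (by simpa using hr0) hqr hg'' h1 (by
      rw [← ZMod.intCast_eq_intCast_iff, Int.cast_mul, Int.cast_natCast, Int.cast_natCast,
        Int.cast_natCast, ZMod.natCast_zmod_val, ZMod.natCast_zmod_val, ← hu,
        Units.mul_inv_cancel_left])
  have hg1 : ((g' 1 1 : ℤ) : ZMod Q) = (q : ZMod Q) := by
    have h3 := congrFun (congrFun (congrArg (fun m : GL (Fin 2) ℚ =>
      (m : Matrix (Fin 2) (Fin 2) ℚ)) h1) 1) 1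
    simp only [val_mul', Matrix.mul_apply, Fin.sum_univ_two, toQ_entry,
      val_heckeMat hr.ne_zero] at h3
    simp only [Matrix.of_apply, Matrix.cons_val', Matrix.cons_val_zero, Matrix.cons_val_one,
      Matrix.cons_val_fin_one, zero_mul, zero_add] at h3
    rw [hg'] at h3
    have hr' : (r : ℚ) ≠ 0 := by exact_mod_cast hr.ne_zero
    have h4 : ((alGamma (N * Q) q 1 1 : ℤ) : ℚ) =
        ((alGamma (N * Q) q 1 0 : ℤ) : ℚ) * ((π s).val : ℤ) + ((g' 1 1 : ℤ) : ℚ) := by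
      push_cast at h3 ⊢
      have : (r : ℚ) * ((alGamma (N * Q) q 1 1 : ℤ) : ℚ) =
          r * (((alGamma (N * Q) q 1 0 : ℤ) : ℚ) * ((π s).val : ℚ) + ((g' 1 1 : ℤ) : ℚ)) := by
        rw [h3]; ring
      exact mul_left_cancel₀ hr' this
    have h5 : alGamma (N * Q) q 1 1 = alGamma (N * Q) q 1 0 * ((π s).val : ℤ) + g' 1 1 := by
      exact_mod_cast h4
    have h6 := congrArg (Int.cast : ℤ → ZMod Q) h5
    have h7 : ((alGamma (N * Q) q 1 0 : ℤ) : ZMod Q) = 0 :=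
      (ZMod.intCast_zmod_eq_zero_iff_dvd _ _).mpr
        ((Int.natCast_dvd_natCast.mpr (dvd_mul_left Q N)).trans hα)
    push_cast at h6
    rw [h7, zero_mul, zero_add, alGamma_lr H.cop] at h6
    exact h6.symm
  have hg2 : ((g 1 1 : ℤ) : ZMod Q) = ((1 : (ZMod Q)ˣ) : ZMod Q) := by
    rw [hg1] at hgg
    refine (isUnit_q H).mul_right_cancel ?_
    rw [hgg, Units.val_one, one_mul]
  have e' : heckeMat r (s.val : ℤ) * wMat (N * Q) q =
      toQ g * (wMat (N * Q) q * heckeMat r (((u⁻¹ * π s : ZMod r)).val : ℤ)) := e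
  rw [e', slash_mul, hy.slash_eq' H.tw (mem_swap.mp hg) _ hg2, map_one, hy.D_one H.tw]
  rfl

theorem wOp_jMat {y : Pairs R} (hy : HInv (N * q) Q ψ y) :
    wOp (N * Q) q (slash jMat y) = slash jMat (wOp (N * Q) q y) := by
  obtain ⟨a, c, hac, h1⟩ := exists_alGamma H.cop
  set n : ℤ := ((N * Q : ℕ) : ℤ) with hn
  set δ : SL(2, ℤ) := mkSL (a * q + n * c) (-(2 * a)) (-(2 * (n * c) * q)) (n * c + a * q) (by
    linear_combination (a * q - n * c + 1) * hac) with hδ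
  have h2 : toQ (jConjSL (alGamma (N * Q) q)) = toQ δ * toQ (alGamma (N * Q) q) := by
    have hac' : (a : ℚ) * q - n * c = 1 := by
      have : a * q - n * c = 1 := by linear_combination hac
      exact_mod_cast this
    have hnq : (n : ℚ) = N * Q := by rw [hn]; push_cast; rfl
    apply Units.ext
    rw [val_mul', h1, hδ, val_toQ_mkSL, val_toQ_mkSL, val_toQ]
    ext i j
    fin_cases i <;> fin_cases j <;> simp [Matrix.mul_apply, Fin.sum_univ_two]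
    · linear_combination (-(a : ℚ)) * hac' + (-2 * a * c : ℚ) * hnq
    · linear_combination hac'
    · linear_combination (n * c : ℚ) * hac' + (c * (1 + q * a + c * n) : ℚ) * hnq
    · linear_combination (-(q : ℚ)) * hac'
  have e : jMat * wMat (N * Q) q = toQ δ * (wMat (N * Q) q * jMat) := by
    rw [wMat, mul_assoc (toQ (alGamma (N * Q) q)) (diagMat q) jMat,
      ← jMat_mul_diagMat H.q0, ← mul_assoc jMat, jMat_mul_toQ, h2]
    group
  have hmem : δ ∈ Gamma0 (N * q * Q) := by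
    rw [mem_Gamma0_iff]
    refine ⟨-2 * c, ?_⟩
    simp [hδ, mkSL, hn]
    ring
  have h3 : ((δ 1 1 : ℤ) : ZMod Q) = ((1 : (ZMod Q)ˣ) : ZMod Q) := by
    have h4 : δ 1 1 = 1 + 2 * (n * c) := by
      simp [hδ, mkSL]
      linear_combination hac
    rw [h4, hn]; push_cast; simp
  rw [wOp_apply, wOp_apply, ← slash_mul, ← slash_mul, e, slash_mul,
    hy.slash_eq' H.tw hmem _ h3, map_one, hy.D_one H.tw]

/-! ### the operator `W` and the trace -/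

omit H in
/-- the normalised Atkin–Lehner operator -/
def W (N Q q : ℕ) {Δ : Type*} [CommGroup Δ] (ψ : (ZMod Q)ˣ →* Δ) : Pairs R →ₗ[R] Pairs R :=
  wOp (N * Q) q ∘ₗ TwistH.D (N * q) Q ψ (dq Q q ψ)⁻¹

omit H in
theorem W_apply (x : Pairs R) :
    W N Q q ψ x = wOp (N * Q) q (TwistH.D (N * q) Q ψ (dq Q q ψ)⁻¹ x) := rfl

theorem HInv_W {x : Pairs R} (hx : HInv (N * q) Q ψ x) : HInv (N * q) Q ψ (W N Q q ψ x) := by
  rw [W_apply]
  exact HInv_wOp H (hx.D _)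

theorem W_mem {x : Pairs R} (hx : x ∈ MS (GammaH (N * q) Q ψ) R) :
    W N Q q ψ x ∈ MS (GammaH (N * q) Q ψ) R :=
  mem_MS_GammaH.mpr ⟨slash_add_of_add (slash_add_of_add hx.1 _) _, HInv_W H (hInv_of_mem hx)⟩

theorem D_W {x : Pairs R} (hx : HInv (N * q) Q ψ x) (δ : Δ) :
    TwistH.D (N * q) Q ψ δ (W N Q q ψ x) = W N Q q ψ (TwistH.D (N * q) Q ψ δ x) := by
  rw [W_apply, W_apply, D_wOp H (hx.D _), hx.D_D H.tw, hx.D_D H.tw, mul_comm δ]

theorem W_W {x : Pairs R} (hx : HInv (N * q) Q ψ x) :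
    W N Q q ψ (W N Q q ψ x) = TwistH.D (N * q) Q ψ (dq Q q ψ)⁻¹ x := by
  rw [W_apply, W_apply, D_wOp H (hx.D _), wOp_wOpH H ((hx.D _).D _), hx.D_D H.tw, hx.D_D H.tw]
  congr 2
  group

theorem TH_W {ℓ : ℕ} (hℓ : ℓ.Prime) (hℓN : ¬ ℓ ∣ N * q * Q) {x : Pairs R}
    (hx : HInv (N * q) Q ψ x) :
    TH (N * q) Q ψ ℓ (W N Q q ψ x) = W N Q q ψ (TH (N * q) Q ψ ℓ x) := by
  rw [W_apply, W_apply, TH_wOp H hℓ hℓN (hx.D _), D_TH H.tw hℓ hℓN hx]

theorem heckeU_W {r : ℕ} (hr : r.Prime) (hrN : r ∣ N * Q) {x : Pairs R}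
    (hx : HInv (N * q) Q ψ x) : heckeU r (W N Q q ψ x) = W N Q q ψ (heckeU r x) := by
  rw [W_apply, W_apply, heckeU_wOpH H hr hrN (hx.D _),
    D_heckeU H.tw hr.ne_zero (hrN.trans ⟨q, (level_eq N Q q).symm⟩) hx]

theorem W_jMat {x : Pairs R} (hx : HInv (N * q) Q ψ x) :
    W N Q q ψ (slash jMat x) = slash jMat (W N Q q ψ x) := by
  rw [W_apply, W_apply, D_jMat H.tw hx, wOp_jMat H (hx.D _)]

omit H in
/-- the trace from level `Nq` to level `N` -/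
def trH (N Q q : ℕ) {Δ : Type*} [CommGroup Δ] (ψ : (ZMod Q)ˣ →* Δ) : Pairs R →ₗ[R] Pairs R :=
  LinearMap.id + heckeU q ∘ₗ W N Q q ψ

omit H in
theorem trH_apply (x : Pairs R) : trH N Q q ψ x = x + heckeU q (W N Q q ψ x) := rfl

omit H in
/-- the diamond attached to a representative -/
def dl (Q q : ℕ) {Δ : Type*} [CommGroup Δ] (ψ : (ZMod Q)ˣ →* Δ) (s : OnePoint (ZMod q)) : Δ :=
  s.elim 1 (fun _ => (dq Q q ψ)⁻¹)

theorem trH_eq_sum [NeZero q] {y : Pairs R} (hy : HInv (N * q) Q ψ y) :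
    trH N Q q ψ y = ∑ s : OnePoint (ZMod q),
      slash (toQ (repSL (N * Q) q s)) (TwistH.D (N * q) Q ψ (dl Q q ψ s) y) := by
  have hq : q ≠ 0 := NeZero.ne q
  have h1 : heckeU q (W N Q q ψ y) =
      ∑ j : ZMod q, slash (toQ (repSL (N * Q) q (j : OnePoint (ZMod q))))
        (TwistH.D (N * q) Q ψ (dl Q q ψ (j : OnePoint (ZMod q))) y) := by
    rw [heckeU_eq_sum_zmod]
    refine Finset.sum_congr rfl fun j _ => ?_
    rw [W_apply, wOp_apply, ← slash_mul,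
      slash_congr (by exact_mod_cast hq) (val_wMat_mul_heckeMat hq _)]
    rfl
  rw [trH_apply, h1]
  have h2 : y = slash (toQ (repSL (N * Q) q ∞)) (TwistH.D (N * q) Q ψ (dl Q q ψ ∞) y) := by
    have h3 : dl Q q ψ (∞ : OnePoint (ZMod q)) = 1 := rfl
    rw [h3, hy.D_one H.tw]
    simp
  have h3 := (Fintype.sum_option (fun s : OnePoint (ZMod q) =>
    slash (toQ (repSL (N * Q) q s)) (TwistH.D (N * q) Q ψ (dl Q q ψ s) y))).symm
  calc y + ∑ j : ZMod q, slash (toQ (repSL (N * Q) q (j : OnePoint (ZMod q))))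
        (TwistH.D (N * q) Q ψ (dl Q q ψ (j : OnePoint (ZMod q))) y)
      = slash (toQ (repSL (N * Q) q ∞)) (TwistH.D (N * q) Q ψ (dl Q q ψ ∞) y) +
        ∑ j : ZMod q, slash (toQ (repSL (N * Q) q (j : OnePoint (ZMod q))))
        (TwistH.D (N * q) Q ψ (dl Q q ψ (j : OnePoint (ZMod q))) y) := by
          rw [← h2]
    _ = _ := h3

theorem dia_repSL (s : OnePoint (ZMod q)) :
    dia N Q ψ ⟨repSL (N * Q) q s, repSL_mem (N * Q) q s⟩ = (dl Q q ψ s)⁻¹ := by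
  induction s using OnePoint.rec with
  | infty =>
    have h3 : dl Q q ψ (∞ : OnePoint (ZMod q)) = 1 := rfl
    rw [h3, inv_one]
    exact map_one _
  | coe j =>
    have h3 : dl Q q ψ (j : OnePoint (ZMod q)) = (dq Q q ψ)⁻¹ := rfl
    rw [h3, inv_inv]
    have h4 : (⟨repSL (N * Q) q (j : OnePoint (ZMod q)), repSL_mem (N * Q) q j⟩ :
        Gamma0 (N * Q)) = ⟨alGamma (N * Q) q, alGamma_mem (N * Q) q⟩ *
        ⟨ModularGroup.T ^ (j.val : ℤ), T_zpow_mem_Gamma0 (N * Q) _⟩ := rfl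
    rw [h4, map_mul, dia_T_zpow, mul_one, dia_eq, dq_eq H]
    congr 1
    apply dQ_eq
    rw [ZMod.coe_unitOfCoprime]
    exact alGamma_lr H.cop

omit H in
theorem dia_eq_dia {γ : SL(2, ℤ)} (h1 : γ ∈ Gamma0 (N * Q)) (h2 : γ ∈ Gamma0 (N * q * Q)) :
    dia (N * q) Q ψ ⟨γ, h2⟩ = dia N Q ψ ⟨γ, h1⟩ := by
  rw [dia_eq, dia_eq]
  congr 1
  exact dQ_eq (by rw [dQ_val])

omit H in
theorem HInv_mono {x : Pairs R} (hx : HInv N Q ψ x) : HInv (N * q) Q ψ x := by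
  intro γ hγ
  have h1 := hx ⟨(γ : SL(2, ℤ)), mem_of_mem' γ.2⟩ (by
    rw [← hγ]; exact (dia_eq_dia (mem_of_mem' γ.2) γ.2).symm)
  exact h1

theorem D_eq_D {x : Pairs R} (hx : HInv N Q ψ x) (δ : Δ) :
    TwistH.D (N * q) Q ψ δ x = TwistH.D N Q ψ δ x := by
  have h1 := hx.slash_eq H.tw0 ⟨(gam (N * q) Q ψ δ : SL(2, ℤ)), mem_of_mem' (gam (N * q) Q ψ δ).2⟩
  rw [← dia_eq_dia (mem_of_mem' (gam (N * q) Q ψ δ).2) (gam (N * q) Q ψ δ).2] at h1
  have h2 : dia (N * q) Q ψ ⟨(gam (N * q) Q ψ δ : SL(2, ℤ)), (gam (N * q) Q ψ δ).2⟩ = δ :=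
    dia_gam H.tw δ
  rw [h2] at h1
  exact h1

theorem TH_eq_TH {x : Pairs R} (hx : HInv N Q ψ x) (ℓ : ℕ) :
    TH (N * q) Q ψ ℓ x = TH N Q ψ ℓ x := by
  rw [TH_apply, TH_apply, D_eq_D H hx, D_eq_D H hx]

theorem trH_mem {y : Pairs R} (hy : y ∈ MS (GammaH (N * q) Q ψ) R) :
    trH N Q q ψ y ∈ MS (GammaH N Q ψ) R := by
  have : Fact q.Prime := ⟨H.prime⟩
  have hyi := hInv_of_mem hy
  rw [trH_eq_sum H hyi, mem_MS_GammaH]
  refine ⟨sum_apply_add _ fun s => slash_add_of_add (slash_add_of_add hy.1 _) _,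
    fun γ hγ => ?_⟩
  rw [map_sum, ← Equiv.sum_comp (MulAction.toPerm (redMat q (γ : SL(2, ℤ))))
    (fun s => slash (toQ (repSL (N * Q) q s)) (TwistH.D (N * q) Q ψ (dl Q q ψ s) y))]
  refine Finset.sum_congr rfl fun s _ => ?_
  obtain ⟨γ', h1, h2⟩ := repSL_mul H.hqNQ γ.2 s
  have h1' := mem_swap.mp h1
  have h1'' : γ' ∈ Gamma0 (N * Q) := mem_of_mem' h1'
  rw [← slash_mul, ← map_mul, h2, map_mul, slash_mul, (hyi.D _).slash_eq H.tw ⟨γ', h1'⟩,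
    hyi.D_D H.tw, MulAction.toPerm_apply]
  congr 2
  have h3 : (⟨repSL (N * Q) q s, repSL_mem (N * Q) q s⟩ : Gamma0 (N * Q)) * γ =
      ⟨γ', h1''⟩ * ⟨repSL (N * Q) q (redMat q (γ : SL(2, ℤ)) • s), repSL_mem (N * Q) q _⟩ :=
    Subtype.ext h2
  have h4 := congrArg (dia N Q ψ) h3
  rw [map_mul, map_mul, hγ, mul_one, dia_repSL H, dia_repSL H, ← dia_eq_dia h1'' h1'] at h4
  have h5 : dia (N * q) Q ψ ⟨γ', h1'⟩ =
      (dl Q q ψ s)⁻¹ * dl Q q ψ (redMat q (γ : SL(2, ℤ)) • s) := by rw [h4]; group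
  have h6 : ∀ a b : Δ, a⁻¹ * b * a = b := fun a b => by
    rw [mul_comm (a⁻¹ * b) a, ← mul_assoc, mul_inv_cancel, one_mul]
  rw [h5, h6]

theorem TH_trH {ℓ : ℕ} (hℓ : ℓ.Prime) (hℓN : ¬ ℓ ∣ N * q * Q) {y : Pairs R}
    (hy : y ∈ MS (GammaH (N * q) Q ψ) R) :
    TH N Q ψ ℓ (trH N Q q ψ y) = trH N Q q ψ (TH (N * q) Q ψ ℓ y) := by
  have hyi := hInv_of_mem hy
  have hℓq : ℓ ≠ q := fun h => hℓN (h ▸ (dvd_mul_left q N).mul_right Q)
  rw [← TH_eq_TH H (hInv_of_mem (trH_mem H hy)), trH_apply, trH_apply, map_add,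
    TH_heckeU H.tw hℓ H.q0 ((dvd_mul_left q N).mul_right Q)
      ((Nat.coprime_primes hℓ H.prime).mpr hℓq) (HInv_W H hyi), TH_W H hℓ hℓN hyi]

theorem heckeU_trH {r : ℕ} (hr : r.Prime) (hrN : r ∣ N * Q) {y : Pairs R}
    (hy : y ∈ MS (GammaH (N * q) Q ψ) R) :
    heckeU r (trH N Q q ψ y) = trH N Q q ψ (heckeU r y) := by
  rw [trH_apply, trH_apply, map_add, heckeU_comm r q hr.ne_zero H.q0,
    heckeU_W H hr hrN (hInv_of_mem hy)]

theorem trH_jMat {y : Pairs R} (hy : y ∈ MS (GammaH (N * q) Q ψ) R) :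
    trH N Q q ψ (slash jMat y) = slash jMat (trH N Q q ψ y) := by
  rw [trH_apply, trH_apply, map_add, W_jMat H (hInv_of_mem hy),
    heckeU_jMat (HInv_W H (hInv_of_mem hy)).tInv H.q0]

/-- if the trace vanishes on `y` and `W y` then `U_q² y = D ψ(q) y`. -/
theorem heckeU_heckeU_of_trace {y : Pairs R} (hy : y ∈ MS (GammaH (N * q) Q ψ) R)
    (h1 : trH N Q q ψ y = 0) (h2 : trH N Q q ψ (W N Q q ψ y) = 0) :
    heckeU q (heckeU q y) = TwistH.D (N * q) Q ψ (dq Q q ψ) y := by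
  have hyi := hInv_of_mem hy
  rw [trH_apply] at h1
  rw [trH_apply, W_W H hyi] at h2
  have h3 : W N Q q ψ y = -heckeU q (TwistH.D (N * q) Q ψ (dq Q q ψ)⁻¹ y) :=
    eq_neg_of_add_eq_zero_left h2
  rw [h3, map_neg, ← sub_eq_add_neg, sub_eq_zero] at h1
  have hqN : q ∣ N * q * Q := (dvd_mul_left q N).mul_right Q
  have h4 := congrArg (TwistH.D (N * q) Q ψ (dq Q q ψ)) h1
  rw [D_heckeU H.tw H.q0 hqN ((hyi.D _).heckeU H.tw H.q0 hqN), D_heckeU H.tw H.q0 hqN (hyi.D _),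
    hyi.D_D H.tw, mul_inv_cancel, hyi.D_one H.tw] at h4
  exact h4.symm

/-! ### localised parts -/

section part

variable {𝒪 : Type*} [CommRing 𝒪]

omit H in
theorem map_mem_nilSub {X : Type*} [AddCommGroup X] [Module 𝒪 X] (L : X →ₗ[𝒪] X)
    (T T' : Module.End 𝒪 X) (V : Submodule 𝒪 X) (hV : ∀ x ∈ V, T' x ∈ V)
    (hL : ∀ x ∈ V, T (L x) = L (T' x)) {x : X} (hx : x ∈ V) (h : x ∈ nilSub T') :
    L x ∈ nilSub T := by
  intro c hc
  obtain ⟨n, z, hz⟩ := h c hc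
  refine ⟨n, L z, ?_⟩
  rw [← map_smul, ← hz]
  clear hz
  induction n generalizing x with
  | zero => rfl
  | succ n ih =>
    rw [pow_succ, pow_succ, Module.End.mul_apply, Module.End.mul_apply, hL x hx]
    exact ih (hV x hx) (fun c hc => by
      obtain ⟨n, z, hz⟩ := h c hc
      refine ⟨n, T' z, ?_⟩
      rw [← Module.End.mul_apply, ← pow_succ, pow_succ', Module.End.mul_apply, hz, map_smul])

omit H in
/-- the operators defining the localisation: `TH ℓ - t ℓ` for `ℓ ∈ P`, `U_r - α r` for `r ∈ I`. -/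
def opsH (N Q : ℕ) {Δ : Type*} [CommGroup Δ] (ψ : (ZMod Q)ˣ →* Δ) (P : Set ℕ) (t : ℕ → 𝒪)
    (I : Set ℕ) (α : ℕ → 𝒪) : Set (Module.End 𝒪 (Pairs 𝒪)) :=
  {T | ∃ ℓ ∈ P, T = TH N Q ψ ℓ - t ℓ • LinearMap.id} ∪
    {T | ∃ r ∈ I, T = heckeU r - α r • LinearMap.id}

variable {P I : Set ℕ} {t α : ℕ → 𝒪}

theorem trH_mem_part (hP : ∀ ℓ ∈ P, ℓ.Prime ∧ ¬ ℓ ∣ N * q * Q) (hI : ∀ r ∈ I, r.Prime ∧ r ∣ N * Q)
    {ε : ℤ} {y : Pairs 𝒪}
    (hy : y ∈ part (sgnMS 𝒪 ε (GammaH (N * q) Q ψ)) (opsH (N * q) Q ψ P t I α)) :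
    trH N Q q ψ y ∈ part (sgnMS 𝒪 ε (GammaH N Q ψ)) (opsH N Q ψ P t I α) := by
  obtain ⟨hy1, hy2⟩ := mem_part.mp hy
  obtain ⟨hy1, hy3⟩ := mem_sgnMS.mp hy1
  refine mem_part.mpr ⟨mem_sgnMS.mpr ⟨trH_mem H hy1, ?_⟩, ?_⟩
  · rw [← trH_jMat H hy1, hy3, map_smul]
  · rintro T (⟨ℓ, hℓ, rfl⟩ | ⟨r, hr, rfl⟩)
    · refine map_mem_nilSub (trH N Q q ψ) _ (TH (N * q) Q ψ ℓ - t ℓ • LinearMap.id)
        (MS (GammaH (N * q) Q ψ) 𝒪) (fun x hx => ?_) (fun x hx => ?_) hy1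
        (hy2 _ (Or.inl ⟨ℓ, hℓ, rfl⟩))
      · exact Submodule.sub_mem _ (TH_mem H.tw (hP ℓ hℓ).1 (hP ℓ hℓ).2 hx)
          (Submodule.smul_mem _ _ hx)
      · rw [LinearMap.sub_apply, LinearMap.sub_apply, map_sub, TH_trH H (hP ℓ hℓ).1 (hP ℓ hℓ).2 hx]
        simp
    · have hr' : r ∣ N * q * Q := (hI r hr).2.trans ⟨q, (level_eq N Q q).symm⟩
      refine map_mem_nilSub (trH N Q q ψ) _ (heckeU r - α r • LinearMap.id)
        (MS (GammaH (N * q) Q ψ) 𝒪) (fun x hx => ?_) (fun x hx => ?_) hy1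
        (hy2 _ (Or.inr ⟨r, hr, rfl⟩))
      · exact Submodule.sub_mem _ (heckeU_mem_GammaH H.tw (hI r hr).1.ne_zero hr' hx)
          (Submodule.smul_mem _ _ hx)
      · rw [LinearMap.sub_apply, LinearMap.sub_apply, map_sub,
          heckeU_trH H (hI r hr).1 (hI r hr).2 hx]
        simp

theorem W_mem_part (hP : ∀ ℓ ∈ P, ℓ.Prime ∧ ¬ ℓ ∣ N * q * Q) (hI : ∀ r ∈ I, r.Prime ∧ r ∣ N * Q)
    {ε : ℤ} {y : Pairs 𝒪}
    (hy : y ∈ part (sgnMS 𝒪 ε (GammaH (N * q) Q ψ)) (opsH (N * q) Q ψ P t I α)) :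
    W N Q q ψ y ∈ part (sgnMS 𝒪 ε (GammaH (N * q) Q ψ)) (opsH (N * q) Q ψ P t I α) := by
  obtain ⟨hy1, hy2⟩ := mem_part.mp hy
  obtain ⟨hy1, hy3⟩ := mem_sgnMS.mp hy1
  refine mem_part.mpr ⟨mem_sgnMS.mpr ⟨W_mem H hy1, ?_⟩, ?_⟩
  · rw [← W_jMat H (hInv_of_mem hy1), hy3, map_smul]
  · rintro T (⟨ℓ, hℓ, rfl⟩ | ⟨r, hr, rfl⟩)
    · refine map_mem_nilSub (W N Q q ψ) _ (TH (N * q) Q ψ ℓ - t ℓ • LinearMap.id)
        (MS (GammaH (N * q) Q ψ) 𝒪) (fun x hx => ?_) (fun x hx => ?_) hy1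
        (hy2 _ (Or.inl ⟨ℓ, hℓ, rfl⟩))
      · exact Submodule.sub_mem _ (TH_mem H.tw (hP ℓ hℓ).1 (hP ℓ hℓ).2 hx)
          (Submodule.smul_mem _ _ hx)
      · rw [LinearMap.sub_apply, LinearMap.sub_apply, map_sub,
          TH_W H (hP ℓ hℓ).1 (hP ℓ hℓ).2 (hInv_of_mem hx)]
        simp
    · have hr' : r ∣ N * q * Q := (hI r hr).2.trans ⟨q, (level_eq N Q q).symm⟩
      refine map_mem_nilSub (W N Q q ψ) _ (heckeU r - α r • LinearMap.id)
        (MS (GammaH (N * q) Q ψ) 𝒪) (fun x hx => ?_) (fun x hx => ?_) hy1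
        (hy2 _ (Or.inr ⟨r, hr, rfl⟩))
      · exact Submodule.sub_mem _ (heckeU_mem_GammaH H.tw (hI r hr).1.ne_zero hr' hx)
          (Submodule.smul_mem _ _ hx)
      · rw [LinearMap.sub_apply, LinearMap.sub_apply, map_sub,
          heckeU_W H (hI r hr).1 (hI r hr).2 (hInv_of_mem hx)]
        simp

/-- **`q`-newness**: if the localisation vanishes in level `N`, then `U_q² = D ψ(q)` on the
localisation in level `Nq`. -/
theorem heckeU_heckeU_of_part_eq_bot (hP : ∀ ℓ ∈ P, ℓ.Prime ∧ ¬ ℓ ∣ N * q * Q)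
    (hI : ∀ r ∈ I, r.Prime ∧ r ∣ N * Q) {ε : ℤ}
    (hbot : part (sgnMS 𝒪 ε (GammaH N Q ψ)) (opsH N Q ψ P t I α) = ⊥) {y : Pairs 𝒪}
    (hy : y ∈ part (sgnMS 𝒪 ε (GammaH (N * q) Q ψ)) (opsH (N * q) Q ψ P t I α)) :
    heckeU q (heckeU q y) = TwistH.D (N * q) Q ψ (dq Q q ψ) y := by
  refine heckeU_heckeU_of_trace H (mem_sgnMS.mp (mem_part.mp hy).1).1 ?_ ?_
  · have := trH_mem_part H hP hI hy
    rwa [hbot, Submodule.mem_bot] at this
  · have := trH_mem_part H hP hI (W_mem_part H hP hI hy)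
    rwa [hbot, Submodule.mem_bot] at this

end part

end Fermat.Agent.DR.SC.TraceH
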