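import Fermat.Agent.DR.SC.SuppHecke
import Fermat.Agent.DR.SC.TraceH

/-!
# The conductor at the scalar prime

* `exists_newform_chi`: if the `q`-part of the diamond operators acts non trivially then
  `q² ∣ cond`.
* `exists_newform_one`: if `U_q² = D ψ(q)` in level `Nq` then `q ∥ cond`.
-/

set_option autoImplicit false
set_option linter.unusedSectionVars false

noncomputable section

open Matrix Matrix.SpecialLinearGroup CongruenceSubgroup IsLocalRing CuspForm ModularFormClass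
open scoped MatrixGroups OnePoint

namespace Fermat.Agent.DR.SC.Supp

open Fermat.Agent.LR Fermat.Agent.LR.PS Fermat.Agent.RT Fermat.Agent.RT.TwistH
  Fermat.Agent.RT.Point Fermat.Agent.Newform Fermat.Agent.DR.SC.TraceH

variable {𝒪 : Type} [CommRing 𝒪] [IsDomain 𝒪] [IsDiscreteValuationRing 𝒪]
  [IsAdicComplete (maximalIdeal 𝒪) 𝒪] [Finite (ResidueField 𝒪)] [CharZero 𝒪]
variable {X : Type} [AddCommGroup X] [Module 𝒪 X] [Module.Finite 𝒪 X]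

theorem dvd_mul_prime {L A q : ℕ} (hq : q.Prime) (h : L ∣ A * q ^ 2) (h2 : ¬ q ^ 2 ∣ L) :
    L ∣ A * q := by
  by_cases hL : q ∣ L
  · obtain ⟨L', rfl⟩ := hL
    have h3 : ¬ q ∣ L' := fun h => h2 (by rw [pow_two]; exact Nat.mul_dvd_mul_left q h)
    have h4 : L' ∣ A :=
      (((Nat.Prime.coprime_iff_not_dvd hq).2 h3).symm.pow_right 2).dvd_of_dvd_mul_right
        ((dvd_mul_left L' q).trans h)
    rw [mul_comm]
    exact Nat.mul_dvd_mul_right h4 q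
  · exact ((((Nat.Prime.coprime_iff_not_dvd hq).2 hL).symm.pow_right 2).dvd_of_dvd_mul_right
      h).mul_right q

/-- **`χ` non trivial at `q` ⇒ `q² ∣ cond`.** -/
theorem exists_newform_chi {N Q q Q' : ℕ} {Δ : Type*} [CommGroup Δ] {ψ : (ZMod Q)ˣ →* Δ}
    (H : TwHyp N Q ψ) (hq : q.Prime) (hQ : Q = q * Q') (hQ' : Q' ∣ Q) [NeZero (N * Q ^ 2)]
    {SQ : Finset ℕ} [Fact (HasIntegralStructure (N * Q ^ 2) 2)]
    {θ : heckeAlgebra (N * Q ^ 2) 2 (↑SQ : Set ℕ) →+* ResidueField 𝒪}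
    (W : HMod 𝒪 N Q ψ (N * Q ^ 2) SQ θ X) {u : (ZMod Q)ˣ}
    (hu : ZMod.castHom hQ' (ZMod Q') (u : ZMod Q) = 1) {c : 𝒪} (hc : c ≠ 1)
    (hD : ∀ x, D N Q ψ (ψ u) (W.ι x) = c • W.ι x)
    (P : Ideal (heckeLocal (N * Q ^ 2) (↑SQ : Set ℕ) 𝒪 θ)) (hPp : P.IsPrime) (x : X)
    (hPx : ∀ a, a ∈ P ↔ W.Φ a x = 0) :
    ∃ (𝒪' : Type) (_ : CommRing 𝒪') (_ : IsDomain 𝒪') (_ : IsDiscreteValuationRing 𝒪')
      (_ : IsAdicComplete (maximalIdeal 𝒪') 𝒪') (_ : Finite (ResidueField 𝒪'))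
      (_ : CharZero 𝒪') (_ : Algebra 𝒪 𝒪') (_ : Module.Finite 𝒪 𝒪') (_ : Module.Free 𝒪 𝒪')
      (_ : IsLocalHom (algebraMap 𝒪 𝒪')),
      Function.Injective (algebraMap 𝒪 𝒪') ∧
      ∃ (y : heckeLocal (N * Q ^ 2) (↑SQ : Set ℕ) 𝒪 θ →ₐ[𝒪] 𝒪') (j : 𝒪' →+* ℂ),
        Function.Injective j ∧ RingHom.ker y = P ∧
        ∃ (L : ℕ) (_ : NeZero L) (g : CuspForm (Gamma0 L) 2), L ∣ N * Q ^ 2 ∧ g.IsNewform ∧
          (∀ (ℓ : ℕ) (hℓ : ℓ.Prime) (hℓM : ¬ ℓ ∣ N * Q ^ 2) (hℓS : ℓ ∉ (↑SQ : Set ℕ)),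
            qCoeff ⇑g ℓ = j (y (heckeLocal.π (N * Q ^ 2) (↑SQ : Set ℕ) 𝒪 θ
              (heckeAlgebra.T hℓ hℓM hℓS)))) ∧ q ^ 2 ∣ L := by
  have iQ : NeZero Q := ⟨H.hQ⟩
  obtain ⟨𝒪', i1, i2, i3, i4, i5, i6, i7, i8, i9, i10, hinj, y, j, hj, hyf, L, iL, g, hLM, hg,
    hga, w, hw, hw0, hwMS, ⟨χ, hχ⟩, hTw, -⟩ := exists_newform_point H W P hPp x hPx
  refine ⟨𝒪', i1, i2, i3, i4, i5, i6, i7, i8, i9, i10, hinj, y, j, hj, hyf, L, iL, g, hLM, hg,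
    hga, ?_⟩
  by_contra hq2
  subst hQ
  have hNS : ∀ r : ℕ, r.Prime → r ∣ L → r ∈ (↑SQ : Set ℕ) := fun r hr h =>
    Finset.mem_coe.mpr (W.hSM r hr (h.trans hLM))
  have hbad : ∀ r : ℕ, r.Prime → r ∣ N * (q * Q') ^ 2 → r ∈ (↑SQ : Set ℕ) := fun r hr h =>
    Finset.mem_coe.mpr (W.hSM r hr h)
  have e1 : N * (q * Q') ^ 2 = N * Q' ^ 2 * q * q := by ring
  have e2 : N * (q * Q') ^ 2 / q = N * Q' ^ 2 * q := by rw [e1, Nat.mul_div_cancel _ hq.pos]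
  have hL : L ∣ N * (q * Q') ^ 2 / q := by
    rw [e2]
    refine dvd_mul_prime hq ?_ hq2
    rw [show N * Q' ^ 2 * q ^ 2 = N * (q * Q') ^ 2 by ring]
    exact hLM
  obtain ⟨x₀, hx₀, x₁, hx₁, e⟩ := exists_of_mem_eigMS hg (Finset.finite_toSet SQ) hbad
    (nonEis_of_isNewform hg (Finset.finite_toSet SQ) (NeZero.ne _) hNS) hq
    ⟨N * Q' ^ 2 * q, by rw [e1, mul_comm]⟩ hL hTw
  rw [e2] at hx₀ hx₁
  refine hw0 (eq_zero_of_Tw_old H hq rfl hQ' (hInv_of_mem hwMS) χ hχ ⟨u, hu, ?_⟩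
    (fun γ hγ => hx₀.1.2 γ hγ) (TInv_of_mem hx₁.1) e)
  intro h1
  have h2 : D N (q * Q') ψ (ψ u) w = ((j.comp (algebraMap 𝒪 𝒪')) c • LinearMap.id :
      Pairs ℂ →ₗ[ℂ] Pairs ℂ) w := by
    refine cspan_induction (fun x => ?_) hw
    rw [← mapCoeff_D, hD, mapCoeff_smul']
    rfl
  rw [hχ, h1, one_smul] at h2
  have h3 : (1 - (j.comp (algebraMap 𝒪 𝒪')) c) • w = 0 := by
    rw [sub_smul, one_smul, sub_eq_zero]
    exact h2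
  have h4 := sub_eq_zero.mp ((smul_eq_zero.mp h3).resolve_right hw0)
  have h5 : Function.Injective (j.comp (algebraMap 𝒪 𝒪')) := hj.comp hinj
  exact hc (h5 (by rw [← h4, map_one]))

/-- **`U_q² = D ψ(q)` ⇒ `q ∥ cond`.** -/
theorem exists_newform_one {N Q q : ℕ} {Δ : Type*} [CommGroup Δ] {ψ : (ZMod Q)ˣ →* Δ}
    (H : TraceH.Hyp N Q q ψ) {M : ℕ} [NeZero M] {SQ : Finset ℕ} [Fact (HasIntegralStructure M 2)]
    {θ : heckeAlgebra M 2 (↑SQ : Set ℕ) →+* ResidueField 𝒪}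
    (W : HMod 𝒪 (N * q) Q ψ M SQ θ X)
    (hU : ∀ x, heckeU q (heckeU q (W.ι x)) = D (N * q) Q ψ (dq Q q ψ) (W.ι x))
    (P : Ideal (heckeLocal M (↑SQ : Set ℕ) 𝒪 θ)) (hPp : P.IsPrime) (x : X)
    (hPx : ∀ a, a ∈ P ↔ W.Φ a x = 0) :
    ∃ (𝒪' : Type) (_ : CommRing 𝒪') (_ : IsDomain 𝒪') (_ : IsDiscreteValuationRing 𝒪')
      (_ : IsAdicComplete (maximalIdeal 𝒪') 𝒪') (_ : Finite (ResidueField 𝒪'))
      (_ : CharZero 𝒪') (_ : Algebra 𝒪 𝒪') (_ : Module.Finite 𝒪 𝒪') (_ : Module.Free 𝒪 𝒪')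
      (_ : IsLocalHom (algebraMap 𝒪 𝒪')),
      Function.Injective (algebraMap 𝒪 𝒪') ∧
      ∃ (y : heckeLocal M (↑SQ : Set ℕ) 𝒪 θ →ₐ[𝒪] 𝒪') (j : 𝒪' →+* ℂ),
        Function.Injective j ∧ RingHom.ker y = P ∧
        ∃ (L : ℕ) (_ : NeZero L) (g : CuspForm (Gamma0 L) 2), L ∣ M ∧ g.IsNewform ∧
          (∀ (ℓ : ℕ) (hℓ : ℓ.Prime) (hℓM : ¬ ℓ ∣ M) (hℓS : ℓ ∉ (↑SQ : Set ℕ)),
            qCoeff ⇑g ℓ = j (y (heckeLocal.π M (↑SQ : Set ℕ) 𝒪 θ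
              (heckeAlgebra.T hℓ hℓM hℓS)))) ∧ q ∣ L ∧ ¬ q ^ 2 ∣ L := by
  have iQ : NeZero Q := ⟨H.tw.hQ⟩
  obtain ⟨𝒪', i1, i2, i3, i4, i5, i6, i7, i8, i9, i10, hinj, y, j, hj, hyf, L, iL, g, hLM, hg,
    hga, w, hw, hw0, hwMS, ⟨χ, hχ⟩, hTw, hTw0⟩ := exists_newform_point H.tw W P hPp x hPx
  refine ⟨𝒪', i1, i2, i3, i4, i5, i6, i7, i8, i9, i10, hinj, y, j, hj, hyf, L, iL, g, hLM, hg,
    hga, ?_⟩
  have hq := H.prime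
  have hwI := hInv_of_mem hwMS
  have hU' : heckeU q (heckeU q w) = D (N * q) Q ψ (dq Q q ψ) w := by
    refine cspan_induction (B := heckeU q ∘ₗ heckeU q) (fun x => ?_) hw
    rw [LinearMap.comp_apply, ← mapCoeff_heckeU, ← mapCoeff_heckeU, hU, mapCoeff_D]
  have hqN : q ∣ N * q := dvd_mul_left q N
  have hqNQ : q ∣ N * q * Q := hqN.mul_right Q
  have hUU : heckeU q (heckeU q (Tw (N * q) Q ψ w)) = Tw (N * q) Q ψ w := by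
    have h1 := (hwI.D (wN ψ q)⁻¹).heckeU H.tw hq.ne_zero hqNQ
    rw [heckeU_Tw H.tw hq.ne_zero hqN hwI, heckeU_Tw H.tw hq.ne_zero hqN h1,
      D_heckeU H.tw hq.ne_zero hqNQ (hwI.D _), hwI.D_D H.tw, ← mul_inv,
      wN_mul_self H.tw H.copQ, ← dq_eq H, ← D_heckeU H.tw hq.ne_zero hqNQ hwI,
      ← D_heckeU H.tw hq.ne_zero hqNQ (hwI.heckeU H.tw hq.ne_zero hqNQ), hU', hwI.D_D H.tw,
      inv_mul_cancel, hwI.D_one H.tw]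
  have hNS : ∀ r : ℕ, r.Prime → r ∣ L → r ∈ (↑SQ : Set ℕ) := fun r hr h =>
    Finset.mem_coe.mpr (W.hSM r hr (h.trans hLM))
  have e1 : N * q * Q ^ 2 = N * Q ^ 2 * q := by ring
  have hbad : ∀ r : ℕ, r.Prime → r ∣ N * Q ^ 2 * q → r ∈ (↑SQ : Set ℕ) := fun r hr h => by
    refine Finset.mem_coe.mpr (W.hSN r hr ?_)
    rw [← e1] at h
    rcases (Nat.Prime.dvd_mul hr).mp h with h | h
    · exact h.mul_right Q
    · exact (hr.dvd_of_dvd_pow h).mul_left _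
  have hqM : ¬ q ∣ N * Q ^ 2 := by
    intro h
    rcases hq.dvd_mul.mp h with h | h
    · exact H.hqN h
    · exact hq.one_lt.ne' (Nat.Coprime.eq_one_of_dvd H.copQ (hq.dvd_of_dvd_pow h))
  have iN : NeZero (N * Q ^ 2) := ⟨fun h => by rw [h] at hqM; exact hqM (dvd_zero q)⟩
  rw [e1] at hTw
  obtain ⟨h1, h2, -⟩ := dvd_of_heckeU_sq hg (Finset.finite_toSet SQ) hq hqM hbad hNS hTw hTw0 hUU
  exact ⟨h1, h2⟩

end Fermat.Agent.DR.SC.Supp
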