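import Fermat.Agent.DR.SC.Ctx
import Fermat.Agent.RT.TWAct
import Fermat.Agent.RT.DatumGal
import Fermat.Agent.RT.Wiring.Ctx

/-!
# SC-7: the character `θ` and the Galois datum at the Taylor–Wiles levels (scalar case)

`V : TWP p N r` arbitrary (index `0` may be the scalar prime), `θ₀ : heckeAlgebra N₁ 2 S → k` with
`N₁ ∣ N V.Q²`, `θ₀ T_ℓ = residue (t ℓ)`.
-/

set_option autoImplicit false
set_option linter.unusedSectionVars false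

open Polynomial IsLocalRing CuspForm CongruenceSubgroup

noncomputable section

namespace Fermat.Agent.DR.SC.Theta

open Fermat.Agent.RT Fermat.Agent.RT.TWS Fermat.Agent.RT.TWS.TWP Fermat.Agent.RT.TWBase

local notation "Qbar" => AlgebraicClosure ℚ
local notation "Γℚ" => (AlgebraicClosure ℚ ≃ₐ[ℚ] AlgebraicClosure ℚ)

section SQ

variable {p N r : ℕ} (V : TWP p N r) (S : Finset ℕ)

/-- The excluded set at the level of `V`. -/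
def setQ : Finset ℕ := S ∪ Finset.univ.image V.q

theorem mem_setQ {ℓ : ℕ} : ℓ ∈ setQ V S ↔ ℓ ∈ S ∨ ∃ i, ℓ = V.q i := by
  rw [setQ, Finset.mem_union, Finset.mem_image]
  refine or_congr Iff.rfl ⟨?_, ?_⟩
  · rintro ⟨i, -, rfl⟩; exact ⟨i, rfl⟩
  · rintro ⟨i, rfl⟩; exact ⟨i, Finset.mem_univ i, rfl⟩

theorem subset_setQ : S ⊆ setQ V S := Finset.subset_union_left

theorem isSQ_setQ : IsSQ V (↑S : Set ℕ) (↑(setQ V S) : Set ℕ) := by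
  intro ℓ hℓ
  rw [Finset.mem_coe, Finset.mem_coe, mem_setQ, V.prime_dvd_Q_iff hℓ]

variable {V S}

theorem mem_setQ_of_dvd (hNS : ∀ q : ℕ, q.Prime → q ∣ N → q ∈ S) {q : ℕ} (hq : q.Prime)
    (h : q ∣ N * V.Q ^ 2) : q ∈ setQ V S := by
  rw [mem_setQ]
  rcases (Nat.Prime.dvd_mul hq).mp h with h | h
  · exact Or.inl (hNS q hq h)
  · right
    exact (V.prime_dvd_Q_iff hq).mp (hq.dvd_of_dvd_pow h)

theorem neZero_level (hN : N ≠ 0) : NeZero (N * V.Q ^ 2) :=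
  ⟨mul_ne_zero hN (pow_ne_zero 2 V.Q_ne_zero)⟩

theorem dvd_level_cons {V : TWP p N (r + 1)} : N * V.q 0 ∣ N * V.Q ^ 2 := by
  refine mul_dvd_mul_left N ?_
  rw [sq]
  exact (V.dvd_Q 0).mul_right _

end SQ

section Main

variable {p N r : ℕ} {V : TWP p N r} {S : Finset ℕ} {k : Type*} [CommRing k]

/-- **The character `θ_V`** at the level `N V.Q²`. -/
theorem exists_theta {N₁ : ℕ} [NeZero N₁] [NeZero (N * V.Q ^ 2)] (hd : N₁ ∣ N * V.Q ^ 2)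
    (hNS : ∀ q : ℕ, q.Prime → q ∣ N → q ∈ S)
    (θ₀ : heckeAlgebra N₁ 2 (↑S : Set ℕ) →+* k) {t : ℕ → k}
    (h₀ : ∀ (ℓ : ℕ) (hℓ : ℓ.Prime) (hℓN : ¬ ℓ ∣ N₁) (hℓS : ℓ ∉ (↑S : Set ℕ)),
      t ℓ = θ₀ (heckeAlgebra.T hℓ hℓN hℓS)) :
    ∃ θ : heckeAlgebra (N * V.Q ^ 2) 2 (↑(setQ V S) : Set ℕ) →+* k,
      ∀ (ℓ : ℕ) (hℓ : ℓ.Prime) (hℓN : ¬ ℓ ∣ N * V.Q ^ 2) (hℓS : ℓ ∉ (↑(setQ V S) : Set ℕ)),
        t ℓ = θ (heckeAlgebra.T hℓ hℓN hℓS) := by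
  have hS : (↑S : Set ℕ) ⊆ (↑(setQ V S) : Set ℕ) := Finset.coe_subset.mpr (subset_setQ V S)
  have hN : ∀ q : ℕ, q.Prime → q ∣ N * V.Q ^ 2 → q ∈ (↑(setQ V S) : Set ℕ) := fun q hq h =>
    Finset.mem_coe.mpr (mem_setQ_of_dvd hNS hq h)
  refine ⟨θ₀.comp (chg hd hS hN), fun ℓ hℓ hℓN hℓS => ?_⟩
  have h1 : ¬ ℓ ∣ N₁ := fun h => hℓN (h.trans hd)
  have h2 : ℓ ∉ (↑S : Set ℕ) := fun h => hℓS (hS h)
  rw [RingHom.comp_apply, chg_T hd hS hN hℓ hℓN hℓS h1 h2, h₀ ℓ hℓ h1 h2]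

end Main

section Datum

variable {p N r : ℕ} [hp : Fact p.Prime] {V : TWP p N r} {S : Finset ℕ}
variable {𝒪 : Type} [CommRing 𝒪] [IsDomain 𝒪] [IsDiscreteValuationRing 𝒪]
  [IsAdicComplete (maximalIdeal 𝒪) 𝒪] [Finite (ResidueField 𝒪)] [CharZero 𝒪]
  {ρbar : ResidualGaloisRep (ResidueField 𝒪)} {t : ℕ → 𝒪}

/-- a non-Eisenstein prime for the level `D` outside any finite set. -/
theorem exists_nonEis_t (hp𝒪 : (p : 𝒪) ∈ maximalIdeal 𝒪) (habs : ρbar.IsAbsolutelyIrreducible)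
    (hρt : ∀ ℓ : ℕ, ℓ.Prime → ℓ ∉ S → ∀ A : ValuationSubring Qbar, A.LiesOverPrime ℓ →
      ∀ σ : Γℚ, A.IsFrobeniusAt σ ℓ →
        LinearMap.charpoly (ρbar.ρ σ) =
          X ^ 2 - C (residue 𝒪 (t ℓ)) * X + C ((ℓ : ℕ) : ResidueField 𝒪))
    (D : ℕ) [NeZero D] (S' : Finset ℕ) :
    ∃ ℓ₀ : ℕ, ℓ₀.Prime ∧ ℓ₀ ∉ (↑S' : Set ℕ) ∧ ((ℓ₀ : ℕ) : ZMod D) = 1 ∧
      residue 𝒪 (t ℓ₀) ≠ 1 + (ℓ₀ : ResidueField 𝒪) := by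
  have hp0 : (p : ResidueField 𝒪) = 0 := by
    rw [← map_natCast (residue 𝒪) p]; exact (residue_eq_zero_iff _).mpr hp𝒪
  obtain ⟨ℓ₀, h1, h2, h3, h4⟩ := exists_nonEis (p := p) hp0 ρbar habs S
    (fun ℓ => residue 𝒪 (t ℓ)) (fun ℓ hℓ hℓS A hA σ hσ => hρt ℓ hℓ hℓS A hA σ hσ) D S'
  exact ⟨ℓ₀, h1, fun h => h2 (Finset.mem_coe.mp h), h3, h4⟩

/-- **The Galois datum** over `heckeLocal` at the level of `V`. -/
theorem exists_datum_t (h30 : Datum.S30Statement) (hp2 : p ≠ 2)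
    (hp𝒪 : (p : 𝒪) ∈ maximalIdeal 𝒪) (habs : ρbar.IsAbsolutelyIrreducible)
    (hρt : ∀ ℓ : ℕ, ℓ.Prime → ℓ ∉ S → ∀ A : ValuationSubring Qbar, A.LiesOverPrime ℓ →
      ∀ σ : Γℚ, A.IsFrobeniusAt σ ℓ →
        LinearMap.charpoly (ρbar.ρ σ) =
          X ^ 2 - C (residue 𝒪 (t ℓ)) * X + C ((ℓ : ℕ) : ResidueField 𝒪))
    (hpS : p ∈ S) (hNS : ∀ q : ℕ, q.Prime → q ∣ N → q ∈ S)
    [NeZero (N * V.Q ^ 2)] [Fact (HasIntegralStructure (N * V.Q ^ 2) 2)]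
    {θ : heckeAlgebra (N * V.Q ^ 2) 2 (↑(setQ V S) : Set ℕ) →+* ResidueField 𝒪}
    (hθ : ∀ (ℓ : ℕ) (hℓ : ℓ.Prime) (hℓN : ¬ ℓ ∣ N * V.Q ^ 2)
      (hℓS : ℓ ∉ (↑(setQ V S) : Set ℕ)), residue 𝒪 (t ℓ) = θ (heckeAlgebra.T hℓ hℓN hℓS)) :
    ∃ d : HeckeGaloisRepDatum (N * V.Q ^ 2) (↑(setQ V S) : Set ℕ) 𝒪 θ
        (heckeLocal (N * V.Q ^ 2) (↑(setQ V S) : Set ℕ) 𝒪 θ),
      d.π = heckeLocal.π (N * V.Q ^ 2) (↑(setQ V S) : Set ℕ) 𝒪 θ ∧ d.ρ.DetIsCyclotomic p :=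
  DatumGal.exists_datum_of_S30 hp2 (N * V.Q ^ 2) (setQ V S) (subset_setQ V S hpS)
    (fun q hq h => mem_setQ_of_dvd hNS hq h) 𝒪 hp𝒪 θ (RingHom.id _) (RingHom.id _)
    ρbar habs
    (fun ℓ hℓ hℓN hℓS A hA σ hσ => by
      rw [Polynomial.map_id, Polynomial.map_id, ← hθ ℓ hℓ hℓN hℓS]
      exact hρt ℓ hℓ (fun h => hℓS (Finset.mem_coe.mpr (subset_setQ V S h))) A hA σ hσ)
    CMP.Density.frobDensity h30

/-- the Frobenius polynomials of `ρbar` in terms of `θ_V` (the hypothesis `hfrob` of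
`Action.exists_action`). -/
theorem charpoly_frob_theta [NeZero (N * V.Q ^ 2)]
    (hρt : ∀ ℓ : ℕ, ℓ.Prime → ℓ ∉ S → ∀ A : ValuationSubring Qbar, A.LiesOverPrime ℓ →
      ∀ σ : Γℚ, A.IsFrobeniusAt σ ℓ →
        LinearMap.charpoly (ρbar.ρ σ) =
          X ^ 2 - C (residue 𝒪 (t ℓ)) * X + C ((ℓ : ℕ) : ResidueField 𝒪))
    {θ : heckeAlgebra (N * V.Q ^ 2) 2 (↑(setQ V S) : Set ℕ) →+* ResidueField 𝒪}
    (hθ : ∀ (ℓ : ℕ) (hℓ : ℓ.Prime) (hℓN : ¬ ℓ ∣ N * V.Q ^ 2)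
      (hℓS : ℓ ∉ (↑(setQ V S) : Set ℕ)), residue 𝒪 (t ℓ) = θ (heckeAlgebra.T hℓ hℓN hℓS))
    (ℓ : ℕ) (hℓ : ℓ.Prime) (hℓN : ¬ ℓ ∣ N * V.Q ^ 2) (hℓS : ℓ ∉ (↑(setQ V S) : Set ℕ))
    (A : ValuationSubring Qbar) (hA : A.LiesOverPrime ℓ) (σ : Γℚ) (hσ : A.IsFrobeniusAt σ ℓ) :
    LinearMap.charpoly (ρbar.ρ σ) =
      X ^ 2 - C (θ (heckeAlgebra.T hℓ hℓN hℓS)) * X + C ((ℓ : ℕ) : ResidueField 𝒪) := by
  rw [← hθ ℓ hℓ hℓN hℓS]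
  exact hρt ℓ hℓ (fun h => hℓS (Finset.mem_coe.mpr (subset_setQ V S h))) A hA σ hσ

/-- reducedness of `heckeLocal` at the level of `V`. -/
theorem isReduced_heckeLocal_t (hNS : ∀ q : ℕ, q.Prime → q ∣ N → q ∈ S)
    [NeZero (N * V.Q ^ 2)] [Fact (HasIntegralStructure (N * V.Q ^ 2) 2)]
    (θ : heckeAlgebra (N * V.Q ^ 2) 2 (↑(setQ V S) : Set ℕ) →+* ResidueField 𝒪) :
    IsReduced (heckeLocal (N * V.Q ^ 2) (↑(setQ V S) : Set ℕ) 𝒪 θ) :=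
  Wiring.isReduced_heckeLocal_W fun _ hq h => mem_setQ_of_dvd hNS hq h

/-- the structural instance at any level. -/
theorem fact_hasIntegralStructure (M : ℕ) [NeZero M] : Fact (HasIntegralStructure M 2) :=
  ⟨IntStr.hasIntegralStructure M 2⟩

end Datum

end Fermat.Agent.DR.SC.Theta
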